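import Fermat.Agent.TraceFn.LevelKill
import Fermat.Agent.MW.Height.Main
import Fermat.Agent.MW.DivisibleJZero
import Fermat.Agent.MW.Assembly

/-!
# A Hecke polynomial vanishing on cusp forms kills every point of the Jacobian

The image of a point is divisible by every prime power in the classes fixed at a finite level, and
heights show that only zero is.
-/

set_option autoImplicit false
set_option linter.style.haveILetI false

noncomputable section

open AlgebraicCurve

namespace Fermat.Agent.LL.Mazur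

section Height

open MW.Height MW.Height.Setup

variable {k F : Type} [Field k] [Field F] [Algebra k F]

/-- Classes fixed by the automorphisms fixing `L`. -/
def levelClasses [Algebra ℚ k] (ρ : (k ≃ₐ[ℚ] k) →* SemilinearAut k F)
    (L : IntermediateField ℚ k) : AddSubgroup (Pic0 k F) where
  carrier := {x | ∀ σ : k ≃ₐ[ℚ] k, (∀ a ∈ L, σ a = a) → ρ σ • x = x}
  zero_mem' _ _ := smul_zero _
  add_mem' ha hb σ hσ := by rw [smul_add, ha σ hσ, hb σ hσ]
  neg_mem' ha σ hσ := by rw [smul_neg, ha σ hσ]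

/-- Ratios of coordinates of a class fixed at a finite level lie in one number field. -/
theorem exists_coord_div_mem_level [IsAlgClosed k] [FF.IsFunctionField k F] (P : Setup k F) [CharZero k] [Algebra ℚ k] [Algebra.IsAlgebraic ℚ k]
    (ρ : (k ≃ₐ[ℚ] k) →* SemilinearAut k F)
    (hbase : ∀ σ a, SemilinearAut.baseAut (ρ σ) a = σ a)
    (hfin : ∀ x : F, ∃ L : IntermediateField ℚ k, FiniteDimensional ℚ L ∧
      ∀ σ : k ≃ₐ[ℚ] k, (∀ a ∈ L, σ a = a) → ρ σ • x = x) :
    ∀ L₁ : IntermediateField ℚ k, FiniteDimensional ℚ L₁ →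
      ∃ L : IntermediateField ℚ k, FiniteDimensional ℚ L ∧
        ∀ T : P.Theta, T.cls ∈ levelClasses ρ L₁ →
          ∀ S S₀, T.coord S / T.coord S₀ ∈ L := by
  intro L₁ hL₁
  choose L hL hLfix using place_fixed_at_level ρ hfin
  let L₀ : IntermediateField ℚ k := (L P.E.O ⊔ ⨆ u, L (P.U u)) ⊔ L₁
  have hfinite : FiniteDimensional ℚ L₀ := by
    haveI : ∀ u : Fin (8 * P.E.M₀), FiniteDimensional ℚ (L (P.U u)) := fun u => hL _
    haveI : FiniteDimensional ℚ (L P.E.O) := hL _
    infer_instance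
  haveI : IsAlgClosure ℚ k := ⟨inferInstance, inferInstance⟩
  haveI : Normal ℚ k := IsAlgClosure.normal ℚ k
  haveI : IsGalois ℚ k := {}
  refine ⟨L₀, hfinite, fun T hT S S₀ => ?_⟩
  rw [← InfiniteGalois.fixedField_fixingSubgroup L₀, IntermediateField.mem_fixedField_iff]
  intro σ hσ
  have hσ' : ∀ a ∈ L₀, σ a = a := fun a ha =>
    (IntermediateField.mem_fixingSubgroup_iff L₀ σ).mp hσ a ha
  have hO : ρ σ • P.E.O = P.E.O := hLfix _ σ fun a ha =>
    hσ' a (le_sup_left (b := L₁) (le_sup_left (b := ⨆ u, L (P.U u)) ha))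
  have hU : ∀ u, ρ σ • P.U u = P.U u := fun u => hLfix _ σ fun a ha =>
    hσ' a (le_sup_left (b := L₁) (le_sup_right (a := L P.E.O) (le_iSup (fun u => L (P.U u)) u ha)))
  obtain ⟨c, hc, h1⟩ := T.exists_coord_smulAut hO hU
  have hcls : T.cls = (T.smulAut (ρ σ) hU).cls := by
    refine (hT σ fun a ha => hσ' a (le_sup_right (a := L P.E.O ⊔ ⨆ u, L (P.U u)) ha)).symm.trans ?_
    rw [Theta.cls, SemilinearAut.pic0_smul_mk]
    rfl
  obtain ⟨d, hd, h2⟩ := Theta.exists_coord_eq P T _ hcls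
  have key : ∀ S, σ (T.coord S) = d / c * T.coord S := fun S => by
    have h := (h1 S).symm.trans (h2 S)
    rw [hbase] at h
    rw [div_mul_eq_mul_div, ← h, mul_div_cancel_left₀ _ hc]
  rw [map_div₀, key, key, mul_div_mul_left _ _ (div_ne_zero hd hc)]

/-- A nonnegative height with the approximate parallelogram law and Northcott on the classes fixed
by the fixing group of a number field. -/
theorem exists_height_level [CharZero k] [Algebra ℚ k] [Algebra.IsAlgebraic ℚ k] [IsAlgClosed k]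
    [FF.IsFunctionField k F] {g : ℕ} (hRR : NonspecialRR k F g)
    (ρ : (k ≃ₐ[ℚ] k) →* SemilinearAut k F)
    (hbase : ∀ σ a, SemilinearAut.baseAut (ρ σ) a = σ a)
    (hfin : ∀ x : F, ∃ L : IntermediateField ℚ k, FiniteDimensional ℚ L ∧
      ∀ σ : k ≃ₐ[ℚ] k, (∀ a ∈ L, σ a = a) → ρ σ • x = x) :
    ∀ L₁ : IntermediateField ℚ k, FiniteDimensional ℚ L₁ →
      ∃ h : levelClasses ρ L₁ → ℝ, ∃ C : ℝ, Northcott h ∧ (∀ x, 0 ≤ h x) ∧
      ∀ x y, |h (x + y) + h (x - y) - 2 * (h x + h y)| ≤ C := by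
  classical
  intro L₁ hL₁
  obtain ⟨P⟩ := nonempty_setup k F
  obtain ⟨L, hL, hmem⟩ := exists_coord_div_mem_level P ρ hbase hfin L₁ hL₁
  obtain ⟨C, hC, hpar⟩ := P.exists_parallelogram
  obtain ⟨H, B, hH0, hHfin, hHrel⟩ :=
    exists_height_of_relations L (ι := P.SIdx) (C := C) hC
  -- intrinsic data of every class, with a nonvanishing coordinate
  have hdata : ∀ x : Pic0 k F, ∃ T : P.Theta, T.cls = x ∧ ∃ S₀, T.coord S₀ ≠ 0 := by
    intro x
    obtain ⟨R, hR, -⟩ := Setup.Rep.exists_cls_eq P x ∅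
    obtain ⟨T, hT, K, -, hK⟩ := R.exists_theta (Or.inl rfl)
    obtain ⟨S, hS⟩ := R.exists_coord_ne_zero (Or.inl rfl)
    exact ⟨T, hT.trans hR, S, fun h0 => hS (by rw [hK, h0, mul_zero])⟩
  choose T hT S₀ hS₀ using hdata
  let u : levelClasses ρ L₁ → P.SIdx → L := fun x S =>
    ⟨(T x).coord S / (T x).coord (S₀ x), hmem (T x) (by rw [hT]; exact x.2) S (S₀ x)⟩
  let v : levelClasses ρ L₁ → P.SIdx → L := fun x S => u x S ^ 2
  have hu1 : ∀ x, u x (S₀ x) = 1 := fun x => Subtype.ext (div_self (hS₀ _))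
  have hv1 : ∀ x, v x (S₀ x) = 1 := fun x => by simp only [v, hu1, one_pow]
  have hv0 : ∀ x, v x ≠ 0 := fun x h =>
    one_ne_zero ((hv1 x).symm.trans (congrFun h (S₀ x)))
  -- coordinates of any representative, in terms of the normalised ones
  have hrep : ∀ (q : ℕ) (R : P.Rep q), q = 1 ∨ q = 2 → ∀ x : levelClasses ρ L₁, R.cls = x →
      ∃ c : k, c ≠ 0 ∧ ∀ w : AbsoluteValue k ℝ, R.msq w = w c * ⨆ S, w (v x S : k) := by
    intro q R hq x hx
    obtain ⟨T', hT', K, hK0, hK⟩ := R.exists_theta hq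
    obtain ⟨a, ha0, ha⟩ :=
      Setup.Theta.exists_coord_eq P (T x) T' ((hT x).trans (hx.symm.trans hT'.symm))
    refine ⟨(K * a * (T x).coord (S₀ x)) ^ 2,
      pow_ne_zero _ (mul_ne_zero (mul_ne_zero hK0 ha0) (hS₀ _)), fun w => ?_⟩
    rw [Setup.Rep.msq, Real.mul_iSup_of_nonneg (AbsoluteValue.nonneg _ _)]
    refine iSup_congr fun S => ?_
    rw [← map_mul]
    refine congrArg w ?_
    show R.coord S ^ 2 = _ * ((T x).coord S / (T x).coord (S₀ x)) ^ 2
    rw [hK, ha, ← mul_pow]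
    field_simp [hS₀ x]
  refine ⟨fun x => H (v x), B, ⟨fun b => ?_⟩, fun x => hH0 _, fun x y => ?_⟩
  · -- Northcott
    have hfv : {z : P.SIdx → L | (∃ i, z i = 1) ∧ H z ≤ b}.Finite := hHfin b
    have hfu : {z : P.SIdx → L | (fun S => z S ^ 2) ∈
        {z : P.SIdx → L | (∃ i, z i = 1) ∧ H z ≤ b}}.Finite := by
      refine (hfv.biUnion fun z _ => Set.Finite.pi fun S : P.SIdx =>
        Polynomial.finite_setOf_isRoot (p := Polynomial.X ^ 2 - Polynomial.C (z S))
          (Polynomial.X_pow_sub_C_ne_zero two_pos _)).subset ?_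
      intro z hz
      refine Set.mem_biUnion hz ?_
      rw [Set.mem_univ_pi]
      intro S
      show Polynomial.IsRoot _ _
      simp [Polynomial.IsRoot]
    refine Set.Finite.of_finite_image ?_ (fun x _ y _ h => Subtype.ext (α := Pic0 k F) h)
      (f := fun x : levelClasses ρ L₁ => (x : Pic0 k F))
    refine (hfu.biUnion fun z _ => P.finite_cls_of_coord fun S => (z S : k)).subset ?_
    rintro _ ⟨x, hx, rfl⟩
    refine Set.mem_biUnion (x := u x) ⟨⟨S₀ x, hv1 x⟩, hx⟩ ⟨T x, hT x, S₀ x, hS₀ x, fun S => rfl⟩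
  · -- the parallelogram law
    obtain ⟨R₁, h1, -⟩ := Setup.Rep.exists_cls_eq P (x : Pic0 k F) ∅
    obtain ⟨R₂, h2, hd⟩ := Setup.Rep.exists_cls_eq P (y : Pic0 k F) (Finset.univ.image R₁.pt)
    obtain ⟨Rp, Rm, hp, hm, κ, hκ⟩ := hpar R₁ R₂ fun i j e =>
      hd j (Finset.mem_image.mpr ⟨i, Finset.mem_univ _, e⟩)
    rw [h1, h2] at hp hm
    obtain ⟨a₁, ha₁, e₁⟩ := hrep 1 R₁ (Or.inl rfl) x h1
    obtain ⟨a₂, ha₂, e₂⟩ := hrep 1 R₂ (Or.inl rfl) y h2
    obtain ⟨ap, hap, ep⟩ := hrep 2 Rp (Or.inr rfl) (x + y) (by rw [hp]; rfl)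
    obtain ⟨am, ham, em⟩ := hrep 2 Rm (Or.inr rfl) (x - y) (by rw [hm]; rfl)
    refine hHrel (v (x + y)) (v (x - y)) (v x) (v y) (hv0 _) (hv0 _) (hv0 _) (hv0 _)
      (κ * (a₁ * a₂) ^ 2 / (ap * am)) fun w => ?_
    obtain ⟨f1, f2⟩ := hκ w
    rw [ep, em, e₁, e₂] at f1 f2
    have hpos : 0 < w ap * w am := mul_pos (AbsoluteValue.pos _ hap) (AbsoluteValue.pos _ ham)
    rw [map_div₀, map_mul, map_pow, map_mul, map_mul]
    have key := mul_div_cancel₀ (w κ * (w a₁ * w a₂) ^ 2) hpos.ne'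
    constructor
    · refine le_of_mul_le_mul_left ?_ hpos
      refine ((le_of_eq ?_).trans f1).trans (le_of_eq ?_)
      · ring
      · linear_combination (-(C w * ((⨆ S, w (v x S : k)) * ⨆ S, w (v y S : k)) ^ 2)) * key
    · refine le_of_mul_le_mul_left ?_ hpos
      refine ((le_of_eq ?_).trans f2).trans (le_of_eq ?_)
      · linear_combination (((⨆ S, w (v x S : k)) * ⨆ S, w (v y S : k)) ^ 2) * key
      · ring

end Height

section Descent

variable {A : Type*} [AddCommGroup A]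

/-- Only zero is divisible by all prime powers in a group with a height. -/
theorem eq_zero_of_forall_exists_nsmul (h : A → ℝ) [Northcott h] (C : ℝ)
    (hC : ∀ x, 4 * h x - C ≤ h (2 • x)) {z : A}
    (hdiv : ∀ q : ℕ, q.Prime → ∀ n : ℕ, ∃ a : A, q ^ n • a = z) : z = 0 := by
  -- `z` has finite odd order
  choose a ha using hdiv 2 Nat.prime_two
  have hbound : ∀ (n : ℕ) (x : A), 2 ^ n • x = z → h x ≤ max (h z) |C| := by
    intro n
    induction n with
    | zero =>
      intro x hx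
      rw [pow_zero, one_nsmul] at hx
      rw [hx]; exact le_max_left _ _
    | succ n ih =>
      intro x hx
      have h1 := ih (2 • x) (by rw [← mul_nsmul', ← pow_succ, hx])
      have h2 := hC x
      have h3 : C ≤ |C| := le_abs_self C
      have h4 : |C| ≤ max (h z) |C| := le_max_right _ _
      linarith [abs_nonneg C]
  obtain ⟨i, j, hij, he⟩ := ((Northcott.finite_le (h := h) (max (h z) |C|)).exists_lt_map_eq_of_forall_mem
    (f := a) fun n => hbound n (a n) (ha n))
  have hz : (2 ^ (j - i)) • z = z := by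
    calc (2 ^ (j - i)) • z = (2 ^ (j - i) * 2 ^ i) • a i := by rw [mul_nsmul', ha]
      _ = (2 ^ j) • a j := by rw [← pow_add, Nat.sub_add_cancel hij.le, he]
      _ = z := ha j
  have hfin : addOrderOf z ∣ 2 ^ (j - i) - 1 := by
    refine addOrderOf_dvd_of_nsmul_eq_zero ?_
    rw [sub_nsmul _ Nat.one_le_two_pow, hz, one_nsmul, add_neg_cancel]
  by_contra hne
  obtain ⟨q, hq, hqd⟩ := Nat.exists_prime_and_dvd (mt AddMonoid.addOrderOf_eq_one_iff.mp hne)
  obtain ⟨c, hc⟩ := hqd
  have hq2 : ¬ 2 ∣ q := fun h2 => by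
    have h1 : 2 ∣ 2 ^ (j - i) - 1 := h2.trans ((Dvd.intro c hc.symm).trans hfin)
    have h3 : 2 ∣ 2 ^ (j - i) := dvd_pow_self 2 (by omega)
    have h4 := Nat.one_le_two_pow (n := j - i)
    omega
  have hord : 0 < addOrderOf z := Nat.pos_of_ne_zero fun h0 => by
    rw [h0] at hfin
    have h1 := Nat.eq_zero_of_zero_dvd hfin
    have h2 : 2 ≤ 2 ^ (j - i) := Nat.le_self_pow (by omega) 2
    omega
  set x := c • z
  have hx0 : x ≠ 0 := fun h0 => by
    have hc0 : 0 < c := Nat.pos_of_ne_zero fun h1 => by rw [h1, mul_zero] at hc; omega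
    have h1 : addOrderOf z ∣ c := addOrderOf_dvd_of_nsmul_eq_zero h0
    have h2 := Nat.le_of_dvd hc0 h1
    have h3 := hq.two_le
    nlinarith
  have hqx : q • x = 0 := by rw [← mul_nsmul', ← hc, addOrderOf_nsmul_eq_zero]
  choose b hb using hdiv q hq
  -- odd torsion has bounded height
  have hper : ∀ (n : ℕ) (w : A), q ^ n • w = 0 → 3 * h w ≤ C := by
    intro n w hw
    have hcop : Nat.Coprime 2 (q ^ n) := ((Nat.coprime_primes Nat.prime_two hq).mpr
      fun h2 => hq2 (h2 ▸ dvd_rfl)).pow_right n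
    have hper' : 2 ^ (q ^ n).totient • w = w := by
      obtain ⟨m, hm⟩ := (Nat.modEq_iff_dvd' Nat.one_le_two_pow).mp
        (Nat.ModEq.pow_totient hcop).symm
      rw [← Nat.sub_add_cancel (m := 1) (n := 2 ^ (q ^ n).totient) Nat.one_le_two_pow, add_nsmul,
        hm, mul_comm, mul_nsmul', hw, nsmul_zero, zero_add, one_nsmul]
    have ht : 0 < (q ^ n).totient := Nat.totient_pos.mpr (pow_pos hq.pos n)
    obtain ⟨i₀, -, hmax⟩ := Finset.exists_max_image (Finset.range (q ^ n).totient)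
      (fun i => h (2 ^ i • w)) ⟨0, Finset.mem_range.mpr ht⟩
    have hall : ∀ i, h (2 ^ i • w) ≤ h (2 ^ i₀ • w) := by
      intro i
      induction i using Nat.strong_induction_on with
      | _ i ih =>
        rcases lt_or_ge i (q ^ n).totient with hi | hi
        · exact hmax i (Finset.mem_range.mpr hi)
        · have h1 := ih (i - (q ^ n).totient) (by omega)
          have h2 : 2 ^ i • w = 2 ^ (i - (q ^ n).totient) • w := by
            conv_lhs => rw [← Nat.sub_add_cancel hi, pow_add, mul_nsmul', hper']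
          rw [h2]; exact h1
    have h1 := hC (2 ^ i₀ • w)
    have h2 := hall (i₀ + 1)
    have h3 := hall 0
    rw [pow_succ', mul_nsmul'] at h2
    rw [pow_zero, one_nsmul] at h3
    linarith
  have hkill : ∀ n, q ^ (n + 1) • (c • b n) = 0 := fun n => by
    rw [nsmul_left_comm, pow_succ', mul_nsmul', hb, nsmul_left_comm]
    exact hqx
  obtain ⟨i', j', hij', he'⟩ := ((Northcott.finite_le (h := h) (C / 3)).exists_lt_map_eq_of_forall_mem
    (f := fun n => c • b n) fun n => by
      show h (c • b n) ≤ C / 3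
      linarith [hper (n + 1) _ (hkill n)])
  refine hx0 ?_
  have hxn : ∀ n, q ^ n • (c • b n) = x := fun n => by rw [nsmul_left_comm, hb]
  calc x = q ^ j' • (c • b j') := (hxn j').symm
    _ = q ^ (j' - i') • x := by
      rw [← he', ← Nat.sub_add_cancel hij'.le, pow_add, mul_nsmul', hxn, Nat.add_sub_cancel]
    _ = 0 := by
      rw [← Nat.sub_add_cancel (show 1 ≤ j' - i' by omega), pow_succ, mul_nsmul', hqx, nsmul_zero]

end Descent

open ModularCurve

/-- **A polynomial vanishing in the Hecke algebra kills every point of the Jacobian.** -/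
theorem jHecke_eq_zero_of_awayEval {N : ℕ} [NeZero N] {S : Finset ℕ}
    (hNS : ∀ q : ℕ, q.Prime → q ∣ N → q ∈ S) {P : TraceFn.AwayHecke S}
    (hP : TraceFn.awayEval N S hNS P = 0) (y : JZero N) :
    TraceFn.jHecke N (TraceFn.awayIncl S P) y = 0 := by
  haveI : Algebra.IsAlgebraic ℚ (AlgebraicClosure ℚ) := AlgebraicClosure.isAlgebraic ℚ
  haveI : FF.IsFunctionField (AlgebraicClosure ℚ) (modularFunctionFieldBar N) :=
    MF.Coeff.isFunctionField_laurentBaseChange _ N
  set T := TraceFn.jHecke N (TraceFn.awayIncl S P) with hT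
  obtain ⟨L, hL, hy⟩ := MW.jzero_fixed_level MW.exists_unique_pole y
  obtain ⟨h, C, hN, -, hpar⟩ := exists_height_level (k := AlgebraicClosure ℚ)
    (F := modularFunctionFieldBar N) (g := genusFF (AlgebraicClosure ℚ) (modularFunctionFieldBar N))
    (fun D hD => MW.rrDim_of_large D hD)
    (arithmeticGalois (L := AlgebraicClosure ℚ) (modularFunctionFieldFull N)) (fun σ a => rfl)
    (MW.laurentBaseChange_fixed_level _) L hL
  have hmem : T y ∈ levelClasses (arithmeticGalois (L := AlgebraicClosure ℚ)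
      (modularFunctionFieldFull N)) L := fun σ hσ => by
    show σ • T y = T y
    rw [hT, ← TraceFn.jHecke_galois, hy σ hσ]
  have hz : (⟨T y, hmem⟩ : levelClasses (arithmeticGalois (L := AlgebraicClosure ℚ)
      (modularFunctionFieldFull N)) L) = 0 := by
    refine eq_zero_of_forall_exists_nsmul h (C + h 0) (fun x => ?_) fun q hq n => ?_
    · have h1 := (abs_le.mp (hpar x x)).1
      rw [sub_self, ← two_nsmul] at h1
      linarith
    · obtain ⟨y', hy'⟩ := MW.exists_nsmul_eq_jzero N (pow_ne_zero n hq.ne_zero) y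
      haveI := Fact.mk hq
      have hfix : ∀ σ : AlgebraicClosure ℚ ≃ₐ[ℚ] AlgebraicClosure ℚ, (∀ a ∈ L, σ a = a) →
          σ • T y' = T y' := fun σ hσ => by
        have hker := TraceFn.jHecke_eq_zero_of_awayEval_eq_zero hNS hP (p := q) (n := n)
          (x := σ • y' - y') (by
            rw [nsmul_sub, show q ^ n • σ • y' = σ • (q ^ n • y') from
              (map_nsmul (DistribSMul.toAddMonoidHom (JZero N) σ) (q ^ n) y').symm,
              hy', hy σ hσ, sub_self])
        rw [← hT, map_sub, sub_eq_zero] at hker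
        rw [hT, ← TraceFn.jHecke_galois, ← hT, hker]
      refine ⟨⟨T y', hfix⟩, Subtype.ext ?_⟩
      show q ^ n • T y' = T y
      rw [← map_nsmul, hy']
  exact congrArg Subtype.val hz

end Fermat.Agent.LL.Mazur
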