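import Fermat.Agent.LL.Mazur.ModP
import Fermat.Agent.LL.Mazur.KillsPoints
import Fermat.Agent.Newforms.Eigen
import Fermat.Agent.GAL.FromSpecialization
import Fermat.Agent.S29
import Fermat.Agent.S37

/-!
# Lowering the level at unramified primes by Mazur's principle

Residual modularity passes to multiples of the level, and at an unramified prime `r` of the level
either it passes to the quotient by `r` or `r ≡ 1` modulo `p` and Frobenius at `r` is a sign.
-/

set_option autoImplicit false

noncomputable section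

open ModularCurve Fermat.Agent.CondLevel

namespace Fermat.Agent.LL.Mazur

local notation "GQ" => AlgebraicClosure ℚ ≃ₐ[ℚ] AlgebraicClosure ℚ

/-- Residual representations are attached to eigenforms. -/
theorem residualAttachment : ResidualAttachment :=
  fun hg _ hp _ _ _ φ => S29.result hg hp φ

/-- The quadratic relation of Frobenius on torsion points of `J₀(N)`. -/
theorem torsionQuadratic (N p : ℕ) [NeZero N] : GAL.TorsionQuadratic N p :=
  (GAL.torsion_properties_of_specializationExists N p (HK.Corr.heckeOperatorsCommuteBar N)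
    (HK.Corr.smulCommClass_heckeModuleBar N)
    (S37.result N p (HK.Corr.heckeOperatorsCommuteBar N))).1

/-- **Mazur's principle for a curve.** If `E[p]` occurs at level `M r`, is unramified at `r` and
does not occur at level `M`, then `r ≡ 1` modulo `p` and Frobenius at `r` acts by a sign. -/
theorem frob_scalar_of_not_modular (W : WeierstrassCurve ℤ) (hΔ : W.Δ ≠ 0) {p : ℕ}
    [Fact p.Prime] (hp2 : p ≠ 2) (hirr : W.ModRepIsIrreducible p) {M r : ℕ} (hM : M ≠ 0)
    (hr : r.Prime) (hrp : r ≠ p) (hrM : ¬ r ∣ M)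
    (h3 : p = 3 → ∃ q : ℕ, q.Prime ∧ q ∣ M ∧ q % 3 = 2)
    (hmod : W.IsResiduallyModularOfLevel p (M * r)) (hunr : R59.ModUnramified W p r)
    (hno : ¬ W.IsResiduallyModularOfLevel p M) :
    r ≡ 1 [MOD p] ∧ ∀ A : ValuationSubring (AlgebraicClosure ℚ), A.LiesOverPrime r →
      ∀ σ : GQ, A.IsFrobeniusAt σ r → rhoTors W p σ = 1 ∨ rhoTors W p σ = -1 := by
  have : NeZero M := ⟨hM⟩
  have : NeZero r := ⟨hr.ne_zero⟩
  exact frob_scalar_of_not_residuallyModular residualAttachment W hΔ hp2 hirr hr hrp hrM h3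
    (torsionQuadratic (M * r) p) hmod (fun _ hMS _ hP => jHecke_eq_zero_of_awayEval hMS hP) hunr hno

/-- Residual modularity passes to multiples of the level. -/
theorem isResiduallyModularOfLevel_of_dvd (W : WeierstrassCurve ℤ) {p M N : ℕ} (hMN : M ∣ N)
    (hN : N ≠ 0) (hmod : W.IsResiduallyModularOfLevel p M) :
    W.IsResiduallyModularOfLevel p N := by
  have : NeZero N := ⟨hN⟩
  obtain ⟨g, 𝔪, hg, h𝔪, hp𝔪, hcong⟩ := hmod
  obtain ⟨f, hf, he⟩ := Newforms.exists_eigenform_of_dvd hMN hg
  refine ⟨f, 𝔪, hf, h𝔪, hp𝔪, fun ℓ hℓ hgood hℓN hℓp => ?_⟩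
  obtain ⟨a, ha, ha'⟩ := hcong ℓ hℓ hgood (fun h => hℓN (h.trans hMN)) hℓp
  exact ⟨a, ha.trans (he ℓ hℓ hℓN).symm, ha'⟩

end Fermat.Agent.LL.Mazur
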