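import Fermat.Agent.LL.Mazur.CharZero
import Fermat.Agent.LL.Mazur.Lower
import Fermat.Agent.LL.Residual.ModularTrace
import Fermat.Prelude.Def_FLTPrelim_FreyPackage
import Fermat.Prelude.Def_FLTPrelim_GaloisRep
import Fermat.Prelude.Def_FLTPrelim_ModularRep
import Fermat.Prelude.Def_FLTPrelim_Ramification

/-!
# Consequences of the Mazur principle

The principle for a Frey package, and in characteristic zero with congruent eigensystems.
-/

set_option autoImplicit false

noncomputable section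

open WeierstrassCurve WeierstrassCurve.Affine WeierstrassCurve.Affine.Point
open CuspForm ModularFormClass

namespace Fermat.Agent.LL.Mazur

/-- **Mazur principle.** If the mod `p` representation is modular of level `M r`, unramified at
`r` and not modular of level `M`, then `r ≡ 1` modulo `p` and Frobenius at `r` is `±1`. -/
theorem frob_scalar_of_not_modularRepOfLevel (P : FreyPackage) {M r : ℕ} [NeZero M]
    (hr : r.Prime) (hr2 : r ≠ 2) (hrp : r ≠ P.p) (hrM : ¬ r ∣ M) (hsq : Squarefree (M * r))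
    (hirr : GaloisRepIsIrreducible (K := AlgebraicClosure ℚ) ℚ P.freyCurve P.p)
    (hmod : P.ModularRepOfLevel (M * r)) (hunr : P.GaloisRepUnramifiedAt r)
    (hno : ¬ P.ModularRepOfLevel M) :
    r ≡ 1 [MOD P.p] ∧
      ∀ A : ValuationSubring (AlgebraicClosure ℚ), A.LiesOverPrime r →
        ∀ σ : AlgebraicClosure ℚ ≃ₐ[ℚ] AlgebraicClosure ℚ, A.IsFrobeniusAt σ r →
          (∀ x : Submodule.torsionBy ℤ (P.freyCurve⁄(AlgebraicClosure ℚ)).Point P.p, σ • x = x) ∨
          (∀ x : Submodule.torsionBy ℤ (P.freyCurve⁄(AlgebraicClosure ℚ)).Point P.p, σ • x = -x) := by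
  have : Fact P.p.Prime := ⟨P.pp⟩
  have hp5 := P.hp5
  have hirrW : P.freyCurveInt.ModRepIsIrreducible P.p := by
    unfold WeierstrassCurve.ModRepIsIrreducible
    rw [ECLocal.freyCurveInt_map]
    exact hirr
  have hunrW : R59.ModUnramified P.freyCurveInt P.p r := by
    intro A hA σ hσ
    refine LinearMap.ext fun x => ?_
    have h := hunr A hA σ hσ
    rw [← ECLocal.freyCurveInt_map] at h
    exact h x
  obtain ⟨h1, h2⟩ := frob_scalar_of_not_modular P.freyCurveInt
    (ECLocal.freyCurveInt_Δ_ne_zero P) (by omega) hirrW (NeZero.ne M) hr hrp hrM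
    (fun h => absurd h (by omega))
    (isResiduallyModularOfLevel_of_frey residualAttachment P
      (mul_ne_zero (NeZero.ne M) hr.ne_zero) hmod) hunrW
    fun ⟨g, 𝔪, hg, h𝔪, hp𝔪, hc⟩ =>
      hno ⟨g, P.freyCurveInt, 𝔪, hg, freyCurveInt_isIntegralModelOf P, h𝔪, hp𝔪, hc⟩
  refine ⟨h1, fun A hA σ hσ => ?_⟩
  rw [← ECLocal.freyCurveInt_map]
  exact (h2 A hA σ hσ).imp (fun h x => LinearMap.congr_fun h x) fun h x => LinearMap.congr_fun h x

/-- An eigensystem of level `M r` whose reduction does not occur at level `M` gives a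
representation which is ramified at `r`. -/
theorem not_isUnramifiedAt_of_not_occurs {M r p : ℕ} [NeZero M] [NeZero (M * r)] [Fact p.Prime] (hp2 : p ≠ 2)
    (hr : r.Prime) (hrM : ¬ r ∣ M) (hrp : r ≠ p)
    {g : CuspForm (CongruenceSubgroup.Gamma0 (M * r)) 2} (hg : g.IsNormalizedEigenform)
    (S : Finset ℕ) (hpS : p ∈ S) (hS : ∀ l : ℕ, l.Prime → l ∣ M * r → l ∈ S)
    (O' : Type) [CommRing O'] [IsDomain O'] [IsDiscreteValuationRing O']
    [IsAdicComplete (IsLocalRing.maximalIdeal O') O'] [Finite (IsLocalRing.ResidueField O')]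
    [CharZero O'] (hpO' : (p : O') ∈ IsLocalRing.maximalIdeal O')
    (chig : CuspForm.heckeAlgebra (M * r) 2 (↑S : Set ℕ) →+* ℂ)
    (hchig : ∀ (l : ℕ) (hl : l.Prime) (hlM : ¬ l ∣ M * r) (hlS : l ∉ (↑S : Set ℕ)),
      chig (CuspForm.heckeAlgebra.T hl hlM hlS) = ModularFormClass.qCoeff g l)
    (iota : chig.range →+* O')
    (hno : ∀ θ : CuspForm.heckeAlgebra M 2 (↑S : Set ℕ) →+* IsLocalRing.ResidueField O',
      ∃ (l : ℕ) (hl : l.Prime) (hlM : ¬ l ∣ M * r) (hlS : l ∉ (↑S : Set ℕ)),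
        θ (CuspForm.heckeAlgebra.T hl (fun h => hlM (h.mul_right r)) hlS) ≠
          IsLocalRing.residue O' ((iota.comp chig.rangeRestrict) (CuspForm.heckeAlgebra.T hl hlM hlS)))
    (ρ : GaloisRepAdic O')
    (hρ : ∀ (l : ℕ) (hl : l.Prime) (hlM : ¬ l ∣ M * r) (hlS : l ∉ (↑S : Set ℕ)),
      ∀ A : ValuationSubring (AlgebraicClosure ℚ), A.LiesOverPrime l →
        ∀ σ : AlgebraicClosure ℚ ≃ₐ[ℚ] AlgebraicClosure ℚ, A.IsFrobeniusAt σ l →
          LinearMap.charpoly (ρ.ρ σ) = Polynomial.X ^ 2 -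
            Polynomial.C ((iota.comp chig.rangeRestrict) (CuspForm.heckeAlgebra.T hl hlM hlS)) *
              Polynomial.X + Polynomial.C ((l : O')))
    (hirr : ρ.residual.IsAbsolutelyIrreducible) :
    ¬ ρ.IsUnramifiedAt r := by
  have : NeZero r := ⟨hr.ne_zero⟩
  refine not_isUnramifiedAt_of_new hp2 hr hrM hrp S hpS hS (torsionQuadratic (M * r) p)
    O' hpO' (iota.comp chig.rangeRestrict) (fun θ => ?_) ρ hρ hirr
  obtain ⟨l, hl, hlM, hlS, hne⟩ := hno ((IsLocalRing.residue O').comp θ)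
  exact ⟨l, hl, hlM, hlS, fun h => hne (congrArg (IsLocalRing.residue O') h)⟩

end Fermat.Agent.LL.Mazur
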