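import Fermat.Agent.LL.Mazur.AtkinLehner
import Fermat.Agent.RED.Specialization.NormExpansion
import Fermat.Agent.HK.HeckeFinal
import Fermat.Agent.RED.PlaceReductionOrder
import Mathlib.RingTheory.Norm.Transitivity

/-!
# The Hecke correspondence on functions

`heckeNorm N l f` is the norm of `β f` along `α`; its divisor is the image of that of `f` under
`T_l`.  It commutes with Galois and with the involution `w_r`, hence so does `T_l` on classes.
-/

set_option autoImplicit false

noncomputable section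

open ModularCurve AlgebraicCurve IntermediateField Fermat.Agent.RED Fermat.Agent.RED.Spec
  Fermat.Agent.HK.Corr

namespace Fermat.Agent.LL.Mazur

local notation "Qb" => AlgebraicClosure ℚ

section Norm

variable (N l : ℕ) [NeZero N] [NeZero l]

/-- The norm of `β f` along `α`. -/
def heckeNorm : modularFunctionFieldBar N →* modularFunctionFieldBar N :=
  letI := algebraAlong (heckeAlphaBar Qb N l)
  (Algebra.norm (modularFunctionFieldBar N)).comp (heckeBetaBar Qb N l).toRingHom.toMonoidHom

theorem heckeNorm_ne_zero {f : modularFunctionFieldBar N} (hf : f ≠ 0) :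
    heckeNorm N l f ≠ 0 := by
  letI := algebraAlong (heckeAlphaBar Qb N l)
  haveI : Module.Finite (modularFunctionFieldBar N)
      (laurentBaseChange Qb (modularFunctionFieldFull (N * l))) :=
    finiteAlong_heckeAlphaBar N l (degreeInput Qb)
  show Algebra.norm (modularFunctionFieldBar N) (heckeBetaBar Qb N l f) ≠ 0
  exact Algebra.norm_ne_zero_iff.mpr ((map_ne_zero (heckeBetaBar Qb N l)).mpr hf)

/-- `T_l` on divisors. -/
def heckeDiv : Divisor Qb (modularFunctionFieldBar N) →+ Divisor Qb (modularFunctionFieldBar N) :=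
  haveI := hasPrincipalDivisors_level Qb (N * l)
  heckeDivBar (heckeAlphaBarIntegral_of N l (degreeInput Qb))
    (heckeBetaBarIntegral_of N l (degreeInput Qb))

theorem heckeDiv_mem_degZero {E : Divisor Qb (modularFunctionFieldBar N)}
    (hE : E ∈ Divisor.degZero (K := Qb) (F := modularFunctionFieldBar N)) :
    heckeDiv N l E ∈ Divisor.degZero (K := Qb) (F := modularFunctionFieldBar N) :=
  haveI := hasPrincipalDivisors_level Qb (N * l)
  Divisor.correspondence_mem_degZero _ _ _ _
    (fundamentalIdentityAlong_heckeBetaBar N l (degreeInput Qb)) hE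

theorem heckeOperatorBar_mk (lp : Nat.Primes) (hlp : (lp : ℕ) = l)
    (E : Divisor.degZero (K := Qb) (F := modularFunctionFieldBar N)) :
    heckeOperatorBar N lp (Pic0.mk E) = Pic0.mk ⟨_, heckeDiv_mem_degZero N l E.2⟩ := by
  subst hlp
  haveI := hasPrincipalDivisors_level Qb (N * (lp : ℕ))
  rw [heckeOperatorBar_apply,
    heckeOperatorAlong_eq (heckeAlphaBarIntegral_of N _ (degreeInput Qb))
      (heckeBetaBarIntegral_of N _ (degreeInput Qb))
      (fundamentalIdentityAlong_heckeBetaBar N _ (degreeInput Qb))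
      (finiteAlong_heckeAlphaBar N _ (degreeInput Qb))
      (normFormulaAlong_heckeAlphaBar N _ (degreeInput Qb)),
    heckePic0Bar, Pic0.correspondence_mk]
  rfl

theorem isDivisorOf_heckeNorm {f : modularFunctionFieldBar N} (hf : f ≠ 0)
    {E : Divisor Qb (modularFunctionFieldBar N)} (hE : IsDivisorOf E f) :
    IsDivisorOf (heckeDiv N l E) (heckeNorm N l f) := by
  haveI := hasPrincipalDivisors_level Qb (N * l)
  have hN := normFormulaAlong_heckeAlphaBar (L := Qb) N l (degreeInput Qb)
  intro v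
  have hD : ∀ w, Divisor.pullbackAlong (heckeBetaBar Qb N l)
      (heckeBetaBarIntegral_of N l (degreeInput Qb)) E w = w.ord (heckeBetaBar Qb N l f) := by
    intro w
    letI := algebraAlong (heckeBetaBar Qb N l)
    haveI := isScalarTower_along (heckeBetaBar Qb N l)
    haveI := isIntegral_along (heckeBetaBar Qb N l) (heckeBetaBarIntegral_of N l (degreeInput Qb))
    exact Divisor.pullback_apply_eq_ord hE w
  exact hN (heckeBetaBar Qb N l f) ((map_ne_zero (heckeBetaBar Qb N l)).mpr hf) _ hD v

/-- Automorphisms compatible with both degeneracy maps commute with the norm. -/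
theorem heckeNorm_equivariant (e : modularFunctionFieldBar N ≃+* modularFunctionFieldBar N)
    (e' : laurentBaseChange Qb (modularFunctionFieldFull (N * l)) ≃+*
      laurentBaseChange Qb (modularFunctionFieldFull (N * l)))
    (hα : ∀ x, heckeAlphaBar Qb N l (e x) = e' (heckeAlphaBar Qb N l x))
    (hβ : ∀ x, heckeBetaBar Qb N l (e x) = e' (heckeBetaBar Qb N l x))
    (f : modularFunctionFieldBar N) :
    heckeNorm N l (e f) = e (heckeNorm N l f) := by
  letI := algebraAlong (heckeAlphaBar Qb N l)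
  show Algebra.norm (modularFunctionFieldBar N) (heckeBetaBar Qb N l (e f)) =
    e (Algebra.norm (modularFunctionFieldBar N) (heckeBetaBar Qb N l f))
  rw [hβ, Algebra.norm_eq_of_equiv_equiv e e' (RingHom.ext hα) (heckeBetaBar Qb N l f),
    RingEquiv.apply_symm_apply]

theorem heckeNorm_galois (σ : Qb ≃ₐ[ℚ] Qb) (f : modularFunctionFieldBar N) :
    heckeNorm N l (arithmeticGalois (modularFunctionFieldFull N) σ • f) =
      arithmeticGalois (modularFunctionFieldFull N) σ • heckeNorm N l f :=
  heckeNorm_equivariant N l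
    (SemilinearAut.toRingAut (arithmeticGalois (modularFunctionFieldFull N) σ))
    (SemilinearAut.toRingAut (arithmeticGalois (modularFunctionFieldFull (N * l)) σ))
    (fun x => (intertwines_heckeAlphaBar N l σ x).symm)
    (fun x => (intertwines_heckeBetaBar N l σ x).symm) f

theorem heckeNorm_algebraMap (hl : l.Prime) (hlN : ¬ l ∣ N) (c : Qb) :
    heckeNorm N l (algebraMap Qb (modularFunctionFieldBar N) c) =
      algebraMap Qb (modularFunctionFieldBar N) c ^ (l + 1) := by
  letI := algebraAlong (heckeAlphaBar Qb N l)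
  show Algebra.norm (modularFunctionFieldBar N)
    (heckeBetaBar Qb N l (algebraMap Qb (modularFunctionFieldBar N) c)) = _
  rw [AlgHom.commutes, ← (heckeAlphaBar Qb N l).commutes,
    show Algebra.norm (modularFunctionFieldBar N)
      (heckeAlphaBar Qb N l (algebraMap Qb (modularFunctionFieldBar N) c)) = _ from
      Algebra.norm_algebraMap _,
    ← finrankAlong_heckeAlphaBar_of_not_dvd (L := Qb) N l (degreeInput Qb) hl hlN]
  rfl

end Norm

section Involution

variable {M r : ℕ} [NeZero M] [NeZero r] {l : ℕ} [NeZero l]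

/-- `w_r` at any level equal to `M r`. -/
theorem exists_wField_level (hr : r.Prime) (hrM : ¬ r ∣ M) {N' : ℕ} [NeZero N']
    (e : N' = M * r) :
    ∃ w : modularFunctionFieldBar N' ≃ₐ[Qb] modularFunctionFieldBar N',
      ∀ (d d' : DivIdx N') (h : genSer Qb d ∈ modularFunctionFieldBar N')
        (h' : genSer Qb d' ∈ modularFunctionFieldBar N'),
        (d.1 ∣ M ∧ d'.1 = r * d.1 ∨ r * d'.1 = d.1) → w ⟨_, h⟩ = ⟨_, h'⟩ := by
  subst e
  refine ⟨wField hr hrM, fun d d' h h' hd => (wField_genFn hr hrM d).trans (Subtype.ext ?_)⟩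
  show genSer Qb (swapIdx hr d) = genSer Qb d'
  refine congrArg (genSer Qb) (Subtype.ext ?_)
  rcases hd with ⟨hd, hd'⟩ | hd
  · rw [coe_swapIdx_of_dvd hr hd, hd']
  · exact coe_swapIdx_of_mul hr hrM hd.symm

/-- The involution of level `M r l` compatible with `w_r` under both degeneracy maps. -/
theorem exists_wField_intertwines (hr : r.Prime) (hrM : ¬ r ∣ M) (hrl : ¬ r ∣ l) :
    ∃ w : modularFunctionFieldBar (M * r * l) ≃ₐ[Qb] modularFunctionFieldBar (M * r * l),
      (∀ x, heckeAlphaBar Qb (M * r) l (wField hr hrM x) = w (heckeAlphaBar Qb (M * r) l x)) ∧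
      ∀ x, heckeBetaBar Qb (M * r) l (wField hr hrM x) = w (heckeBetaBar Qb (M * r) l x) := by
  have hrMl : ¬ r ∣ M * l := fun h => (hr.dvd_mul.mp h).elim hrM hrl
  haveI : NeZero (M * l) := ⟨mul_ne_zero (NeZero.ne M) (NeZero.ne l)⟩
  obtain ⟨w, hw⟩ := exists_wField_level (M := M * l) hr hrMl (N' := M * r * l) (by ring)
  have hα : (heckeAlphaBar Qb (M * r) l).comp (wField hr hrM).toAlgHom =
      w.toAlgHom.comp (heckeAlphaBar Qb (M * r) l) := by
    refine algHom_ext_genFn fun d => ?_
    show _ = w (_)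
    rw [AlgHom.comp_apply, show (wField hr hrM).toAlgHom (genFn d) = _ from wField_genFn hr hrM d]
    let d₁ : DivIdx (M * r * l) := ⟨d.1, d.2.1, d.2.2.trans (dvd_mul_right _ l)⟩
    let d₂ : DivIdx (M * r * l) :=
      ⟨(swapIdx hr d).1, (swapIdx hr d).2.1, (swapIdx hr d).2.2.trans (dvd_mul_right _ l)⟩
    have h₁ : genSer Qb d₁ ∈ laurentBaseChange Qb (modularFunctionFieldFull (M * r * l)) :=
      (heckeAlphaBar Qb (M * r) l (genFn d)).2
    have h₂ : genSer Qb d₂ ∈ laurentBaseChange Qb (modularFunctionFieldFull (M * r * l)) :=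
      (heckeAlphaBar Qb (M * r) l (genFn (swapIdx hr d))).2
    have key := hw d₁ d₂ h₁ h₂ (by
      by_cases h : d.1 ∣ M
      · exact Or.inl ⟨h.trans (dvd_mul_right M l), coe_swapIdx_of_dvd hr h⟩
      · obtain ⟨e, he, -, -⟩ := exists_eq_mul_of_not_dvd hr h
        refine Or.inr ?_
        show r * (swapIdx hr d).1 = d.1
        rw [coe_swapIdx_of_mul hr hrM he, he])
    refine Eq.trans ?_ (key.symm.trans (congrArg w (Subtype.ext rfl)))
    exact Subtype.ext rfl
  have hβ : (heckeBetaBar Qb (M * r) l).comp (wField hr hrM).toAlgHom =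
      w.toAlgHom.comp (heckeBetaBar Qb (M * r) l) := by
    refine algHom_ext_genFn fun d => ?_
    show _ = w (_)
    rw [AlgHom.comp_apply, show (wField hr hrM).toAlgHom (genFn d) = _ from wField_genFn hr hrM d]
    have hser : ∀ (d : DivIdx (M * r)), qExpand Qb l (genSer Qb d) =
        genSer Qb (⟨l * d.1, Nat.mul_pos (NeZero.pos l) d.2.1,
          (mul_dvd_mul_left l d.2.2).trans (dvd_of_eq (mul_comm l _))⟩ : DivIdx (M * r * l)) := by
      intro d
      haveI : NeZero d.1 := ⟨d.2.1.ne'⟩
      rw [genSer, genSer, qExpand_qExpand]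
    let d₁ : DivIdx (M * r * l) := ⟨l * d.1, Nat.mul_pos (NeZero.pos l) d.2.1,
      (mul_dvd_mul_left l d.2.2).trans (dvd_of_eq (mul_comm l _))⟩
    let d₂ : DivIdx (M * r * l) := ⟨l * (swapIdx hr d).1,
      Nat.mul_pos (NeZero.pos l) (swapIdx hr d).2.1,
      (mul_dvd_mul_left l (swapIdx hr d).2.2).trans (dvd_of_eq (mul_comm l _))⟩
    have e₁ : (heckeBetaBar Qb (M * r) l (genFn d) : LaurentSeries Qb) = genSer Qb d₁ :=
      (coe_heckeBetaBar (M * r) l (genFn d)).trans (hser d)
    have e₂ : (heckeBetaBar Qb (M * r) l (genFn (swapIdx hr d)) : LaurentSeries Qb) =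
        genSer Qb d₂ :=
      (coe_heckeBetaBar (M * r) l (genFn (swapIdx hr d))).trans (hser _)
    have h₁ : genSer Qb d₁ ∈ laurentBaseChange Qb (modularFunctionFieldFull (M * r * l)) :=
      e₁ ▸ (heckeBetaBar Qb (M * r) l (genFn d)).2
    have h₂ : genSer Qb d₂ ∈ laurentBaseChange Qb (modularFunctionFieldFull (M * r * l)) :=
      e₂ ▸ (heckeBetaBar Qb (M * r) l (genFn (swapIdx hr d))).2
    have key := hw d₁ d₂ h₁ h₂ (by
      by_cases h : d.1 ∣ M
      · refine Or.inl ⟨(mul_comm l d.1).dvd.trans (mul_dvd_mul_right h l), ?_⟩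
        show l * (swapIdx hr d).1 = r * (l * d.1)
        rw [coe_swapIdx_of_dvd hr h, mul_left_comm]
      · obtain ⟨e, he, -, -⟩ := exists_eq_mul_of_not_dvd hr h
        refine Or.inr ?_
        show r * (l * (swapIdx hr d).1) = l * d.1
        rw [coe_swapIdx_of_mul hr hrM he, he, mul_left_comm])
    refine Eq.trans ?_ (key.symm.trans (congrArg w (Subtype.ext e₁.symm)))
    exact Subtype.ext e₂
  exact ⟨w, fun x => DFunLike.congr_fun hα x, fun x => DFunLike.congr_fun hβ x⟩

/-- The norm commutes with `w_r`. -/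
theorem heckeNorm_wField (hr : r.Prime) (hrM : ¬ r ∣ M) (hrl : ¬ r ∣ l)
    (f : modularFunctionFieldBar (M * r)) :
    heckeNorm (M * r) l (wField hr hrM f) = wField hr hrM (heckeNorm (M * r) l f) := by
  obtain ⟨w, hα, hβ⟩ := exists_wField_intertwines hr hrM hrl
  exact heckeNorm_equivariant (M * r) l (wField hr hrM).toRingEquiv w.toRingEquiv hα hβ f

/-- `T_l` on divisor classes commutes with `w_r`. -/
theorem wJ_heckeOperatorBar (hr : r.Prime) (hrM : ¬ r ∣ M) (lp : Nat.Primes)
    (hrl : ¬ r ∣ (lp : ℕ)) (z : JZero (M * r)) :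
    heckeOperatorBar (M * r) lp (wJ hr hrM z) = wJ hr hrM (heckeOperatorBar (M * r) lp z) := by
  haveI : NeZero (lp : ℕ) := ⟨lp.2.ne_zero⟩
  haveI := hasPrincipalDivisors_level Qb (M * r * (lp : ℕ))
  obtain ⟨w, hα, hβ⟩ := exists_wField_intertwines (l := (lp : ℕ)) hr hrM hrl
  rw [heckeOperatorBar_apply, heckeOperatorBar_apply,
    heckeOperatorAlong_eq (heckeAlphaBarIntegral_of _ _ (degreeInput Qb))
      (heckeBetaBarIntegral_of _ _ (degreeInput Qb))
      (fundamentalIdentityAlong_heckeBetaBar _ _ (degreeInput Qb))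
      (finiteAlong_heckeAlphaBar _ _ (degreeInput Qb))
      (normFormulaAlong_heckeAlphaBar _ _ (degreeInput Qb))]
  exact pic0_correspondence_smul (g := wAut hr hrM) (g' := SemilinearAut.ofAlgAut w)
    (heckeBetaBar Qb (M * r) (lp : ℕ)) (heckeAlphaBar Qb (M * r) (lp : ℕ)) _ _ _ _ _
    (fun x => (hβ x).symm) (fun x => (hα x).symm) z

end Involution

end Fermat.Agent.LL.Mazur
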