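import Fermat.Agent.LL.Mazur.Instance
import Fermat.Agent.LLp.Local.PointsDefs
import Fermat.Agent.BAD.Modular.Coord
import Fermat.Agent.FF.Degree

/-!
# A function without zeros and poles where `j` is finite is free at the crossings
-/

set_option autoImplicit false
set_option linter.style.haveILetI false
set_option synthInstance.maxHeartbeats 200000

noncomputable section

open AlgebraicCurve ModularCurve IsLocalRing Fermat.Agent.HK.Corr

namespace Fermat.Agent.LL.Mazur

section General

variable {L k : Type*} [Field L] [Field k] {B : ValuationSubring L} {π : B →+* k}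
  {F C : Type*} [Field F] [Algebra L F] [Field C] [Algebra k C] {D : BAD.BadCurve π F C}

/-- On the chart at infinity, a place over a point where the coordinate is finite is finite. -/
theorem u_mem_of_chartSpec_inf {P : Place L F} (hd : P.deg = 1) {i : Fin 2} {x : Place k C}
    (hP : LLp.ChartSpec D.chartInf P (i, x)) (hx0 : 0 ≤ x.ord D.ubar) :
    D.u ∈ P.toValuationSubring := by
  have hx : D.ubar⁻¹ ∈ x.toValuationSubring := hP.2.1
  have hord : x.ord D.ubar⁻¹ = 0 := by
    have h1 := RED.ord_nonneg_of_mem x hx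
    have h2 := x.ord_inv D.ubar
    omega
  refine RED.mem_of_ord_nonneg P (not_lt.mp fun hu => ?_)
  have hev := hP.2.2 D.u⁻¹ (RED.self_mem_coordRing _ _) D.chartInf.u_mem
    ⟨RED.pval P D.u⁻¹, hP.1.2⟩ rfl
  rw [BAD.Chart.ev, BAD.TwoBranch.red2_apply, D.chartInf.red_u] at hev
  have hpos : 0 < P.ord D.u⁻¹ := by rw [P.ord_inv]; omega
  have hc : (⟨RED.pval P D.u⁻¹, hP.1.2⟩ : B) = 0 :=
    Subtype.ext ((RED.pval_eq_zero_iff hd hP.1.1).mpr (Or.inr hpos))
  rw [hc, map_zero] at hev
  rcases (BAD.pv_eq_zero_iff hx).mp hev with h | h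
  · exact inv_ne_zero (fun (h0 : D.ubar = 0) => D.chartFin.transcendental_ubar (h0 ▸ isAlgebraic_zero)) h
  · omega

end General

local notation "Qb" => AlgebraicClosure ℚ

variable {M r : ℕ} [NeZero M] [NeZero r] (hr : r.Prime) (hrM : ¬ r ∣ M)
  {A : ValuationSubring Qb} (hA : A.LiesOverPrime r)

theorem alpha_jElem :
    heckeAlphaBar Qb M r (MF.Coeff.jElem Qb M) = genFn ⟨1, one_pos, one_dvd _⟩ := by
  refine Subtype.ext ?_
  rw [coe_heckeAlphaBar, MF.Coeff.coe_jElem]
  show jqModC Qb = RED.Spec.genSer Qb _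
  rw [RED.Spec.genSer, qExpand_one_apply]

/-- Where the coordinate is finite, so is `j`. -/
theorem genFn_one_mem_of_u_mem (P : Place Qb (modularFunctionFieldBar (M * r)))
    (h : (mCurve hr hrM hA).u ∈ P.toValuationSubring) :
    genFn (⟨1, one_pos, one_dvd _⟩ : RED.Spec.DivIdx (M * r)) ∈ P.toValuationSubring := by
  haveI := MF.Coeff.isFunctionField_laurentBaseChange Qb (M * r)
  rw [← alpha_jElem]
  by_contra hc
  have ha : ¬ 0 ≤ P.ord (heckeAlphaBar Qb M r (MF.Coeff.jElem Qb M)) := fun h0 =>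
    hc (RED.mem_of_ord_nonneg P h0)
  have hb : ¬ 0 ≤ P.ord (heckeBetaBar Qb M r (MF.Coeff.jElem Qb M)) := fun h0 =>
    ha ((BAD.Modular.samePoles_alpha_beta_jElem hr hrM P).mpr h0)
  have hu := RED.ord_nonneg_of_mem P h
  have hj : (MF.Coeff.jElem Qb M : modularFunctionFieldBar M) ≠ 0 := fun h0 =>
    MF.Coeff.transcendental_jElem Qb M (h0 ▸ isAlgebraic_zero)
  rw [BAD.Modular.curve_u, P.ord_mul ((map_ne_zero _).mpr hj) ((map_ne_zero _).mpr hj)] at hu
  linarith [not_le.mp ha, not_le.mp hb]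

variable {Z : modularFunctionFieldBar (M * r)} (hZ0 : Z ≠ 0)
  (hZ : ∀ P : Place Qb (modularFunctionFieldBar (M * r)),
    genFn (⟨1, one_pos, one_dvd _⟩ : RED.Spec.DivIdx (M * r)) ∈ P.toValuationSubring → P.ord Z = 0)

include hZ0 hZ

/-- Free at every point of the finite chart. -/
theorem isFreeAt_chartFin (z : Fin 2 × Place (ResidueField A)
      (modularFunctionFieldFullC (ResidueField A) M)) :
    LLp.IsFreeAt (mCurve hr hrM hA).chartFin z Z :=
  ⟨hZ0, fun P hP => hZ P (genFn_one_mem_of_u_mem hr hrM hA P hP.1.1)⟩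

/-- Free at the crossings of the chart at infinity, the cusps being smooth. -/
theorem isFreeAt_chartInf
    (hsm : ∀ z : Fin 2 × Place (ResidueField A) (modularFunctionFieldFullC (ResidueField A) M),
      z.2.ord (mCurve hr hrM hA).ubar < 0 → LLp.IsSmoothPt (mCurve hr hrM hA).chartInf z)
    {x y : Place (ResidueField A) (modularFunctionFieldFullC (ResidueField A) M)}
    (hxy : LLp.IsCrossing (mCurve hr hrM hA).chartInf x y) :
    LLp.IsFreeAt (mCurve hr hrM hA).chartInf ((0 : Fin 2), x) Z := by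
  haveI := MF.Coeff.isFunctionField_laurentBaseChange Qb (M * r)
  have hx0 : 0 ≤ x.ord (mCurve hr hrM hA).ubar := by
    by_contra hlt
    have he : (((1 : Fin 2), y) : Fin 2 × Place (ResidueField A)
        (modularFunctionFieldFullC (ResidueField A) M)) = (0, x) :=
      (hsm (0, x) (not_le.mp hlt)).2 (1, y) hxy.2.1 hxy.2.2
    exact absurd (congrArg Prod.fst he) Fin.zero_ne_one.symm
  refine ⟨hZ0, fun P hP => hZ P (genFn_one_mem_of_u_mem hr hrM hA P ?_)⟩
  exact u_mem_of_chartSpec_inf (FF.deg_eq_one P) hP hx0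

end Fermat.Agent.LL.Mazur
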