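import Fermat.Agent.BAD.Core.Main

/-!
# A symmetry exchanging the two branches

On a two-branch curve a semilinear symmetry exchanging the branches and inducing the absolute
Frobenius on the residual curve acts as `-q` on the classes whose functions reduce to constants
times `n`-th powers: at a crossing it exchanges the two values up to the `q`-th power, so
`σ • f * f ^ q` has equal node values.
-/

set_option autoImplicit false

noncomputable section

open AlgebraicCurve Fermat.Agent.RED Fermat.Agent.BAD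

namespace Fermat.Agent.LL.Mazur

variable {L k : Type*} [Field L] [Field k] {A : ValuationSubring L} {π : A →+* k}
  {F C : Type*} [Field F] [Algebra L F] [Field C] [Algebra k C] (D : BadCurve π F C)

/-- A semilinear symmetry which fixes `u`, exchanges the branches and induces `T` on the
reductions. -/
structure SwapSym (σ : SemilinearAut L F) (T : C ≃+* C) : Prop where
  map_u : σ • D.u = D.u
  mem : ∀ (i : Fin 2) (f : F), f ∈ D.V i → σ • f ∈ D.V (1 - i)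
  red_eq : ∀ (i : Fin 2) (f : F), f ∈ D.V i → D.red (1 - i) (σ • f) = T (D.red i f)
  Φ_eq : ∀ c : C, D.Φ (T c) = c ^ D.q

namespace SwapSym

variable {D} {σ : SemilinearAut L F} {T : C ≃+* C} (hσ : SwapSym D σ T)

include hσ

theorem map_u_inv : σ • D.u⁻¹ = D.u⁻¹ := by
  rw [smul_inv'', hσ.map_u]

theorem mem_O {f : F} (hf : f ∈ D.O) : σ • f ∈ D.O := by
  refine D.mem_O.mpr fun i => ?_
  have h := hσ.mem (1 - i) f (D.mem_of_mem_O hf (1 - i))
  rwa [sub_sub_cancel] at h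

theorem red_smul {f : F} (hf : f ∈ D.O) (i : Fin 2) :
    D.red i (σ • f) = T (D.red (1 - i) f) := by
  have h := hσ.red_eq (1 - i) f (D.mem_of_mem_O hf (1 - i))
  rwa [sub_sub_cancel] at h

theorem map_ubar : T D.ubar = D.ubar := by
  have h := hσ.red_smul D.chartFin.u_mem 0
  rw [hσ.map_u, D.chartFin.red_u, D.chartFin.red_u] at h
  exact h.symm

theorem map_coordRing {w : F} {wbar : C} {d : ℕ} (h : Chart D.toBadBase w wbar d)
    (hw : σ • w = w) {c : C} (hc : c ∈ coordRing k wbar) : T c ∈ coordRing k wbar := by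
  obtain ⟨a, haR, haO, ha0, -⟩ := h.lift₀ c hc
  rw [← ha0, ← hσ.red_eq 0 a (D.mem_of_mem_O haO 0)]
  exact h.red_mem_coordRing (semilinear_smul_mem_coordRing σ hw haR) (hσ.mem_O haO) _

theorem twistCond {n : ℕ} {f : F} {m : ℕ} {a : F} (ha : TwistCond L D.u n f m a) :
    TwistCond L D.u n (σ • f) m (σ • a) := by
  refine ⟨?_, ?_⟩
  · rw [← smul_pow', ← smul_mul']
    exact semilinear_smul_mem_coordRing σ hσ.map_u ha.1
  · have h2 := semilinear_smul_mem_coordRing σ hσ.map_u_inv ha.2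
    rwa [smul_mul', smul_pow', semilinear_smul_div, smul_pow', hσ.map_u] at h2

/-- At glued points `T` exchanges the values, up to the `q`-th power. -/
theorem pv_of_rel {w : F} {wbar : C} {d : ℕ} (h : Chart D.toBadBase w wbar d) (hw : σ • w = w)
    {x y : Place k C} (hx : wbar ∈ x.toValuationSubring) (hy : wbar ∈ y.toValuationSubring)
    (hr : h.Rel ((0 : Fin 2), x) ((1 : Fin 2), y)) {c : C} (hc : c ∈ coordRing k wbar) :
    pv x (h.coord.deg_one x) (T c) = pv y (h.coord.deg_one y) c ^ D.q ∧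
      pv y (h.coord.deg_one y) (T c) = pv x (h.coord.deg_one x) c ^ D.q := by
  have hT := hσ.map_coordRing h hw hc
  obtain ⟨p, hp, hp0, hp1⟩ := h.exists_pull 0 hT
  obtain ⟨r, hr', hr1, hr0⟩ := h.exists_pull 1 hT
  have e1 := hr p hp
  have e2 := hr r hr'
  simp only [Chart.ev, hp0, hp1 1 (by decide), hr1, hr0 0 (by decide), hσ.Φ_eq] at e1 e2
  rw [pv_pow (mem_place_of_mem_coordRing _ _ y hy hc)] at e1
  rw [pv_pow (mem_place_of_mem_coordRing _ _ x hx hc)] at e2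
  exact ⟨e1, e2.symm⟩

/-- The same for sections of degree `m`. -/
theorem lev_of_node {s : Place k C × Place k C} (hs : s ∈ D.nodes) {m : ℕ} {c : C}
    (hc : c ∈ riemannRochSpace (m • D.pole)) :
    D.lev m s.1 (T c) = D.lev m s.2 c ^ D.q ∧ D.lev m s.2 (T c) = D.lev m s.1 c ^ D.q := by
  obtain ⟨hc1, hc2⟩ := D.mem_rr_iff.mp hc
  rcases D.mem_nodes.mp hs with ⟨hx, hy, hr⟩ | ⟨hx, hy, hr⟩
  · obtain ⟨e1, e2⟩ := hσ.pv_of_rel D.chartFin hσ.map_u hx hy hr hc1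
    rw [D.lev_of_mem hx, D.lev_of_mem hx, D.lev_of_mem hy, D.lev_of_mem hy]
    exact ⟨e1, e2⟩
  · obtain ⟨e1, e2⟩ := hσ.pv_of_rel D.chartInf hσ.map_u_inv (D.inv_ubar_mem_of_notMem hx)
      (D.inv_ubar_mem_of_notMem hy) hr hc2
    rw [map_div₀, map_pow, hσ.map_ubar] at e1 e2
    rw [D.lev_of_notMem hx, D.lev_of_notMem hx, D.lev_of_notMem hy, D.lev_of_notMem hy]
    exact ⟨e1, e2⟩

/-- A function reducing to `1` with divisor divisible by `n` is sent to the inverse of its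
`q`-th power, up to constants and `n`-th powers. -/
theorem exists_eq_smul_pow_of_redOne {n : ℕ} (hn : (n : k) ≠ 0) {g : F} (hg : D.RedOne g)
    (hdiv : ∀ v : Place L F, (n : ℤ) ∣ v.ord g) :
    ∃ (e : L) (a : F), e ≠ 0 ∧ a ≠ 0 ∧ σ • g * g ^ D.q = e • a ^ n := by
  have hn0 : 0 < n := Nat.pos_of_ne_zero fun h => hn (by rw [h, Nat.cast_zero])
  have hσg : D.RedOne (σ • g) :=
    ⟨hσ.mem_O hg.mem, fun i => by rw [hσ.red_smul hg.mem, hg.red, map_one]⟩
  have hgq : D.RedOne (g ^ D.q) :=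
    ⟨pow_mem hg.mem _, fun i => by rw [D.red_pow (D.mem_of_mem_O hg.mem i), hg.red, one_pow]⟩
  set ψ := σ • g * g ^ D.q with hψ
  have hψ1 : D.RedOne ψ := ⟨mul_mem hσg.mem hgq.mem, fun i => by
    rw [D.red_mul (D.mem_of_mem_O hσg.mem i) (D.mem_of_mem_O hgq.mem i), hσg.red, hgq.red,
      one_mul]⟩
  have hψdiv : ∀ v : Place L F, (n : ℤ) ∣ v.ord ψ :=
    dvd_ord_mul hσg.ne_zero hgq.ne_zero (dvd_ord_smul σ hdiv) (dvd_ord_pow hdiv _)
  obtain ⟨m, h₁⟩ := D.exists_Wt_spec hn0 hg hdiv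
  obtain ⟨m₃, h₃⟩ := D.exists_Wt_spec hn0 hψ1 hψdiv
  refine D.exists_eq_smul_pow hn hψ1 hψdiv (m₁ := max m₃ (m + D.q * m)) fun M hM =>
    (h₃ M (by omega)).2.2 fun s hs => ?_
  obtain ⟨p, hp, hp0, hp1⟩ := (h₁ m le_rfl).2.1 s hs
  have hprr := (D.Wt_mem_rr hn0 hg hp).1
  obtain ⟨a, ha, haO, rfl⟩ := (D.mem_Wt hn0).mp hp
  -- the section of `ψ`
  have hσa := hσ.twistCond ha
  have hσrr := (D.Wt_mem_rr hn0 hσg
    ((D.mem_Wt hn0).mpr ⟨_, hσa, hσ.mem_O haO, rfl⟩)).1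
  have haq := twistCond_pow ha D.q
  have hqrr := (D.Wt_mem_rr hn0 hgq
    ((D.mem_Wt hn0).mpr ⟨_, haq, pow_mem haO _, rfl⟩)).1
  have hprod : D.red2 (σ • a * a ^ D.q) ∈ D.Wt n ψ (m + D.q * m) :=
    (D.mem_Wt hn0).mpr
      ⟨_, twistCond_mul hσa haq, mul_mem (hσ.mem_O haO) (pow_mem haO _), rfl⟩
  have hred : ∀ i, D.red2 (σ • a * a ^ D.q) i = D.red2 (σ • a) i * D.red2 (a ^ D.q) i :=
    fun i => D.red_mul (D.mem_of_mem_O (hσ.mem_O haO) i) (pow_mem (D.mem_of_mem_O haO i) _)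
  have hT : ∀ i, D.red2 (σ • a) i = T (D.red2 a (1 - i)) := hσ.red_smul haO
  have hP : ∀ i, D.red2 (a ^ D.q) i = D.red2 a i ^ D.q :=
    fun i => D.red_pow (D.mem_of_mem_O haO i) _
  have e0 : D.lev (m + D.q * m) s.1 (D.red2 (σ • a * a ^ D.q) 0) =
      (D.lev m s.2 (D.red2 a 1) * D.lev m s.1 (D.red2 a 0)) ^ D.q := by
    rw [hred, D.lev_mul (hσrr 0) (hqrr 0), hT, hP, sub_zero, (hσ.lev_of_node hs (hprr 1)).1,
      mul_comm D.q m, D.lev_pow (hprr 0), mul_pow]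
  have e1 : D.lev (m + D.q * m) s.2 (D.red2 (σ • a * a ^ D.q) 1) =
      (D.lev m s.1 (D.red2 a 0) * D.lev m s.2 (D.red2 a 1)) ^ D.q := by
    rw [hred, D.lev_mul (hσrr 1) (hqrr 1), hT, hP, sub_self, (hσ.lev_of_node hs (hprr 0)).2,
      mul_comm D.q m, D.lev_pow (hprr 1), mul_pow]
  obtain ⟨p', hp', f0, f1⟩ := D.exists_raise hn0 (show m + D.q * m ≤ M by omega) hs hprod
  refine ⟨p', hp', ?_, ?_⟩
  · rw [f0, f1, e0, e1, mul_comm (D.lev m s.2 _)]
  · rw [f0, e0]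
    exact pow_ne_zero _ (mul_ne_zero hp1 hp0)

/-- **Frobenius composed with the exchange** acts as `-q` on classes whose functions reduce to
constants times `n`-th powers. -/
theorem exists_eq_smul_pow_of_redIsPow [IsAlgClosed L] [IsAlgClosed k] {n : ℕ} (hn : (n : k) ≠ 0)
    {f : F} (hf : f ≠ 0) (hdiv : ∀ v : Place L F, (n : ℤ) ∣ v.ord f) (hred : D.RedIsPow n f) :
    ∃ (e : L) (a : F), e ≠ 0 ∧ a ≠ 0 ∧ σ • f * f ^ D.q = e • a ^ n := by
  have hn0 : 0 < n := Nat.pos_of_ne_zero fun h => hn (by rw [h, Nat.cast_zero])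
  obtain ⟨c, a, hc, ha, hO, hr, hrf⟩ := D.exists_unit_scale hn0 hf
  set F' := c • (a ^ n * f) with hF'
  have hroot : ∀ i, ∃ h : C, D.red i F' = h ^ n := by
    intro i
    obtain ⟨s, r, hs, hs0, hrs⟩ := hrf i
    obtain ⟨α, h, hh⟩ := hred i s hs hs0
    obtain ⟨β, hβ⟩ := IsAlgClosed.exists_pow_nat_eq α hn0
    exact ⟨r * (β • h), by rw [hrs, hh, mul_pow, _root_.smul_pow, hβ]⟩
  choose h hh using hroot
  have hh0 : ∀ i, h i ≠ 0 := fun i h0 => hr i (by rw [hh, h0, zero_pow hn0.ne'])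
  obtain ⟨l, hlO, hl⟩ := D.chartFin.exists_red_eq h
  have hl0 : ∀ i, D.red i l ≠ 0 := fun i => by rw [hl]; exact hh0 i
  have hlne : l ≠ 0 := fun h0 => hl0 0 (by rw [h0, TwoBranch.red_zero])
  have hliO : l⁻¹ ∈ D.O := D.inv_mem_O hlO hl0
  set g := c • ((a * l⁻¹) ^ n * f) with hg_def
  have hgF : g = l⁻¹ ^ n * F' := by
    rw [hg_def, hF', mul_smul_comm]
    congr 1
    ring
  have hg : D.RedOne g := ⟨hgF ▸ mul_mem (pow_mem hliO n) hO, fun i => by
    rw [hgF, D.red_mul (pow_mem (D.mem_of_mem_O hliO i) n) (D.mem_of_mem_O hO i),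
      D.red_pow (D.mem_of_mem_O hliO i), D.red_inv (D.mem_of_mem_O hlO i) (hl0 i), hl, hh,
      ← mul_pow, inv_mul_cancel₀ (hh0 i), one_pow]⟩
  have hal : a * l⁻¹ ≠ 0 := mul_ne_zero ha (inv_ne_zero hlne)
  obtain ⟨e, a₁, he, ha₁, heq⟩ :=
    hσ.exists_eq_smul_pow_of_redOne hn hg (BadCurve.dvd_ord_smul_pow_mul hc hal hf hdiv)
  set c' := SemilinearAut.baseAut σ c with hc'
  set a₀ := a * l⁻¹ with ha₀
  have hc'0 : c' ≠ 0 := (map_ne_zero _).mpr hc
  have hσa : σ • a₀ ≠ 0 := (smul_ne_zero_iff_ne σ).mpr hal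
  refine ⟨e / (c' * c ^ D.q), a₁ / (σ • a₀ * a₀ ^ D.q),
    div_ne_zero he (mul_ne_zero hc'0 (pow_ne_zero _ hc)),
    div_ne_zero ha₁ (mul_ne_zero hσa (pow_ne_zero _ hal)), ?_⟩
  rw [hg_def, semilinear_smul_smul, smul_mul', smul_pow', ← hc'] at heq
  simp only [Algebra.smul_def, map_div₀, map_mul, map_pow, mul_pow, div_pow, ← pow_mul] at heq ⊢
  have i1 : algebraMap L F c ≠ 0 := (map_ne_zero _).mpr hc
  have i2 : algebraMap L F c' ≠ 0 := (map_ne_zero _).mpr hc'0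
  field_simp
  linear_combination heq

end SwapSym

end Fermat.Agent.LL.Mazur
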