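import Fermat.Agent.LL.Mazur.Instance
import Fermat.Agent.LL.Mazur.Swap
import Fermat.Agent.LLp.Degen
import Fermat.Prelude.Def_FLTPrelim_Ramification

/-!
# Classes with residual `n`-th powers

Frobenius composed with `w_r` exchanges the branches, hence acts as `-r` on a class whose function
reduces to constants times `n`-th powers.
-/

set_option autoImplicit false
set_option linter.style.haveILetI false
set_option synthInstance.maxHeartbeats 200000

noncomputable section

open AlgebraicCurve ModularCurve IsLocalRing Fermat.Agent.BAD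

namespace Fermat.Agent.LL.Mazur

section Abstract

variable {L k : Type*} [Field L] [Field k] {A : ValuationSubring L} {π : A →+* k}
  {F C : Type*} [Field F] [Algebra L F] [Field C] [Algebra k C] {D : BadCurve π F C}

/-- A symmetry exchanging the branches acts as `-q` on classes with residual `n`-th powers. -/
theorem SwapSym.smul_class_eq [IsAlgClosed L] [IsAlgClosed k] {σ : SemilinearAut L F}
    {T : C ≃+* C} (hσ : SwapSym D σ T) {n : ℕ} (hn : (n : k) ≠ 0) {z : Pic0 L F} {f : F}
    (hf : LLp.IsClassFun n z f) (hred : D.RedIsPow n f) : σ • z = -(D.q • z) := by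
  have hn0 : (n : ℤ) ≠ 0 := by
    intro h
    exact hn (by rw [Int.natCast_eq_zero.mp h, Nat.cast_zero])
  obtain ⟨hf0, E, -, hE⟩ := id hf
  obtain ⟨e, a, he, ha, heq⟩ :=
    hσ.exists_eq_smul_pow_of_redIsPow hn hf0 (fun v => ⟨_, (hE v).symm⟩) hred
  obtain ⟨-, G, hG, hGv⟩ := (hf.smul_aux σ).mul_aux (hf.pow_aux D.q)
  refine eq_neg_of_add_eq_zero_left ?_
  rw [← hG, Pic0.mk, QuotientAddGroup.eq_zero_iff, AddSubgroup.mem_addSubgroupOf]
  refine ⟨a, ha, fun v => mul_left_cancel₀ hn0 ?_⟩
  rw [hGv, heq, Algebra.smul_def, v.ord_mul ((map_ne_zero _).mpr he) (pow_ne_zero _ ha),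
    RED.ord_algebraMap', zero_add, RED.ord_pow' v ha]

end Abstract

local notation "Qb" => AlgebraicClosure ℚ

variable {M r : ℕ} [NeZero M] [NeZero r] (hr : r.Prime) (hrM : ¬ r ∣ M)
  {A : ValuationSubring Qb} (hA : A.LiesOverPrime r)

theorem smul_wJ_eq_of_redIsPow {σ : Qb ≃ₐ[ℚ] Qb} (hσ : A.IsFrobeniusAt σ r) {n : ℕ}
    (hn : n.Coprime r) {z : JZero (M * r)} {f : modularFunctionFieldBar (M * r)}
    (hf : LLp.IsClassFun n z f) (hred : (mCurve hr hrM hA).RedIsPow n f) :
    σ • wJ hr hrM z = -(r • z) := by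
  haveI := Fact.mk hr
  haveI := Galois.place_charP_residueField hA hr
  haveI := Galois.place_residueField_isAlgClosed A
  obtain ⟨T, hmul, hswap, hΦ⟩ := exists_swapSym hr hrM hA hσ
  have hS : SwapSym (mCurve hr hrM hA)
      (arithmeticGalois (modularFunctionFieldFull (M * r)) σ * wAut hr hrM) T := by
    refine ⟨?_, fun i g hg => ?_, fun i g hg => ?_, fun c => ?_⟩
    · rw [hmul, wField_u]
      exact BAD.Modular.galF_coordU hr hrM hA σ
    · rw [hmul]
      exact (hswap i g hg).1
    · rw [hmul]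
      exact (hswap i g hg).2
    · exact hΦ c
  have hnk : ((n : ℕ) : ResidueField A) ≠ 0 := fun h => by
    have hdvd := (CharP.cast_eq_zero_iff (ResidueField A) r n).mp h
    exact hr.ne_one (Nat.dvd_one.mp (hn ▸ Nat.dvd_gcd hdvd dvd_rfl))
  have h := hS.smul_class_eq hnk hf hred
  rw [BAD.Modular.curve_q, mul_smul] at h
  exact h

end Fermat.Agent.LL.Mazur
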