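import Fermat.Prelude.Def_AlgebraicCurve_BaseChangeGalois
import Mathlib.GroupTheory.GroupAction.Defs
import Mathlib.Algebra.Field.Subfield.Basic
import Mathlib.Algebra.Ring.Subring.Basic
import Mathlib.LinearAlgebra.LinearIndependent.Lemmas
import Mathlib.LinearAlgebra.Finsupp.LinearCombination
import Mathlib.FieldTheory.Fixed

/-!
# Descent along a group of semilinear automorphisms

For a group `G` of semilinear automorphisms of `F/L`: stable subspaces of the span of the fixed
elements are spanned by fixed elements, linear relations between fixed elements have fixed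
coefficients, and cocycles with values in `Fˣ` on a finite orbit are trivial.
-/

set_option autoImplicit false

noncomputable section

open AlgebraicCurve

namespace Fermat.Agent.LL.Mazur

variable {L F : Type*} [Field L] [Field F] [Algebra L F] (G : Subgroup (SemilinearAut L F))

/-- The functions fixed by `G`. -/
def fixF : Subfield F := FixedPoints.subfield G F

/-- The constants fixed by `G`. -/
def fixL : Subfield L := (fixF G).comap (algebraMap L F)

variable {G}

theorem mem_fixF {x : F} : x ∈ fixF G ↔ ∀ σ ∈ G, σ • x = x :=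
  ⟨fun h σ hσ => h ⟨σ, hσ⟩, fun h σ => h σ.1 σ.2⟩

theorem mem_fixL {c : L} : c ∈ fixL G ↔ algebraMap L F c ∈ fixF G := Iff.rfl

theorem smul_smul_comm (σ : SemilinearAut L F) (c : L) (x : F) :
    σ • (c • x) = SemilinearAut.baseAut σ c • (σ • x) := by
  rw [Algebra.smul_def, smul_mul', SemilinearAut.smul_algebraMap, Algebra.smul_def]

theorem mem_fixL' {c : L} : c ∈ fixL G ↔ ∀ σ ∈ G, SemilinearAut.baseAut σ c = c := by
  rw [mem_fixL, mem_fixF]
  refine forall₂_congr fun σ _ => ?_
  rw [SemilinearAut.smul_algebraMap]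
  exact (algebraMap L F).injective.eq_iff

theorem smul_mem_fixF {c : L} (hc : c ∈ fixL G) {x : F} (hx : x ∈ fixF G) : c • x ∈ fixF G := by
  rw [Algebra.smul_def]
  exact mul_mem hc hx

theorem smul_eq_of_mem {σ : SemilinearAut L F} (hσ : σ ∈ G) {x : F} (hx : x ∈ fixF G) :
    σ • x = x := mem_fixF.mp hx σ hσ

theorem smul_sum_fixed {σ : SemilinearAut L F} (hσ : σ ∈ G) {ι : Type*} (s : Finset ι)
    (b : ι → F) (hb : ∀ j ∈ s, b j ∈ fixF G) (c : ι → L) :
    σ • (∑ j ∈ s, c j • b j) = ∑ j ∈ s, SemilinearAut.baseAut σ (c j) • b j := by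
  rw [Finset.smul_sum]
  exact Finset.sum_congr rfl fun j hj => by rw [smul_smul_comm, smul_eq_of_mem hσ (hb j hj)]

/-- A fixed element in the span of fixed elements is a combination with fixed coefficients. -/
theorem exists_fixed_coeff {ι : Type*} (s : Finset ι) (b : ι → F) (hb : ∀ j ∈ s, b j ∈ fixF G)
    {x : F} (hx : x ∈ fixF G) (h : ∃ c : ι → L, x = ∑ j ∈ s, c j • b j) :
    ∃ c : ι → L, (∀ j, c j ∈ fixL G) ∧ x = ∑ j ∈ s, c j • b j := by
  classical
  induction s using Finset.strongInduction with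
  | _ s ih =>
    obtain ⟨c, hc⟩ := h
    by_cases hall : ∀ j ∈ s, c j ∈ fixL G
    · refine ⟨fun j => if j ∈ s then c j else 0, fun j => ?_, hc.trans ?_⟩
      · dsimp only
        split
        · exact hall j ‹_›
        · exact zero_mem _
      · exact Finset.sum_congr rfl fun j hj => by simp [hj]
    push Not at hall
    obtain ⟨j₁, hj₁, hne⟩ := hall
    rw [mem_fixL'] at hne
    push Not at hne
    obtain ⟨σ, hσ, hne⟩ := hne
    set w : ι → L := fun j => SemilinearAut.baseAut σ (c j) - c j with hw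
    have hw₁ : w j₁ ≠ 0 := sub_ne_zero.mpr hne
    have hrel : ∑ j ∈ s, w j • b j = 0 := by
      simp only [hw, sub_smul, Finset.sum_sub_distrib]
      rw [← smul_sum_fixed hσ s b hb c, ← hc, smul_eq_of_mem hσ hx, sub_self]
    obtain ⟨c', hc', hx'⟩ := ih (s.erase j₁) (Finset.erase_ssubset hj₁)
      (fun j hj => hb j (Finset.mem_of_mem_erase hj)) ⟨fun j => c j - c j₁ / w j₁ * w j, by
        have hz : (c j₁ - c j₁ / w j₁ * w j₁) • b j₁ = 0 := by
          rw [div_mul_cancel₀ _ hw₁, sub_self, zero_smul]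
        rw [← add_zero (∑ j ∈ s.erase j₁, _), ← hz,
          Finset.sum_erase_add s (fun j => (c j - c j₁ / w j₁ * w j) • b j) hj₁]
        simp only [sub_smul, Finset.sum_sub_distrib, mul_smul, ← Finset.smul_sum, hrel, smul_zero,
          sub_zero]
        exact hc⟩
    refine ⟨Function.update c' j₁ 0, fun j => ?_, ?_⟩
    · rcases eq_or_ne j j₁ with rfl | hj
      · simp [zero_mem]
      · simpa [Function.update_of_ne hj] using hc' j
    · rw [← Finset.sum_erase_add s _ hj₁]
      simp only [Function.update_self, zero_smul, add_zero]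
      exact hx'.trans (Finset.sum_congr rfl fun j hj => by
        rw [Function.update_of_ne (Finset.ne_of_mem_erase hj)])

/-- A stable subspace of the span of the fixed elements is spanned by its fixed elements. -/
theorem le_span_fixed_of_stable {V : Submodule L F} (hV : ∀ σ ∈ G, ∀ a ∈ V, σ • a ∈ V)
    {v : F} (hv : v ∈ V) (hspan : v ∈ Submodule.span L (fixF G : Set F)) :
    v ∈ Submodule.span L {a : F | a ∈ V ∧ a ∈ fixF G} := by
  classical
  obtain ⟨c₀, t, ht, -, hsum⟩ := Submodule.mem_span_iff_exists_finset_subset.mp hspan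
  suffices key : ∀ s : Finset F, (∀ j ∈ s, j ∈ fixF G) → ∀ (v : F) (c : F → L), v ∈ V →
      v = ∑ j ∈ s, c j • j → v ∈ Submodule.span L {a : F | a ∈ V ∧ a ∈ fixF G} by
    exact key t (fun j hj => ht hj) v _ hv hsum.symm
  intro s
  induction s using Finset.strongInduction with
  | _ s ih =>
    intro hs v c hv hvc
    by_cases hz : ∀ j ∈ s, c j = 0
    · rw [hvc, Finset.sum_eq_zero fun j hj => by rw [hz j hj, zero_smul]]
      exact zero_mem _
    push Not at hz
    obtain ⟨j₀, hj₀, hc₀⟩ := hz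
    set d : F → L := fun j => (c j₀)⁻¹ * c j with hd
    have hv' : (c j₀)⁻¹ • v ∈ V := V.smul_mem _ hv
    have hv'd : (c j₀)⁻¹ • v = ∑ j ∈ s, d j • j := by
      rw [hvc, Finset.smul_sum]
      exact Finset.sum_congr rfl fun j _ => by rw [hd, mul_smul]
    suffices h : (c j₀)⁻¹ • v ∈ Submodule.span L {a : F | a ∈ V ∧ a ∈ fixF G} by
      have h2 := Submodule.smul_mem _ (c j₀) h
      rwa [smul_smul, mul_inv_cancel₀ hc₀, one_smul] at h2
    by_cases hfix : ∀ σ ∈ G, σ • ((c j₀)⁻¹ • v) = (c j₀)⁻¹ • v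
    · exact Submodule.subset_span ⟨hv', mem_fixF.mpr hfix⟩
    push Not at hfix
    obtain ⟨σ, hσ, hne⟩ := hfix
    set v' := (c j₀)⁻¹ • v with hv'def
    set e : F → L := fun j => SemilinearAut.baseAut σ (d j) - d j with he
    set w := σ • v' - v' with hwdef
    have hwV : w ∈ V := V.sub_mem (hV σ hσ v' hv') hv'
    have hw : w = ∑ j ∈ s, e j • j := by
      simp only [he, sub_smul, Finset.sum_sub_distrib]
      rw [← smul_sum_fixed hσ s (fun j => j) hs d, ← hv'd]
    have he0 : e j₀ = 0 := by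
      simp [he, hd, hc₀]
    have herase : ∀ {f : F → L}, f j₀ = 0 →
        ∑ j ∈ s, f j • j = ∑ j ∈ s.erase j₀, f j • j := by
      intro f hf
      rw [← Finset.sum_erase_add s _ hj₀, hf, zero_smul, add_zero]
    have hwW := ih (s.erase j₀) (Finset.erase_ssubset hj₀)
      (fun j hj => hs j (Finset.mem_of_mem_erase hj)) w e hwV (hw.trans (herase he0))
    obtain ⟨j₁, hj₁, he₁⟩ : ∃ j₁ ∈ s, e j₁ ≠ 0 := by
      by_contra! hcon
      refine hne (sub_eq_zero.mp ?_)
      rw [← hwdef, hw]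
      exact Finset.sum_eq_zero fun j hj => by rw [hcon j hj, zero_smul]
    have hz₁ : (d j₁ - d j₁ / e j₁ * e j₁) • j₁ = 0 := by
      rw [div_mul_cancel₀ _ he₁, sub_self, zero_smul]
    have h2 := ih (s.erase j₁) (Finset.erase_ssubset hj₁)
      (fun j hj => hs j (Finset.mem_of_mem_erase hj)) (v' - (d j₁ / e j₁) • w)
      (fun j => d j - d j₁ / e j₁ * e j) (V.sub_mem hv' (V.smul_mem _ hwV)) (by
        conv_rhs => rw [← add_zero (∑ j ∈ s.erase j₁, _), ← hz₁,
          Finset.sum_erase_add s (fun j => (d j - d j₁ / e j₁ * e j) • j) hj₁]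
        simp only [sub_smul, Finset.sum_sub_distrib, mul_smul, ← Finset.smul_sum, ← hw, ← hv'd])
    simpa using Submodule.add_mem _ h2 (Submodule.smul_mem _ (d j₁ / e j₁) hwW)

/-- **Hilbert 90 on a finite orbit.** A cocycle which only depends on `σ • f` is trivial. -/
theorem exists_cocycle_split (f : F) (hf : (Set.range fun σ : G => (σ : SemilinearAut L F) • f).Finite)
    (a : F → F) (ha0 : ∀ σ ∈ G, a (σ • f) ≠ 0)
    (hcoc : ∀ σ ∈ G, ∀ τ ∈ G, a (σ • τ • f) = a (σ • f) * σ • a (τ • f)) :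
    ∃ b : F, b ≠ 0 ∧ ∀ σ ∈ G, a (σ • f) * σ • b = b := by
  classical
  let O := hf.toFinset
  have hO : ∀ {x : F}, x ∈ O ↔ ∃ σ ∈ G, σ • f = x := by
    intro x
    rw [Set.Finite.mem_toFinset]
    exact ⟨fun ⟨σ, h⟩ => ⟨σ.1, σ.2, h⟩, fun ⟨σ, hσ, h⟩ => ⟨⟨σ, hσ⟩, h⟩⟩
  choose τ hτG hτ using fun x : O => hO.mp x.2
  let H : Subgroup (SemilinearAut L F) := G ⊓ MulAction.stabilizer _ f
  let E : Subfield F := FixedPoints.subfield H F
  have hEH : ∀ {θ : F}, θ ∈ E → ∀ σ ∈ G, σ • f = f → σ • θ = θ :=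
    fun hθ σ hσ hσf => hθ ⟨σ, hσ, hσf⟩
  have hfE : f ∈ E := fun σ => σ.2.2
  let χ : O → (E →* F) := fun x =>
    ((SemilinearAut.toRingAut (τ x)).toRingHom.comp E.subtype).toMonoidHom
  have hχ : Function.Injective χ := fun x y h => by
    have := DFunLike.congr_fun h ⟨f, hfE⟩
    have hx : χ x ⟨f, hfE⟩ = (x : F) := hτ x
    have hy : χ y ⟨f, hfE⟩ = (y : F) := hτ y
    exact Subtype.ext (hx.symm.trans (this.trans hy))
  have hind : LinearIndependent F fun x => ((χ x : E →* F) : E → F) :=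
    (linearIndependent_monoidHom E F).comp χ hχ
  have hfO : f ∈ O := hO.mpr ⟨1, one_mem _, one_smul _ _⟩
  obtain ⟨θ, hθ⟩ : ∃ θ : E, ∑ x : O, a x * χ x θ ≠ 0 := by
    by_contra! hcon
    have h := Fintype.linearIndependent_iff.mp hind (fun x : O => a x) (by
      funext θ
      simpa using hcon θ) ⟨f, hfO⟩
    exact ha0 1 (one_mem _) (by rwa [one_smul])
  refine ⟨_, hθ, fun σ hσ => ?_⟩
  have hmem : ∀ x : O, σ • (x : F) ∈ O := fun x =>
    hO.mpr ⟨σ * τ x, mul_mem hσ (hτG x), by rw [mul_smul, hτ]⟩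
  let e : O → O := fun x => ⟨σ • (x : F), hmem x⟩
  have he : Function.Bijective e :=
    ((Finite.injective_iff_bijective).mp fun x y h =>
      Subtype.ext (MulAction.injective σ (congrArg Subtype.val h)))
  rw [Finset.smul_sum, Finset.mul_sum]
  refine (Finset.sum_congr rfl fun x _ => ?_).trans (he.sum_comp fun x => a x * χ x θ)
  have hx : a (σ • f) * σ • a (x : F) = a (σ • (x : F)) := by
    conv_lhs => rw [← hτ x, ← hcoc σ hσ _ (hτG x), hτ x]
  have hθ' : σ • τ x • (θ : F) = τ (e x) • (θ : F) := by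
    have hstab := hEH θ.2 ((τ (e x))⁻¹ * (σ * τ x))
      (mul_mem (inv_mem (hτG _)) (mul_mem hσ (hτG x))) (by
        rw [mul_smul, mul_smul, hτ, inv_smul_eq_iff, hτ])
    conv_rhs => rw [← hstab]
    rw [mul_smul, mul_smul, smul_inv_smul]
  rw [smul_mul', ← mul_assoc, hx]
  exact congrArg _ hθ'

end Fermat.Agent.LL.Mazur
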