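import Fermat.Agent.BAD.Core.Echelon
import Fermat.Agent.LL.Mazur.Descent
import Mathlib.LinearAlgebra.Matrix.Determinant.Basic
import Mathlib.LinearAlgebra.Matrix.NonsingularInverse
import Mathlib.LinearAlgebra.Dimension.Constructions

/-!
# Lattices of fixed functions

Two branches over a valued field, and a group `G` of semilinear automorphisms whose fixed constants
have the uniformiser `ϖ`: integral valuations of fixed functions on the branches, and reduced bases
made of fixed functions.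
-/

set_option autoImplicit false

noncomputable section

open AlgebraicCurve Fermat.Agent.BAD

namespace Fermat.Agent.LL.Mazur

variable {L k : Type*} [Field L] [Field k] {A : ValuationSubring L} {π : A →+* k}
  {F C : Type*} [Field F] [Algebra L F] [Field C] [Algebra k C]

/-- The hypotheses on a group of inertia acting on two branches. -/
structure FixedBase (D : TwoBranch π F C) (G : Subgroup (SemilinearAut L F)) (ϖ : A) : Prop where
  span_fix : ∀ f : F, f ∈ Submodule.span L (fixF G : Set F)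
  π_ϖ : π ϖ = 0
  ϖ_ne : (ϖ : L) ≠ 0
  ϖ_fixed : (ϖ : L) ∈ fixL G
  unif : ∀ (i : Fin 2) (f : F), f ∈ fixF G → f ∈ D.V i → D.red i f = 0 →
    (ϖ : L)⁻¹ • f ∈ D.V i
  lift_const : ∀ x : k, ∃ a : A, π a = x ∧ (a : L) ∈ fixL G

namespace FixedBase

variable {D : TwoBranch π F C} {G : Subgroup (SemilinearAut L F)} {ϖ : A} (h : FixedBase D G ϖ)

include h

theorem inv_notMem : (ϖ : L)⁻¹ ∉ A := fun hm => by
  have h1 : ϖ * ⟨_, hm⟩ = 1 := Subtype.ext (mul_inv_cancel₀ h.ϖ_ne)
  have := congrArg π h1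
  rw [map_mul, h.π_ϖ, zero_mul, map_one] at this
  exact zero_ne_one this

theorem ϖ_nonunit : (ϖ : L) ∈ A.nonunits := by
  rw [ValuationSubring.mem_nonunits_iff_or]
  exact Or.inr h.inv_notMem

theorem zpow_fixed (j : ℤ) : (ϖ : L) ^ j ∈ fixL G := zpow_mem h.ϖ_fixed j

theorem zpow_smul_fixed {f : F} (hf : f ∈ fixF G) (j : ℤ) : (ϖ : L) ^ j • f ∈ fixF G :=
  smul_mem_fixF (h.zpow_fixed j) hf

omit h in
theorem zpow_smul_mem {i : Fin 2} {f : F} (hϖ : (ϖ : L) ≠ 0) {j j' : ℤ} (hj : j ≤ j')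
    (hf : (ϖ : L) ^ j • f ∈ D.V i) : (ϖ : L) ^ j' • f ∈ D.V i := by
  obtain ⟨d, rfl⟩ := Int.le.dest hj
  rw [add_comm, zpow_add₀ hϖ, zpow_natCast, mul_smul]
  exact D.smul_mem hf (ϖ ^ d)

/-- A power of `ϖ` makes a fixed function a unit on a branch. -/
theorem exists_unit_scale (i : Fin 2) {f : F} (hfix : f ∈ fixF G) (hf : f ≠ 0) :
    ∃ j : ℤ, (ϖ : L) ^ j • f ∈ D.V i ∧ D.red i ((ϖ : L) ^ j • f) ≠ 0 := by
  classical
  obtain ⟨c, hc, hr⟩ := D.scale i f hf
  rw [← D.red_of_mem hc] at hr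
  have hc0 : c ≠ 0 := fun h0 => hr (by simp [h0])
  obtain ⟨N, hN⟩ := D.arch _ h.ϖ_nonunit c hc0
  obtain ⟨M, hM⟩ := D.arch _ h.ϖ_nonunit c⁻¹ (inv_ne_zero hc0)
  rw [div_inv_eq_mul] at hM
  have hlow : ¬ (ϖ : L) ^ (-((M + 1 : ℕ) : ℤ)) • f ∈ D.V i := fun hmem => by
    have h1 := D.red_smul hmem (ϖ * ⟨_, hM⟩)
    have h2 : ((ϖ * ⟨_, hM⟩ : A) : L) • (ϖ : L) ^ (-((M + 1 : ℕ) : ℤ)) • f = c • f := by
      rw [smul_smul]
      congr 1
      push_cast
      rw [zpow_neg, ← Nat.cast_one (R := ℤ), ← Nat.cast_add, zpow_natCast, pow_succ]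
      field_simp [h.ϖ_ne]
    rw [h2, map_mul, h.π_ϖ, zero_mul, zero_smul] at h1
    exact hr h1
  have hex : ∃ n : ℕ, (ϖ : L) ^ ((n : ℤ) - ((M + 1 : ℕ) : ℤ)) • f ∈ D.V i := by
    refine ⟨N + (M + 1), ?_⟩
    have := D.smul_mem hc ⟨_, hN⟩
    rw [smul_smul, div_mul_cancel₀ _ hc0] at this
    rwa [Nat.cast_add, add_sub_cancel_right, zpow_natCast]
  refine ⟨_, Nat.find_spec hex, fun h0 => ?_⟩
  rcases Nat.eq_zero_or_pos (Nat.find hex) with hz | hpos
  · exact hlow (by simpa [hz] using Nat.find_spec hex)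
  · refine Nat.find_min hex (Nat.sub_lt hpos one_pos) ?_
    have := h.unif i _ (h.zpow_smul_fixed hfix _) (Nat.find_spec hex) h0
    rw [smul_smul, ← zpow_neg_one, ← zpow_add₀ h.ϖ_ne] at this
    rwa [show (((Nat.find hex - 1 : ℕ) : ℤ) - ((M + 1 : ℕ) : ℤ)) =
      -1 + ((Nat.find hex : ℤ) - ((M + 1 : ℕ) : ℤ)) by omega]

theorem scale_unique {i : Fin 2} {f : F} {j j' : ℤ}
    (hj : (ϖ : L) ^ j • f ∈ D.V i ∧ D.red i ((ϖ : L) ^ j • f) ≠ 0)
    (hj' : (ϖ : L) ^ j' • f ∈ D.V i ∧ D.red i ((ϖ : L) ^ j' • f) ≠ 0) : j = j' := by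
  suffices key : ∀ a b : ℤ, a < b → (ϖ : L) ^ a • f ∈ D.V i →
      D.red i ((ϖ : L) ^ b • f) = 0 by
    rcases lt_trichotomy j j' with hlt | heq | hlt
    · exact absurd (key _ _ hlt hj.1) hj'.2
    · exact heq
    · exact absurd (key _ _ hlt hj'.1) hj.2
  intro a b hab ha
  have hm := zpow_smul_mem h.ϖ_ne (show a ≤ b - 1 by omega) ha
  have h1 := D.red_smul hm ϖ
  rw [smul_smul, ← zpow_one_add₀ h.ϖ_ne, add_sub_cancel, h.π_ϖ, zero_smul] at h1
  exact h1

/-- A common power of `ϖ` makes a fixed function integral on both branches. -/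
theorem exists_mem_O {f : F} (hfix : f ∈ fixF G) :
    ∃ N : ℕ, ∀ n, N ≤ n → (ϖ : L) ^ n • f ∈ D.O := by
  rcases eq_or_ne f 0 with rfl | hf
  · exact ⟨0, fun n _ => by simp [zero_mem]⟩
  choose j hj using fun i => h.exists_unit_scale i hfix hf
  refine ⟨(max (j 0) (j 1)).toNat, fun n hn => D.mem_O.mpr fun i => ?_⟩
  rw [← zpow_natCast]
  refine zpow_smul_mem h.ϖ_ne ?_ (hj i).1
  have : j i ≤ max (j 0) (j 1) := by
    fin_cases i
    · exact le_max_left _ _
    · exact le_max_right _ _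
  omega

theorem const_mem {c : L} {i : Fin 2} (hc : algebraMap L F c ∈ D.V i) : c ∈ A := by
  by_contra hcA
  have hn := TwoBranch.inv_mem_nonunits_of_notMem hcA
  have hc0 : c ≠ 0 := fun h0 => hcA (h0 ▸ zero_mem A)
  have h1 := D.red_smul hc ⟨c⁻¹, A.nonunits_subset hn⟩
  rw [D.residue_eq_zero_of_nonunit ⟨c⁻¹, A.nonunits_subset hn⟩ hn, zero_smul,
    Algebra.smul_def, ← map_mul, inv_mul_cancel₀ hc0, map_one, D.red_one] at h1
  exact one_ne_zero h1

/-- A fixed constant with zero residue is divisible by `ϖ`. -/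
theorem div_mem {c : A} (hfix : (c : L) ∈ fixL G) (hc : π c = 0) : (c : L) / ϖ ∈ A := by
  have h0 : D.red 0 (algebraMap L F c) = 0 := by rw [D.red_algebraMap, hc, map_zero]
  have := h.unif 0 _ hfix (D.algebraMap_mem 0 c) h0
  rw [Algebra.smul_def, ← map_mul] at this
  rw [div_eq_inv_mul]
  exact h.const_mem this

section Basis

variable {d : ℕ}

/-- Stable spaces with reduced bases have reduced bases of fixed functions. -/
theorem exists_fixed_reduced {V : Submodule L F} (hV : ∀ σ ∈ G, ∀ a ∈ V, σ • a ∈ V)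
    {v : Fin d → F} (hv : D.Reduced v) (hspan : Submodule.span L (Set.range v) = V) :
    ∃ b : Fin d → F, (∀ j, b j ∈ fixF G) ∧ D.Reduced b ∧
      Submodule.span L (Set.range b) = V := by
  classical
  have hvli := D.linearIndependent_of_red2 hv.mem hv.indep
  have : FiniteDimensional L V := hspan ▸ FiniteDimensional.span_of_finite L (Set.finite_range v)
  -- a basis of fixed functions
  obtain ⟨b₀, hb₀fix, hb₀li, hb₀span⟩ : ∃ b₀ : Fin d → F, (∀ j, b₀ j ∈ fixF G) ∧
      LinearIndependent L b₀ ∧ Submodule.span L (Set.range b₀) = V := by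
    obtain ⟨S, hS, hSspan, hSli⟩ := exists_linearIndependent L {a : F | a ∈ V ∧ a ∈ fixF G}
    have hVS : Submodule.span L S = V := by
      rw [hSspan]
      exact le_antisymm (Submodule.span_le.mpr fun a ha => ha.1)
        fun a ha => le_span_fixed_of_stable hV ha (h.span_fix a)
    have hSsub : S ⊆ (V : Set F) := fun a ha => hVS ▸ Submodule.subset_span ha
    have hVli : LinearIndependent L fun s : S => (⟨s.1, hSsub s.2⟩ : V) :=
      LinearIndependent.of_comp V.subtype hSli
    have := hVli.finite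
    have := Fintype.ofFinite S
    have hcard : Fintype.card S = d := by
      have h1 : Module.finrank L (Submodule.span L (Set.range ((↑) : S → F))) = Fintype.card S :=
        finrank_span_eq_card hSli
      rw [Subtype.range_coe, hVS, ← hspan, finrank_span_eq_card hvli, Fintype.card_fin] at h1
      exact h1.symm
    refine ⟨fun j => ((Fintype.equivFinOfCardEq hcard).symm j : F),
      fun j => (hS (Subtype.prop _)).2, hSli.comp _ (Equiv.injective _), ?_⟩
    rw [show (fun j => ((Fintype.equivFinOfCardEq hcard).symm j : F)) =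
      ((↑) : S → F) ∘ (Fintype.equivFinOfCardEq hcard).symm from rfl,
      EquivLike.range_comp, Subtype.range_coe, hVS]
  choose N hN using fun j => h.exists_mem_O (hb₀fix j)
  set n := Finset.univ.sup N
  set b₁ : Fin d → F := fun j => (ϖ : L) ^ n • b₀ j with hb₁
  suffices key : ∀ (N : ℕ) (b : Fin d → F) (M : Matrix (Fin d) (Fin d) L),
      (∀ j, b j ∈ fixF G) → (∀ j, b j ∈ D.O) → (∀ j, b j = ∑ i, M j i • v i) → M.det ≠ 0 →
      (ϖ : L) ^ N / M.det ∈ A →
      ∃ b : Fin d → F, (∀ j, b j ∈ fixF G) ∧ D.Reduced b ∧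
        Submodule.span L (Set.range b) = V by
    have hb₁V : ∀ j, ∃ c : Fin d → L, ∑ i, c i • v i = b₁ j := fun j =>
      (Submodule.mem_span_range_iff_exists_fun L).mp (hspan.symm ▸
        V.smul_mem _ (hb₀span ▸ Submodule.subset_span ⟨j, rfl⟩))
    choose c hc using hb₁V
    have hdet : (Matrix.of c).det ≠ 0 := by
      refine ((Matrix.isUnit_iff_isUnit_det _).mp ?_).ne_zero
      rw [← Matrix.linearIndependent_rows_iff_isUnit]
      have hb₁li : LinearIndependent L b₁ := hb₀li.units_smul fun _ =>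
        (Units.mk0 _ (pow_ne_zero n h.ϖ_ne))
      have hcomp : b₁ = (Fintype.linearCombination L v) ∘ c :=
        funext fun j => by rw [Function.comp_apply, Fintype.linearCombination_apply, hc j]
      exact LinearIndependent.of_comp _ (hcomp ▸ hb₁li)
    obtain ⟨N₁, hN₁⟩ := D.arch _ h.ϖ_nonunit _ hdet
    exact key N₁ b₁ _ (fun j => smul_mem_fixF (pow_mem h.ϖ_fixed n) (hb₀fix j))
      (fun j => hN j n (Finset.le_sup (Finset.mem_univ j))) (fun j => (hc j).symm) hdet hN₁
  intro N
  induction N using Nat.strong_induction_on with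
  | _ N ih =>
    intro b M hbfix hbO hbM hdet hNA
    by_cases hind : LinearIndependent k fun j => D.red2 (b j)
    · refine ⟨b, hbfix, ⟨hbO, hind⟩, Submodule.eq_of_le_of_finrank_eq ?_ ?_⟩
      · rw [Submodule.span_le]
        rintro _ ⟨j, rfl⟩
        rw [hbM j, ← hspan]
        exact sum_mem fun i _ => Submodule.smul_mem _ _ (Submodule.subset_span ⟨i, rfl⟩)
      · rw [finrank_span_eq_card (D.linearIndependent_of_red2 hbO hind), ← hspan,
          finrank_span_eq_card hvli]
    obtain ⟨g, hg, j₁, hj₁⟩ := Fintype.not_linearIndependent_iff.mp hind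
    set g' : Fin d → k := fun j => (g j₁)⁻¹ * g j with hg'
    choose c hc hcfix using fun j => h.lift_const (g' j)
    set c' : Fin d → A := Function.update c j₁ 1 with hc'
    have hπc' : ∀ j, π (c' j) = g' j := by
      intro j
      rcases eq_or_ne j j₁ with rfl | hne
      · simp [hc', hg', inv_mul_cancel₀ hj₁]
      · simp [hc', Function.update_of_ne hne, hc]
    have hc'fix : ∀ j, (c' j : L) ∈ fixL G := by
      intro j
      rcases eq_or_ne j j₁ with rfl | hne
      · simp [hc', one_mem]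
      · simpa [hc', Function.update_of_ne hne] using hcfix j
    set x := ∑ j, (c' j : L) • b j with hx
    have hxfix : x ∈ fixF G := sum_mem fun j _ => smul_mem_fixF (hc'fix j) (hbfix j)
    have hxO : x ∈ D.O := sum_mem fun j _ => D.smul_mem_O (hbO j) (c' j).2
    have hxred : D.red2 x = 0 := by
      rw [hx, D.red2_sum _ c' b fun j _ => hbO j]
      simp only [hπc', hg', mul_smul, ← Finset.smul_sum, hg, smul_zero]
    have hx' : (ϖ : L)⁻¹ • x ∈ D.O := D.mem_O.mpr fun i =>
      h.unif i x hxfix (D.mem_of_mem_O hxO i) (congrFun hxred i)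
    set b' := Function.update b j₁ ((ϖ : L)⁻¹ • x) with hb'
    set M' := M.updateRow j₁ (∑ j, ((ϖ : L)⁻¹ * (c' j : L)) • M j) with hM'
    have hb'O : ∀ j, b' j ∈ D.O := by
      intro j
      rcases eq_or_ne j j₁ with rfl | hne
      · simpa [hb'] using hx'
      · simpa [hb', Function.update_of_ne hne] using hbO j
    have hb'fix : ∀ j, b' j ∈ fixF G := by
      intro j
      rcases eq_or_ne j j₁ with rfl | hne
      · simpa [hb'] using smul_mem_fixF (inv_mem h.ϖ_fixed) hxfix
      · simpa [hb', Function.update_of_ne hne] using hbfix j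
    have hb'M : ∀ j, b' j = ∑ i, M' j i • v i := by
      intro j
      rcases eq_or_ne j j₁ with rfl | hne
      · simp only [hb', Function.update_self, hM', Matrix.updateRow_self, Finset.sum_apply,
          Pi.smul_apply, smul_eq_mul, Finset.sum_smul, hx, Finset.smul_sum]
        rw [Finset.sum_comm]
        refine Finset.sum_congr rfl fun l _ => ?_
        rw [hbM l, Finset.smul_sum, Finset.smul_sum]
        simp only [smul_smul, mul_assoc]
      · simp [hb', hM', Function.update_of_ne hne, Matrix.updateRow_ne hne, hbM j]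
    have hdet' : M'.det = (ϖ : L)⁻¹ * M.det := by
      rw [hM', Matrix.det_updateRow_sum]
      simp [hc']
    have hdetA : M'.det ∈ A := by
      have hmem : ∀ j i, M' j i ∈ A := fun j =>
        D.coeff_mem_of_linearIndependent hv.mem hv.indep (hb'M j ▸ hb'O j)
      have : M' = (Matrix.of fun j i => (⟨M' j i, hmem j i⟩ : A)).map A.subtype := rfl
      rw [this, ← RingHom.mapMatrix_apply, ← RingHom.map_det]
      exact SetLike.coe_mem _
    rcases Nat.eq_zero_or_pos N with rfl | hN
    · refine absurd ?_ h.inv_notMem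
      have := mul_mem hdetA hNA
      rwa [hdet', pow_zero, mul_assoc, mul_one_div, div_self hdet, mul_one] at this
    · refine ih (N - 1) (Nat.sub_lt hN one_pos) b' M' hb'fix hb'O hb'M ?_ ?_
      · rw [hdet']
        exact mul_ne_zero (inv_ne_zero h.ϖ_ne) hdet
      · rwa [hdet', show (ϖ : L) ^ (N - 1) / ((ϖ : L)⁻¹ * M.det) = (ϖ : L) ^ N / M.det by
          obtain ⟨N', rfl⟩ := Nat.exists_eq_succ_of_ne_zero hN.ne'
          rw [Nat.succ_sub_one, pow_succ]
          field_simp [h.ϖ_ne]]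

/-- Reductions of stable spaces are reductions of fixed elements. -/
theorem exists_fixed_lift {V : Submodule L F} (hV : ∀ σ ∈ G, ∀ a ∈ V, σ • a ∈ V)
    {v : Fin d → F} (hv : D.Reduced v) (hspan : Submodule.span L (Set.range v) = V)
    {p : Fin 2 → C} (hp : p ∈ D.redSpace V) :
    ∃ a ∈ V, a ∈ fixF G ∧ a ∈ D.O ∧ D.red2 a = p := by
  obtain ⟨b, hbfix, hb, hbspan⟩ := h.exists_fixed_reduced hV hv hspan
  rw [← hbspan, D.redSpace_eq_span hb] at hp
  obtain ⟨x, hx⟩ := (Submodule.mem_span_range_iff_exists_fun k).mp hp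
  choose c hc hcfix using fun j => h.lift_const (x j)
  refine ⟨∑ j, (c j : L) • b j, ?_, sum_mem fun j _ => smul_mem_fixF (hcfix j) (hbfix j),
    sum_mem fun j _ => D.smul_mem_O (hb.mem j) (c j).2, ?_⟩
  · rw [← hbspan]
    exact sum_mem fun j _ => Submodule.smul_mem _ _ (Submodule.subset_span ⟨j, rfl⟩)
  · rw [D.red2_sum _ c b fun j _ => hb.mem j, ← hx]
    exact Finset.sum_congr rfl fun j _ => by rw [hc]

end Basis

end FixedBase

end Fermat.Agent.LL.Mazur
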