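import Fermat.Agent.BAD.Core.NodeAlgebra
import Fermat.Agent.LL.Mazur.Lattice
import Fermat.Agent.Carayol.FiniteClosure
import Fermat.Agent.Carayol.ChartLift
import Mathlib.RingTheory.Noetherian.Basic
import Mathlib.RingTheory.Polynomial.Basic
import Mathlib.RingTheory.DiscreteValuationRing.Basic

/-!
# The ring of fixed functions on a chart

For a chart with inertia group `G`, the fixed functions integral on the chart and on both branches
form a Noetherian ring, finite over `W[u]` where `W` is the ring of fixed integral constants.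
-/

set_option autoImplicit false

noncomputable section

open AlgebraicCurve Polynomial Fermat.Agent.RED Fermat.Agent.BAD

namespace Fermat.Agent.LL.Mazur

variable {L k : Type} [Field L] [Field k] {A : ValuationSubring L} {π : A →+* k}
  {F C : Type} [Field F] [Algebra L F] [Field C] [Algebra k C]

/-- The fixed integral constants. -/
def fixA (A : ValuationSubring L) (G : Subgroup (SemilinearAut L F)) : Subring L :=
  A.toSubring ⊓ (fixL G).toSubring

instance fixLAlgebra (G : Subgroup (SemilinearAut L F)) : Algebra (fixL G) (fixF G) :=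
  (((algebraMap L F).comp (fixL G).subtype).codRestrict (fixF G).toSubring fun c => c.2).toAlgebra

instance fixAAlgebra (G : Subgroup (SemilinearAut L F)) : Algebra (fixA A G) (fixF G) :=
  (((algebraMap L F).comp (fixA A G).subtype).codRestrict (fixF G).toSubring
    fun c => c.2.2).toAlgebra

theorem coe_algebraMap_fixL (G : Subgroup (SemilinearAut L F)) (c : fixL G) :
    ((algebraMap (fixL G) (fixF G) c : fixF G) : F) = algebraMap L F (c : L) := rfl

theorem coe_algebraMap_fixA (G : Subgroup (SemilinearAut L F)) (c : fixA A G) :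
    ((algebraMap (fixA A G) (fixF G) c : fixF G) : F) = algebraMap L F (c : L) := rfl

/-- A semilinear automorphism fixing the coordinate preserves its coordinate ring. -/
theorem smul_mem_coordRing (σ : SemilinearAut L F) {u : F} (hu : σ • u = u) {a : F}
    (ha : a ∈ coordRing L u) : σ • a ∈ coordRing L u := by
  obtain ⟨P, hP, hroot⟩ := ha
  refine ⟨P.map (Polynomial.mapRingHom (SemilinearAut.baseAut σ).toRingHom), hP.map _, ?_⟩
  have hcomm : (coordEval L u).comp (Polynomial.mapRingHom (SemilinearAut.baseAut σ).toRingHom) =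
      (SemilinearAut.toRingAut σ).toRingHom.comp (coordEval L u) := by
    refine Polynomial.ringHom_ext (fun c => ?_) ?_
    · simp [SemilinearAut.commutes]
    · simpa using hu.symm
  rw [Polynomial.eval₂_map, hcomm, show σ • a = (SemilinearAut.toRingAut σ).toRingHom a from rfl,
    ← Polynomial.hom_eval₂, hroot, map_zero]

/-- Changing the chart: a power of `u⁻¹` moves a function to the other chart. -/
theorem exists_mul_inv_pow_mem {u : F} (hu : u ≠ 0) {a : F} (ha : a ∈ coordRing L u) :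
    ∃ N : ℕ, a * u⁻¹ ^ N ∈ coordRing L u⁻¹ := by
  classical
  obtain ⟨P, hP, hroot⟩ := ha
  set e := P.natDegree with he
  set N := (Finset.range e).sup fun l => (P.coeff l).natDegree with hN
  refine ⟨N, ?_⟩
  have hterm : ∀ l < e, u⁻¹ ^ (N * (e - l)) * aeval u (P.coeff l) ∈
      (Polynomial.aeval (R := L) u⁻¹).range := by
    intro l hl
    have hdeg : (P.coeff l).natDegree ≤ N * (e - l) :=
      (Finset.le_sup (f := fun l => (P.coeff l).natDegree) (Finset.mem_range.mpr hl)).trans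
        (Nat.le_mul_of_pos_right _ (Nat.sub_pos_of_lt hl))
    rw [aeval_eq_sum_range' (Nat.lt_succ_of_le hdeg), Finset.mul_sum]
    refine sum_mem fun i hi => ?_
    obtain ⟨j, hj⟩ := Nat.exists_eq_add_of_le (Nat.lt_succ_iff.mp (Finset.mem_range.mp hi))
    refine ⟨Polynomial.C ((P.coeff l).coeff i) * Polynomial.X ^ j, ?_⟩
    rw [AlgHom.toRingHom_eq_coe, RingHom.coe_coe, map_mul, map_pow, aeval_C, aeval_X, hj, pow_add,
      Algebra.smul_def]
    have hui : u ^ i * u⁻¹ ^ i = 1 := by rw [← mul_pow, mul_inv_cancel₀ hu, one_pow]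
    linear_combination -(algebraMap L F ((P.coeff l).coeff i) * u⁻¹ ^ j) * hui
  choose! Q hQ using hterm
  refine ⟨Polynomial.X ^ e + ∑ l ∈ Finset.range e, Polynomial.C (Q l) * Polynomial.X ^ l,
    monic_X_pow_add ((Polynomial.degree_sum_le _ _).trans_lt ?_), ?_⟩
  · refine (Finset.sup_lt_iff (WithBot.bot_lt_coe e)).mpr fun l hl => ?_
    exact (degree_C_mul_X_pow_le _ _).trans_lt (WithBot.coe_lt_coe.mpr (Finset.mem_range.mp hl))
  · have h0 : a ^ e + ∑ l ∈ Finset.range e, aeval u (P.coeff l) * a ^ l = 0 := by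
      rw [eval₂_eq_sum_range, Finset.sum_range_succ, hP.coeff_natDegree, map_one, one_mul] at hroot
      rw [← hroot, add_comm]
      rfl
    simp only [eval₂_add, eval₂_pow, eval₂_X, eval₂_finsetSum, eval₂_mul, eval₂_C]
    rw [mul_pow, ← pow_mul]
    calc a ^ e * u⁻¹ ^ (N * e) + ∑ l ∈ Finset.range e,
          coordEval L u⁻¹ (Q l) * (a * u⁻¹ ^ N) ^ l
        = u⁻¹ ^ (N * e) *
          (a ^ e + ∑ l ∈ Finset.range e, aeval u (P.coeff l) * a ^ l) := by
          rw [mul_add, mul_comm (a ^ e), Finset.mul_sum]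
          congr 1
          refine Finset.sum_congr rfl fun l hl => ?_
          obtain ⟨j, hj⟩ := Nat.exists_eq_add_of_le (Finset.mem_range.mp hl).le
          rw [show coordEval L u⁻¹ (Q l) = u⁻¹ ^ (N * (e - l)) * aeval u (P.coeff l) from
            hQ l (Finset.mem_range.mp hl), hj, Nat.add_sub_cancel_left, mul_add, pow_add]
          ring
      _ = 0 := by rw [h0, mul_zero]

/-- The fixed functions integral on the chart and on both branches. -/
def fixRing (D : BadBase π F C) (G : Subgroup (SemilinearAut L F)) (u : F) :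
    Subalgebra (fixA A G) (fixF G) where
  carrier := {a | (a : F) ∈ coordRing L u ∧ (a : F) ∈ D.O}
  mul_mem' ha hb := ⟨mul_mem ha.1 hb.1, mul_mem ha.2 hb.2⟩
  one_mem' := ⟨one_mem _, one_mem _⟩
  add_mem' ha hb := ⟨add_mem ha.1 hb.1, add_mem ha.2 hb.2⟩
  zero_mem' := ⟨zero_mem _, zero_mem _⟩
  algebraMap_mem' c := ⟨(coordRing L u).algebraMap_mem (c : L),
    D.mem_O.mpr fun i => D.algebraMap_mem i ⟨(c : L), c.2.1⟩⟩

theorem mem_fixRing {D : BadBase π F C} {G : Subgroup (SemilinearAut L F)} {u : F} {a : fixF G} :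
    a ∈ fixRing D G u ↔ (a : F) ∈ coordRing L u ∧ (a : F) ∈ D.O := Iff.rfl

/-- Every element of the reduced chart is the reduction of a fixed function. -/
theorem FixedBase.exists_fixed_chartLift {D : BadBase π F C} {G : Subgroup (SemilinearAut L F)}
    {ϖ : A} (hb : FixedBase D.toTwoBranch G ϖ) {u : F} {ubar : C} {d : ℕ} (hc : Chart D u ubar d)
    (hu : u ∈ fixF G) {p : Fin 2 → C} (hp : p ∈ Chart.chartAlg D u) :
    ∃ a : F, a ∈ fixF G ∧ a ∈ coordRing L u ∧ a ∈ D.O ∧ D.red2 a = p := by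
  classical
  obtain ⟨a, haR, haO, rfl⟩ := Chart.mem_chartAlg.mp hp
  obtain ⟨c, t, ht, -, hsum⟩ := Submodule.mem_span_iff_exists_finset_subset.mp (hb.span_fix a)
  let V : Submodule L F :=
    Submodule.span L (t : Set F) ⊓ Subalgebra.toSubmodule (coordRing L u)
  haveI : FiniteDimensional L (Submodule.span L (t : Set F)) :=
    FiniteDimensional.span_finset L t
  haveI : FiniteDimensional L V := Submodule.finiteDimensional_of_le inf_le_left
  have haV : a ∈ V :=
    ⟨hsum ▸ sum_mem fun j hj => Submodule.smul_mem _ _ (Submodule.subset_span hj), haR⟩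
  have hV : ∀ σ ∈ G, ∀ b ∈ V, σ • b ∈ V := by
    rintro σ hσ b ⟨hb, hbR⟩
    refine ⟨?_, smul_mem_coordRing σ (smul_eq_of_mem hσ hu) hbR⟩
    clear hbR
    induction hb using Submodule.span_induction with
    | mem x hx => rw [smul_eq_of_mem hσ (ht hx)]; exact Submodule.subset_span hx
    | zero => rw [smul_zero]; exact zero_mem _
    | add x y _ _ hx hy => rw [smul_add]; exact add_mem hx hy
    | smul c x _ hx => rw [smul_smul_comm]; exact Submodule.smul_mem _ _ hx
  obtain ⟨m, v, hv, hspan⟩ := hc.exists_reduced_basis V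
  obtain ⟨b, hbV, hbfix, hbO, hb⟩ :=
    hb.exists_fixed_lift hV hv hspan (D.red2_mem_redSpace haV haO)
  exact ⟨b, hbfix, hbV.2, hbO, hb⟩

/-- A chart compatible with inertia. -/
structure FixedChart (D : BadBase π F C) (G : Subgroup (SemilinearAut L F)) (ϖ : A) (u : F)
    (ubar : C) (d dF : ℕ) : Prop where
  base : FixedBase D.toTwoBranch G ϖ
  chart : Chart D u ubar d
  u_fixed : u ∈ fixF G
  coordF : CoordData L u dF

namespace FixedBase

variable {D : TwoBranch π F C} {G : Subgroup (SemilinearAut L F)} {ϖ : A} (h : FixedBase D G ϖ)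

include h

theorem π_ne_zero_inv {a : A} (ha : π a ≠ 0) : (a : L)⁻¹ ∈ A := by
  by_contra hc
  have hn : (a : L) ∈ A.nonunits := (ValuationSubring.mem_nonunits_iff_or A).mpr (Or.inr hc)
  exact ha (D.residue_eq_zero_of_nonunit a hn)

theorem isDiscreteValuationRing_fixA : IsDiscreteValuationRing (fixA A G) := by
  let p : fixA A G := ⟨ϖ, ϖ.2, h.ϖ_fixed⟩
  have hnu : ∀ c : fixA A G, ¬ IsUnit c → π ⟨c, c.2.1⟩ = 0 := by
    intro c hc
    by_contra hne
    have hinv := h.π_ne_zero_inv hne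
    have hc0 : (c : L) ≠ 0 := fun h0 => hne (by
      rw [show (⟨(c : L), c.2.1⟩ : A) = 0 from Subtype.ext h0, map_zero])
    exact hc (IsUnit.of_mul_eq_one ⟨_, hinv, (fixL G).inv_mem c.2.2⟩ (Subtype.ext (mul_inv_cancel₀ hc0)))
  have hp : Irreducible p := by
    refine ⟨fun hu => ?_, fun a b hab => ?_⟩
    · obtain ⟨b, hb⟩ := isUnit_iff_exists_inv.mp hu
      have := congrArg (fun x : fixA A G => π ⟨(x : L), x.2.1⟩) hb
      rw [show (⟨((p * b : fixA A G) : L), (p * b).2.1⟩ : A) = ϖ * ⟨b, b.2.1⟩ from rfl, map_mul,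
        h.π_ϖ, zero_mul, show (⟨((1 : fixA A G) : L), (1 : fixA A G).2.1⟩ : A) = 1 from rfl,
        map_one] at this
      exact zero_ne_one this
    · by_contra! hcon
      have ha := h.div_mem (c := ⟨a, a.2.1⟩) a.2.2 (hnu a hcon.1)
      have hb := h.div_mem (c := ⟨b, b.2.1⟩) b.2.2 (hnu b hcon.2)
      refine h.inv_notMem ?_
      have hab' : (ϖ : L) = a * b := congrArg Subtype.val hab
      convert mul_mem ha hb using 1
      rw [div_mul_div_comm, ← hab']
      field_simp [h.ϖ_ne]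
  refine IsDiscreteValuationRing.ofHasUnitMulPowIrreducibleFactorization ⟨p, hp, fun {x} hx => ?_⟩
  have hx0 : algebraMap L F (x : L) ≠ 0 :=
    (_root_.map_ne_zero _).mpr fun h0 => hx (Subtype.ext h0)
  obtain ⟨j, hj, hjr⟩ := h.exists_unit_scale 0 x.2.2 hx0
  have hj0 : j ≤ 0 := by
    by_contra! hj0
    have hm : (ϖ : L) ^ (j - 1) • algebraMap L F (x : L) ∈ D.V 0 :=
      zpow_smul_mem h.ϖ_ne (show (0 : ℤ) ≤ j - 1 by omega)
        (by simpa using D.algebraMap_mem 0 ⟨x, x.2.1⟩)
    have h1 := D.red_smul hm ϖ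
    rw [smul_smul, ← zpow_one_add₀ h.ϖ_ne, add_sub_cancel, h.π_ϖ, zero_smul] at h1
    exact hjr h1
  obtain ⟨N, hN⟩ := Int.exists_eq_neg_ofNat hj0
  rw [Algebra.smul_def, ← map_mul] at hj hjr
  have hcA := h.const_mem hj
  have hπ : π ⟨_, hcA⟩ ≠ 0 := fun h0 => hjr (by
    rw [show algebraMap L F ((ϖ : L) ^ j * x) = algebraMap L F ((⟨_, hcA⟩ : A) : L) from rfl,
      D.red_algebraMap, h0, map_zero])
  let c : fixA A G := ⟨_, hcA, mul_mem (h.zpow_fixed j) x.2.2⟩
  have hc : IsUnit c := not_not.mp fun hh => hπ (hnu c hh)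
  refine ⟨N, hc.unit, Subtype.ext ?_⟩
  show (ϖ : L) ^ N * ((ϖ : L) ^ j * x) = x
  rw [hN, zpow_neg, zpow_natCast, ← mul_assoc, mul_inv_cancel₀ (pow_ne_zero _ h.ϖ_ne), one_mul]

theorem isUnit_natCast_fixA {n : ℕ} (hn : (n : k) ≠ 0) : IsUnit (n : fixA A G) := by
  have hπ : π (n : A) ≠ 0 := by rwa [map_natCast]
  have hinv := h.π_ne_zero_inv hπ
  rw [show ((n : A) : L) = (n : L) from map_natCast A.subtype n] at hinv
  have hn0 : (n : L) ≠ 0 := fun h0 => hn (by
    have : (n : A) = 0 := Subtype.ext ((map_natCast A.subtype n).trans h0)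
    rw [← map_natCast π, this, map_zero])
  refine IsUnit.of_mul_eq_one ⟨_, hinv, (fixL G).inv_mem (natCast_mem (fixL G) n)⟩ (Subtype.ext ?_)
  show ((n : fixA A G) : L) * (n : L)⁻¹ = 1
  rw [show ((n : fixA A G) : L) = (n : L) from map_natCast (fixA A G).subtype n,
    mul_inv_cancel₀ hn0]

end FixedBase

namespace FixedChart

variable {D : BadBase π F C} {G : Subgroup (SemilinearAut L F)} {ϖ : A} {u : F} {ubar : C}
  {d dF : ℕ} (h : FixedChart D G ϖ u ubar d dF)

include h

theorem coordRing_stable {σ : SemilinearAut L F} (hσ : σ ∈ G) {a : F} (ha : a ∈ coordRing L u) :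
    σ • a ∈ coordRing L u :=
  smul_mem_coordRing σ (smul_eq_of_mem hσ h.u_fixed) ha

/-- Every element of the reduced chart is the reduction of a fixed function. -/
theorem exists_fixed_chartLift {p : Fin 2 → C} (hp : p ∈ Chart.chartAlg D u) :
    ∃ a : F, a ∈ fixF G ∧ a ∈ coordRing L u ∧ a ∈ D.O ∧ D.red2 a = p :=
  h.base.exists_fixed_chartLift h.chart h.u_fixed hp

/-- A reduced family of fixed functions spanning over `L(u)`. -/
theorem exists_fixed_omega :
    ∃ (n : ℕ) (ω : Fin 2 × Fin n → F), (∀ x, ω x ∈ fixF G) ∧ (∀ x, ω x ∈ coordRing L u) ∧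
      (∀ N : ℕ, D.Reduced fun x : Fin N × (Fin 2 × Fin n) => u ^ (x.1 : ℕ) * ω x.2) ∧
      Module.finrank (IntermediateField.adjoin L {u}) F ≤ 2 * n := by
  obtain ⟨n, ω, hωR, hω, hn⟩ := h.chart.exists_omega
  have hωO : ∀ x, ω x ∈ D.O := fun x => by simpa using (hω 1).mem ((0 : Fin 1), x)
  choose ω' hfix hR hO hred using fun x => h.exists_fixed_chartLift
    (Chart.mem_chartAlg.mpr ⟨ω x, hωR x, hωO x, rfl⟩)
  refine ⟨n, ω', hfix, hR, fun N => ⟨fun x => mul_mem (pow_mem h.chart.u_mem _) (hO _), ?_⟩, hn⟩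
  have heq : (fun x : Fin N × (Fin 2 × Fin n) => D.red2 (u ^ (x.1 : ℕ) * ω' x.2)) =
      fun x => D.red2 (u ^ (x.1 : ℕ) * ω x.2) := by
    funext x i
    have hui := pow_mem (D.mem_of_mem_O h.chart.u_mem i) (x.1 : ℕ)
    rw [D.red2_apply, D.red2_apply, D.red_mul hui (D.mem_of_mem_O (hO x.2) i),
      D.red_mul hui (D.mem_of_mem_O (hωO x.2) i)]
    exact congrArg _ (congrFun (hred x.2) i)
  exact heq ▸ (hω N).indep

theorem mul_aeval_mem_blockSpan {n : ℕ} {ω : Fin 2 × Fin n → F} (p : L[X]) {N : ℕ} {a : F}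
    (ha : a ∈ Chart.blockSpan (L := L) u ω N) :
    aeval u p * a ∈ Chart.blockSpan (L := L) u ω (N + p.natDegree) := by
  rw [aeval_eq_sum_range, Finset.sum_mul]
  refine sum_mem fun i hi => ?_
  rw [smul_mul_assoc]
  refine Submodule.smul_mem _ _ (Chart.blockSpan_mono u ω
    (Nat.add_le_add_left (Nat.lt_succ_iff.mp (Finset.mem_range.mp hi)) N) ?_)
  clear hi
  induction i with
  | zero => simpa using ha
  | succ i ih =>
    rw [pow_succ', mul_assoc, ← Nat.add_assoc]
    exact Chart.mul_u_mem_blockSpan u ω ih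

theorem pow_mul_mem_fixF (i : ℕ) {a : F} (ha : a ∈ fixF G) : u ^ i * a ∈ fixF G :=
  mul_mem (pow_mem h.u_fixed i) ha

/-- A fixed function becomes a combination after multiplying by a fixed monic polynomial. -/
theorem exists_fixed_relation {n : ℕ} {ω : Fin 2 × Fin n → F} (hωfix : ∀ x, ω x ∈ fixF G)
    (hω : ∀ N : ℕ, D.Reduced fun x : Fin N × (Fin 2 × Fin n) => u ^ (x.1 : ℕ) * ω x.2)
    (hn : Module.finrank (IntermediateField.adjoin L {u}) F ≤ 2 * n) {f : F} (hf : f ∈ fixF G) :
    ∃ s : L[X], s.Monic ∧ (∀ i, s.coeff i ∈ fixL G) ∧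
      ∃ N, aeval u s * f ∈ Chart.blockSpan (L := L) u ω N := by
  classical
  obtain ⟨s₀, -, hs₀, N, hN⟩ := h.chart.exists_common_denominator hω hn {f}
  have hs₀ne : s₀ ≠ 0 := fun h0 => hs₀ 0 (by rw [h0, map_zero, TwoBranch.red_zero])
  have hmem := hN f (Finset.mem_singleton_self f)
  set e := s₀.natDegree
  have hlead : s₀.coeff e ≠ 0 := leadingCoeff_ne_zero.mpr hs₀ne
  let b : Fin e ⊕ Fin N × (Fin 2 × Fin n) → F :=
    Sum.elim (fun i => u ^ (i : ℕ) * f) fun x => u ^ (x.1 : ℕ) * ω x.2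
  obtain ⟨c₀, hc₀⟩ := (Submodule.mem_span_range_iff_exists_fun L).mp hmem
  have hexp : aeval u s₀ * f =
      ∑ i : Fin e, s₀.coeff i • (u ^ (i : ℕ) * f) + s₀.coeff e • (u ^ e * f) := by
    rw [aeval_eq_sum_range, Finset.sum_range_succ, add_mul, Finset.sum_mul, Finset.sum_range]
    simp only [smul_mul_assoc]
    rfl
  obtain ⟨c, hcfix, hc⟩ := exists_fixed_coeff (G := G) Finset.univ b
    (fun x _ => by
      rcases x with i | x
      · exact h.pow_mul_mem_fixF _ hf
      · exact h.pow_mul_mem_fixF _ (hωfix _))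
    (h.pow_mul_mem_fixF e hf)
    ⟨Sum.elim (fun i => -((s₀.coeff e)⁻¹ * s₀.coeff i)) fun x => (s₀.coeff e)⁻¹ * c₀ x, by
      rw [Fintype.sum_sum_type]
      simp only [b, Sum.elim_inl, Sum.elim_inr, neg_smul, mul_smul, Finset.sum_neg_distrib,
        ← Finset.smul_sum, hc₀, hexp, smul_add, inv_smul_smul₀ hlead]
      abel⟩
  refine ⟨Polynomial.X ^ e - ∑ i : Fin e, Polynomial.C (c (.inl i)) * Polynomial.X ^ (i : ℕ),
    monic_X_pow_sub ((Polynomial.degree_sum_le _ _).trans_lt ?_), fun j => ?_, N, ?_⟩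
  · refine (Finset.sup_lt_iff (WithBot.bot_lt_coe e)).mpr fun i _ => ?_
    exact (degree_C_mul_X_pow_le _ _).trans_lt (WithBot.coe_lt_coe.mpr i.2)
  · simp only [coeff_sub, coeff_X_pow, finsetSum_coeff, coeff_C_mul]
    refine sub_mem ?_ (sum_mem fun i _ => mul_mem (hcfix _) ?_) <;>
      split <;> first | exact one_mem _ | exact zero_mem _
  · refine (Submodule.mem_span_range_iff_exists_fun L).mpr ⟨fun x => c (.inr x), ?_⟩
    rw [Fintype.sum_sum_type] at hc
    simp only [b, Sum.elim_inl, Sum.elim_inr] at hc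
    simp only [map_sub, map_pow, aeval_X, map_sum, map_mul, aeval_C, sub_mul, Finset.sum_mul,
      ← Algebra.smul_def, smul_mul_assoc, hc, add_sub_cancel_left]

/-- A common scale of a fixed function which is a unit on both branches after scaling. -/
theorem exists_common_scale {f : F} (hfix : f ∈ fixF G) (hf : f ≠ 0)
    (hc : ∃ c : L, c • f ∈ D.O ∧ ∀ i, D.red i (c • f) ≠ 0) :
    ∃ j : ℤ, (ϖ : L) ^ j • f ∈ D.O ∧ ∀ i, D.red i ((ϖ : L) ^ j • f) ≠ 0 := by
  obtain ⟨c, hcO, hcr⟩ := hc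
  obtain ⟨j, hj, hjr⟩ := h.base.exists_unit_scale 0 hfix hf
  have hc0 : c ≠ 0 := fun h0 => hcr 0 (by simp [h0])
  have hϖj : (ϖ : L) ^ j ≠ 0 := zpow_ne_zero _ h.base.ϖ_ne
  have key : ∀ a b : L, a ≠ 0 → b • f ∈ D.V 0 → a • f ∈ D.V 0 → D.red 0 (a • f) ≠ 0 →
      b / a ∈ A := by
    intro a b ha hb haV har
    refine h.base.const_mem (i := (0 : Fin 2)) ?_
    have : algebraMap L F (b / a) = (b • f) * (a • f)⁻¹ := by
      simp only [Algebra.smul_def, map_div₀]
      have : algebraMap L F a ≠ 0 := (_root_.map_ne_zero _).mpr ha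
      field_simp
    rw [this]
    exact mul_mem hb (D.inv_mem_of_red_ne_zero haV har)
  have h1 := key c _ hc0 hj (D.mem_of_mem_O hcO 0) (hcr 0)
  have h2 := key _ c hϖj (D.mem_of_mem_O hcO 0) hj hjr
  have heq : (ϖ : L) ^ j • f = ((ϖ : L) ^ j / c) • (c • f) := by
    rw [smul_smul, div_mul_cancel₀ _ hc0]
  refine ⟨j, heq ▸ D.smul_mem_O hcO h1, fun i h0 => ?_⟩
  rw [heq, D.red_smul (D.mem_of_mem_O hcO i) ⟨_, h1⟩] at h0
  have hπ : π ⟨_, h1⟩ * π ⟨_, h2⟩ = 1 := by
    rw [← map_mul, ← map_one π]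
    exact congrArg π (Subtype.ext (by
      show (ϖ : L) ^ j / c * (c / (ϖ : L) ^ j) = 1
      rw [div_mul_div_comm, mul_comm, div_self (mul_ne_zero hc0 hϖj)]))
  rcases smul_eq_zero.mp h0 with h0 | h0
  · exact zero_ne_one (by rw [← hπ, h0, zero_mul])
  · exact hcr i h0

/-- A fixed element of the coordinate ring is integral over the fixed polynomials. -/
theorem isIntegral_fixL {a : fixF G} (ha : (a : F) ∈ coordRing L u) :
    IsIntegral (Algebra.adjoin (fixL G) ({⟨u, h.u_fixed⟩} : Set (fixF G))) a := by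
  classical
  obtain ⟨P, hP, hroot⟩ := ha
  set e := P.natDegree
  set N := (Finset.range e).sup (fun l => (P.coeff l).natDegree) + 1
  rw [eval₂_eq_sum_range, Finset.sum_range_succ, hP.coeff_natDegree, map_one, one_mul] at hroot
  let b : Fin e × Fin N → F := fun x => u ^ (x.2 : ℕ) * (a : F) ^ (x.1 : ℕ)
  obtain ⟨c, hcfix, hc⟩ := exists_fixed_coeff (G := G) Finset.univ b
    (fun x _ => h.pow_mul_mem_fixF _ (pow_mem a.2 _)) (pow_mem a.2 e)
    ⟨fun x => -(P.coeff x.1).coeff x.2, by
      rw [eq_neg_of_add_eq_zero_right hroot, Finset.sum_range, Fintype.sum_prod_type,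
        ← Finset.sum_neg_distrib]
      refine Finset.sum_congr rfl fun l _ => ?_
      have hl : (P.coeff l).natDegree < N := Nat.lt_succ_of_le
        (Finset.le_sup (f := fun l => (P.coeff l).natDegree) (Finset.mem_range.mpr l.2))
      show -(aeval u (P.coeff l) * (a : F) ^ (l : ℕ)) = _
      rw [aeval_eq_sum_range' hl, Finset.sum_range, Finset.sum_mul, ← Finset.sum_neg_distrib]
      exact Finset.sum_congr rfl fun i _ => by rw [smul_mul_assoc, neg_smul]⟩
  let U : fixF G := ⟨u, h.u_fixed⟩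
  let q : Fin e → Algebra.adjoin (fixL G) ({U} : Set (fixF G)) := fun l =>
    ⟨∑ i : Fin N, algebraMap (fixL G) (fixF G) ⟨c (l, i), hcfix _⟩ * U ^ (i : ℕ),
      sum_mem fun i _ => mul_mem (Subalgebra.algebraMap_mem _ _)
        (pow_mem (Algebra.subset_adjoin (Set.mem_singleton U)) _)⟩
  refine ⟨Polynomial.X ^ e - ∑ l : Fin e, Polynomial.C (q l) * Polynomial.X ^ (l : ℕ),
    monic_X_pow_sub ((Polynomial.degree_sum_le _ _).trans_lt ?_), ?_⟩
  · refine (Finset.sup_lt_iff (WithBot.bot_lt_coe e)).mpr fun i _ => ?_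
    exact (degree_C_mul_X_pow_le _ _).trans_lt (WithBot.coe_lt_coe.mpr i.2)
  · simp only [eval₂_sub, eval₂_pow, eval₂_X, eval₂_finsetSum, eval₂_mul, eval₂_C, sub_eq_zero]
    refine Subtype.ext ?_
    rw [SubmonoidClass.coe_pow, hc, Fintype.sum_prod_type, AddSubmonoidClass.coe_finsetSum]
    refine Finset.sum_congr rfl fun l _ => ?_
    show ∑ i : Fin N, c (l, i) • b (l, i) = ((q l : fixF G) : F) * (a : F) ^ (l : ℕ)
    simp only [q, AddSubmonoidClass.coe_finsetSum, Finset.sum_mul]
    exact Finset.sum_congr rfl fun i _ => by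
      rw [Algebra.smul_def]; exact (mul_assoc _ _ _).symm

/-- Elements integral over the fixed polynomials lie in the coordinate ring. -/
theorem mem_coordRing_of_isIntegral {a : fixF G}
    (ha : IsIntegral (Algebra.adjoin (fixL G) ({⟨u, h.u_fixed⟩} : Set (fixF G))) a) :
    (a : F) ∈ coordRing L u := by
  obtain ⟨P, hP, hroot⟩ := ha
  have hmem : ∀ b ∈ Algebra.adjoin (fixL G) ({⟨u, h.u_fixed⟩} : Set (fixF G)),
      ∃ p : L[X], aeval u p = (b : F) := fun b hb => by
    induction hb using Algebra.adjoin_induction with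
    | mem x hx => exact ⟨Polynomial.X, by rw [Set.mem_singleton_iff.mp hx, aeval_X]⟩
    | algebraMap c => exact ⟨Polynomial.C (c : L), aeval_C _ _⟩
    | add x y _ _ hx hy =>
      obtain ⟨p, hp⟩ := hx
      obtain ⟨p', hp'⟩ := hy
      exact ⟨p + p', by rw [map_add, hp, hp']; rfl⟩
    | mul x y _ _ hx hy =>
      obtain ⟨p, hp⟩ := hx
      obtain ⟨p', hp'⟩ := hy
      exact ⟨p * p', by rw [map_mul, hp, hp']; rfl⟩
  have hcoe : ((fixF G).subtype.comp
      (algebraMap (Algebra.adjoin (fixL G) ({⟨u, h.u_fixed⟩} : Set (fixF G))) (fixF G))).IsIntegralElem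
        (a : F) := by
    refine ⟨P, hP, ?_⟩
    rw [show (a : F) = (fixF G).subtype a from rfl, ← Polynomial.hom_eval₂, hroot, map_zero]
  obtain ⟨Q, hQ, hQroot⟩ := hcoe
  classical
  choose p hp using fun i => hmem _ (Q.coeff i).2
  refine ⟨Polynomial.X ^ Q.natDegree +
    ∑ i ∈ Finset.range Q.natDegree, Polynomial.C (p i) * Polynomial.X ^ i,
    monic_X_pow_add ((Polynomial.degree_sum_le _ _).trans_lt ?_), ?_⟩
  · refine (Finset.sup_lt_iff (WithBot.bot_lt_coe Q.natDegree)).mpr fun i hi => ?_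
    exact (degree_C_mul_X_pow_le _ _).trans_lt (WithBot.coe_lt_coe.mpr (Finset.mem_range.mp hi))
  · rw [eval₂_eq_sum_range, Finset.sum_range_succ, hQ.coeff_natDegree, map_one, one_mul] at hQroot
    simp only [eval₂_add, eval₂_pow, eval₂_X, eval₂_finsetSum, eval₂_mul, eval₂_C]
    rw [add_comm, ← hQroot]
    congr 1
    exact Finset.sum_congr rfl fun i _ => congrArg (· * _) (hp i)

variable [CharZero L]

/-- Finitely many fixed functions span the fixed coordinate ring over the fixed polynomials. -/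
theorem exists_coordRing_generators :
    ∃ T : Finset (fixF G), (∀ t ∈ T, (t : F) ∈ coordRing L u) ∧
      ∀ a : fixF G, (a : F) ∈ coordRing L u →
        a ∈ Submodule.span (Algebra.adjoin (fixL G) ({⟨u, h.u_fixed⟩} : Set (fixF G)))
          (T : Set (fixF G)) := by
  classical
  obtain ⟨n, ω, hωfix, -, hω, hn⟩ := h.exists_fixed_omega
  let U : fixF G := ⟨u, h.u_fixed⟩
  haveI : CharZero F := charZero_of_injective_algebraMap (algebraMap L F).injective
  haveI : CharZero (fixF G) :=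
    ⟨fun a b hab => Nat.cast_injective (R := F) (by simpa using congrArg Subtype.val hab)⟩
  have hinj : Function.Injective (Polynomial.aeval (R := fixL G) U) := by
    rw [injective_iff_map_eq_zero]
    intro p hp
    have h0 : aeval u (p.map (fixL G).subtype) = 0 := by
      have := congrArg (fixF G).subtype hp
      rw [map_zero, aeval_def, hom_eval₂] at this
      rw [aeval_def, eval₂_map, ← this]
      rfl
    have := transcendental_iff.mp h.chart.transcendental_u _ h0
    exact Polynomial.map_injective _ (fixL G).subtype_injective (by rw [this, Polynomial.map_zero])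
  obtain ⟨-, ⟨T, hT, hspan⟩, -⟩ :=
    Carayol.chartRing_finite (W := fixL G) U hinj
      ⟨Finset.univ.image fun x => (⟨ω x, hωfix x⟩ : fixF G), fun a => by
        obtain ⟨s, hs, hsfix, N, hN⟩ := h.exists_fixed_relation hωfix hω hn a.2
        obtain ⟨c₀, hc₀⟩ := (Submodule.mem_span_range_iff_exists_fun L).mp hN
        have hsmem : (aeval u s) ∈ fixF G := by
          rw [aeval_eq_sum_range]
          exact sum_mem fun i _ => smul_mem_fixF (hsfix i) (pow_mem h.u_fixed i)
        obtain ⟨c, hcfix, hc⟩ := exists_fixed_coeff (G := G) Finset.univ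
          (fun x : Fin N × (Fin 2 × Fin n) => u ^ (x.1 : ℕ) * ω x.2)
          (fun x _ => h.pow_mul_mem_fixF _ (hωfix _)) (mul_mem hsmem a.2) ⟨c₀, hc₀.symm⟩
        set E := Subfield.closure (Set.range (algebraMap (fixL G) (fixF G)) ∪ {U})
        have hUE : U ∈ E := Subfield.subset_closure (Or.inr rfl)
        have hcE : ∀ z : fixL G, algebraMap (fixL G) (fixF G) z ∈ E := fun z =>
          Subfield.subset_closure (Or.inl ⟨z, rfl⟩)
        have hsE : (⟨_, hsmem⟩ : fixF G) ∈ E := by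
          have : (⟨_, hsmem⟩ : fixF G) = ∑ i ∈ Finset.range (s.natDegree + 1),
              algebraMap (fixL G) (fixF G) ⟨s.coeff i, hsfix i⟩ * U ^ i := by
            refine Subtype.ext ?_
            rw [AddSubmonoidClass.coe_finsetSum]
            exact (aeval_eq_sum_range u).trans (Finset.sum_congr rfl fun i _ => Algebra.smul_def _ _)
          rw [this]
          exact sum_mem fun i _ => mul_mem (hcE _) (pow_mem hUE i)
        have hs0 : (⟨_, hsmem⟩ : fixF G) ≠ 0 := fun h0 => hs.ne_zero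
          (transcendental_iff.mp h.chart.transcendental_u _ (congrArg Subtype.val h0))
        have hsum : (⟨_, hsmem⟩ : fixF G) * a = ∑ x : Fin N × (Fin 2 × Fin n),
            (algebraMap (fixL G) (fixF G) ⟨c x, hcfix x⟩ * U ^ (x.1 : ℕ)) *
              (⟨ω x.2, hωfix x.2⟩ : fixF G) := by
          refine Subtype.ext ?_
          rw [AddSubmonoidClass.coe_finsetSum]
          exact hc.trans (Finset.sum_congr rfl fun x _ => by
            rw [Algebra.smul_def]; exact (mul_assoc _ _ _).symm)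
        rw [show a = (⟨_, hsmem⟩ : fixF G)⁻¹ * ((⟨_, hsmem⟩ : fixF G) * a) by
          rw [inv_mul_cancel_left₀ hs0], hsum, Finset.mul_sum]
        refine sum_mem fun x _ => ?_
        rw [← mul_assoc]
        exact Submodule.smul_mem _
          (⟨_, mul_mem (inv_mem hsE) (mul_mem (hcE _) (pow_mem hUE _))⟩ : E)
          (Submodule.subset_span (Finset.mem_image.mpr ⟨x.2, Finset.mem_univ _, rfl⟩))⟩
  exact ⟨T, fun t ht => h.mem_coordRing_of_isIntegral (hT ht),
    fun a ha => hspan a (h.isIntegral_fixL ha)⟩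

/-- A fixed function, unit on both branches, which pushes the fixed coordinate ring into the
span of a reduced basis. -/
theorem exists_uniform_denominator {n : ℕ} {ω : Fin 2 × Fin n → F}
    (hωfix : ∀ x, ω x ∈ fixF G)
    (hω : ∀ N : ℕ, D.Reduced fun x : Fin N × (Fin 2 × Fin n) => u ^ (x.1 : ℕ) * ω x.2)
    (hn : Module.finrank (IntermediateField.adjoin L {u}) F ≤ 2 * n) :
    ∃ g ∈ fixF G, g ∈ D.O ∧ (∀ i, D.red i g ≠ 0) ∧
      ∀ a ∈ fixF G, a ∈ coordRing L u → ∃ M, g * a ∈ Chart.blockSpan (L := L) u ω M := by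
  classical
  obtain ⟨T, -, hTspan⟩ := h.exists_coordRing_generators
  choose s hs hsfix Ns hNs using fun t : fixF G => h.exists_fixed_relation hωfix hω hn t.2
  set S := ∏ t ∈ T, s t with hS
  have hSfix : aeval u S ∈ fixF G := by
    rw [hS, map_prod]
    refine prod_mem fun t _ => ?_
    rw [aeval_eq_sum_range]
    exact sum_mem fun i _ => smul_mem_fixF (hsfix t i) (pow_mem h.u_fixed i)
  have hS0 : S ≠ 0 := Finset.prod_ne_zero_iff.mpr fun t _ => (hs t).ne_zero
  obtain ⟨c, hc, hcO, hcr⟩ := h.chart.exists_primitive hS0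
  rw [map_mul, aeval_C, ← Algebra.smul_def] at hcO
  simp only [map_mul, aeval_C, ← Algebra.smul_def] at hcr
  obtain ⟨j, hjO, hjr⟩ := h.exists_common_scale hSfix
    (fun h0 => hS0 (transcendental_iff.mp h.chart.transcendental_u _ h0)) ⟨c, hcO, hcr⟩
  refine ⟨_, h.base.zpow_smul_fixed hSfix j, hjO, hjr, fun a ha haR => ?_⟩
  suffices H : ∀ b : fixF G, b ∈ Submodule.span
      (Algebra.adjoin (fixL G) ({⟨u, h.u_fixed⟩} : Set (fixF G))) (T : Set (fixF G)) →
      ∃ M, aeval u S * (b : F) ∈ Chart.blockSpan (L := L) u ω M by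
    obtain ⟨M, hM⟩ := H ⟨a, ha⟩ (hTspan ⟨a, ha⟩ haR)
    exact ⟨M, by rw [smul_mul_assoc]; exact Submodule.smul_mem _ _ hM⟩
  intro b hb
  induction hb using Submodule.span_induction with
  | mem t ht =>
    refine ⟨Ns t + (∏ x ∈ T.erase t, s x).natDegree, ?_⟩
    rw [hS, ← Finset.prod_erase_mul T s ht, map_mul, mul_assoc]
    exact h.mul_aeval_mem_blockSpan _ (hNs t)
  | zero => exact ⟨0, by simp [zero_mem]⟩
  | add x y _ _ hx hy =>
    obtain ⟨M, hM⟩ := hx
    obtain ⟨M', hM'⟩ := hy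
    refine ⟨max M M', ?_⟩
    rw [show (((x + y : fixF G)) : F) = (x : F) + (y : F) from rfl, mul_add]
    exact add_mem (Chart.blockSpan_mono u ω (le_max_left _ _) hM)
      (Chart.blockSpan_mono u ω (le_max_right _ _) hM')
  | smul r x _ hx =>
    obtain ⟨M, hM⟩ := hx
    obtain ⟨p, hp⟩ : ∃ p : L[X], aeval u p = ((r : fixF G) : F) := by
      obtain ⟨r, hr⟩ := r
      show ∃ p : L[X], aeval u p = (r : F)
      rw [Algebra.adjoin_singleton_eq_range_aeval] at hr
      obtain ⟨p, rfl⟩ := hr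
      refine ⟨p.map (fixL G).subtype, ?_⟩
      show _ = (fixF G).subtype _
      rw [aeval_def, eval₂_map, AlgHom.toRingHom_eq_coe, RingHom.coe_coe, aeval_def, hom_eval₂]
      rfl
    refine ⟨M + p.natDegree, ?_⟩
    rw [show (((r • x : fixF G)) : F) = ((r : fixF G) : F) * (x : F) from rfl, ← hp,
      mul_left_comm]
    exact h.mul_aeval_mem_blockSpan p hM

/-- The fixed ring is finite over `W[u]`. -/
theorem exists_fixRing_generators :
    ∃ s₀ : Finset (fixF G), (s₀ : Set (fixF G)) ⊆ fixRing D G u ∧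
      ∀ a ∈ fixRing D G u, a ∈ Submodule.span
        (Algebra.adjoin (fixA A G) ({⟨u, h.u_fixed⟩} : Set (fixF G))) (s₀ : Set (fixF G)) := by
  classical
  haveI := h.base.isDiscreteValuationRing_fixA
  let U : fixF G := ⟨u, h.u_fixed⟩
  let B := Algebra.adjoin (fixA A G) ({U} : Set (fixF G))
  haveI : IsNoetherianRing B := by
    rw [show B = (Polynomial.aeval (R := fixA A G) U).range from
      Algebra.adjoin_singleton_eq_range_aeval _ U]
    exact isNoetherianRing_of_surjective _ _ (Polynomial.aeval (R := fixA A G) U).rangeRestrict.toRingHom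
      (Polynomial.aeval (R := fixA A G) U).rangeRestrict_surjective
  obtain ⟨n, ω, hωfix, -, hω, hn⟩ := h.exists_fixed_omega
  obtain ⟨g, hgfix, hgO, hgr, hg⟩ := h.exists_uniform_denominator hωfix hω hn
  have hg0 : (⟨g, hgfix⟩ : fixF G) ≠ 0 := fun h0 =>
    hgr 0 (by rw [show g = 0 from congrArg Subtype.val h0, TwoBranch.red_zero])
  have hUR : U ∈ fixRing D G u := ⟨self_mem_coordRing L u, h.chart.u_mem⟩
  have hBR : B ≤ fixRing D G u := Algebra.adjoin_le (Set.singleton_subset_iff.mpr hUR)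
  let RM : Submodule B (fixF G) :=
    { carrier := fixRing D G u
      add_mem' := add_mem
      zero_mem' := zero_mem _
      smul_mem' := fun b a ha => mul_mem (hBR b.2) ha }
  let Mω : Submodule B (fixF G) := Submodule.span B
    ((Finset.univ.image fun x => (⟨g, hgfix⟩ : fixF G)⁻¹ * ⟨ω x, hωfix x⟩ : Finset (fixF G)) :
      Set (fixF G))
  haveI : Module.Finite B Mω := Module.Finite.iff_fg.mpr ⟨_, rfl⟩
  haveI : IsNoetherian B Mω := isNoetherian_of_isNoetherianRing_of_finite B Mω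
  have hle : RM ≤ Mω := by
    intro a ha
    obtain ⟨M, hM⟩ := hg a a.2 ha.1
    obtain ⟨c₀, hc₀⟩ := (Submodule.mem_span_range_iff_exists_fun L).mp hM
    obtain ⟨c, hcfix, hc⟩ := exists_fixed_coeff (G := G) Finset.univ
      (fun x : Fin M × (Fin 2 × Fin n) => u ^ (x.1 : ℕ) * ω x.2)
      (fun x _ => h.pow_mul_mem_fixF _ (hωfix _)) (mul_mem hgfix a.2) ⟨c₀, hc₀.symm⟩
    have hcA := D.coeff_mem_of_linearIndependent (hω M).mem (hω M).indep
      (b := c) (hc ▸ mul_mem hgO ha.2)
    have hsum : (⟨g, hgfix⟩ : fixF G) * a = ∑ x : Fin M × (Fin 2 × Fin n),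
        (algebraMap (fixA A G) (fixF G) ⟨c x, hcA x, hcfix x⟩ * U ^ (x.1 : ℕ)) *
          (⟨ω x.2, hωfix x.2⟩ : fixF G) := by
      refine Subtype.ext ?_
      rw [AddSubmonoidClass.coe_finsetSum]
      exact hc.trans (Finset.sum_congr rfl fun x _ => by
        rw [Algebra.smul_def]; exact (mul_assoc _ _ _).symm)
    rw [show a = (⟨g, hgfix⟩ : fixF G)⁻¹ * ((⟨g, hgfix⟩ : fixF G) * a) by
      rw [inv_mul_cancel_left₀ hg0], hsum, Finset.mul_sum]
    refine sum_mem fun x _ => ?_
    rw [mul_left_comm]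
    exact Submodule.smul_mem _
      (⟨_, mul_mem (Subalgebra.algebraMap_mem B _)
        (pow_mem (Algebra.subset_adjoin (Set.mem_singleton U)) _)⟩ : B)
      (Submodule.subset_span (Finset.mem_image.mpr ⟨x.2, Finset.mem_univ _, rfl⟩))
  obtain ⟨s₀, hs₀⟩ : RM.FG := by
    have := (IsNoetherian.noetherian (Submodule.comap Mω.subtype RM)).map Mω.subtype
    rwa [Submodule.map_comap_subtype, inf_eq_right.mpr hle] at this
  exact ⟨s₀, fun x hx => (hs₀ ▸ Submodule.subset_span hx : x ∈ RM),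
    fun a ha => (hs₀.symm ▸ ha : a ∈ Submodule.span B (s₀ : Set (fixF G)))⟩

/-- The fixed ring is Noetherian. -/
theorem isNoetherianRing_fixRing : IsNoetherianRing (fixRing D G u) := by
  classical
  haveI := h.base.isDiscreteValuationRing_fixA
  obtain ⟨s₀, hs₀, hspan⟩ := h.exists_fixRing_generators
  let U : fixF G := ⟨u, h.u_fixed⟩
  have hUR : U ∈ fixRing D G u := ⟨self_mem_coordRing L u, h.chart.u_mem⟩
  have hgen : fixRing D G u = Algebra.adjoin (fixA A G) (insert U (s₀ : Set (fixF G))) := by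
    refine le_antisymm (fun a ha => ?_) (Algebra.adjoin_le (Set.insert_subset hUR hs₀))
    have hB : Algebra.adjoin (fixA A G) ({U} : Set (fixF G)) ≤
        Algebra.adjoin (fixA A G) (insert U (s₀ : Set (fixF G))) :=
      Algebra.adjoin_mono (Set.singleton_subset_iff.mpr (Set.mem_insert _ _))
    have h1 := hspan a ha
    clear ha
    induction h1 using Submodule.span_induction with
    | mem x hx => exact Algebra.subset_adjoin (Set.mem_insert_of_mem _ hx)
    | zero => exact zero_mem _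
    | add x y _ _ hx hy => exact add_mem hx hy
    | smul r x _ hx => exact mul_mem (hB r.2) hx
  haveI : Algebra.FiniteType (fixA A G) (fixRing D G u) :=
    (Subalgebra.fg_iff_finiteType _).mp ⟨insert U s₀, by rw [Finset.coe_insert]; exact hgen.symm⟩
  exact Algebra.FiniteType.isNoetherianRing (fixA A G) _

omit [CharZero L] in
/-- Every fixed function is a quotient of elements of the fixed ring. -/
theorem exists_fixRing_fraction (a : fixF G) :
    ∃ b c : fixF G, b ∈ fixRing D G u ∧ c ∈ fixRing D G u ∧ c ≠ 0 ∧ a = b / c := by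
  obtain ⟨n, ω, hωfix, hωR, hω, hn⟩ := h.exists_fixed_omega
  obtain ⟨s, hs, hsfix, N, hN⟩ := h.exists_fixed_relation hωfix hω hn a.2
  have hsmem : aeval u s ∈ fixF G := by
    rw [aeval_eq_sum_range]
    exact sum_mem fun i _ => smul_mem_fixF (hsfix i) (pow_mem h.u_fixed i)
  have hbR : aeval u s * (a : F) ∈ coordRing L u := by
    obtain ⟨c, hc⟩ := (Submodule.mem_span_range_iff_exists_fun L).mp hN
    rw [← hc]
    exact sum_mem fun x _ => Subalgebra.smul_mem _
      (mul_mem (pow_mem (self_mem_coordRing L u) _) (hωR _)) _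
  obtain ⟨N₁, hN₁⟩ := h.base.exists_mem_O hsmem
  obtain ⟨N₂, hN₂⟩ := h.base.exists_mem_O (mul_mem hsmem a.2)
  set m := max N₁ N₂
  have hcfix : (ϖ : L) ^ m ∈ fixL G := pow_mem h.base.ϖ_fixed m
  refine ⟨⟨(ϖ : L) ^ m • (aeval u s * (a : F)), smul_mem_fixF hcfix (mul_mem hsmem a.2)⟩,
    ⟨(ϖ : L) ^ m • aeval u s, smul_mem_fixF hcfix hsmem⟩,
    ⟨Subalgebra.smul_mem _ hbR _, hN₂ m (le_max_right _ _)⟩,
    ⟨Subalgebra.smul_mem _ (aeval_mem_coordRing L u s) _, hN₁ m (le_max_left _ _)⟩, ?_, ?_⟩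
  · intro h0
    rcases smul_eq_zero.mp (congrArg Subtype.val h0) with h1 | h1
    · exact pow_ne_zero _ h.base.ϖ_ne h1
    · exact hs.ne_zero (transcendental_iff.mp h.chart.transcendental_u _ h1)
  · refine Subtype.ext ?_
    push_cast
    have h1 : aeval u s ≠ 0 := fun h1 =>
      hs.ne_zero (transcendental_iff.mp h.chart.transcendental_u _ h1)
    have h2 : (ϖ : L) ^ m • aeval u s ≠ 0 := smul_ne_zero (pow_ne_zero _ h.base.ϖ_ne) h1
    rw [eq_div_iff h2, mul_smul_comm, mul_comm]

end FixedChart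

end Fermat.Agent.LL.Mazur
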