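import Fermat.Agent.LL.Mazur.Instance
import Fermat.Agent.LL.Mazur.FixedRing

/-!
# Reductions on the two charts lift to rational functions

The coordinate is fixed, the functions are spanned by the fixed ones, and a finite-dimensional
stable space with a reduced basis has one made of fixed functions.
-/

set_option autoImplicit false
set_option linter.style.haveILetI false
set_option synthInstance.maxHeartbeats 200000
set_option maxHeartbeats 400000

noncomputable section

open AlgebraicCurve ModularCurve IsLocalRing Fermat.Agent.BAD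

namespace Fermat.Agent.LL.Mazur

section General

variable {L k : Type} [Field L] [Field k] {A : ValuationSubring L} {π : A →+* k}
  {F C : Type} [Field F] [Algebra L F] [Field C] [Algebra k C]

/-- Over algebraic constants, a field generated by fixed elements is spanned by the fixed ones. -/
theorem mem_span_fixF [CharZero L] (halg : ∀ c : L, IsAlgebraic ℚ c)
    {G : Subgroup (SemilinearAut L F)} {S : Set F} (hS : S ⊆ fixF G) {x : F}
    (hx : x ∈ IntermediateField.adjoin L S) : x ∈ Submodule.span L (fixF G : Set F) := by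
  haveI : CharZero F := charZero_of_injective_algebraMap (algebraMap L F).injective
  have hx1 : x ∈ Algebra.adjoin (fixF G) (Set.range (algebraMap L F)) := by
    rw [← IntermediateField.adjoin_toSubalgebra_of_isAlgebraic (F := fixF G) (E := F)]
    · show x ∈ IntermediateField.adjoin (fixF G) (Set.range (algebraMap L F))
      have hle : IntermediateField.adjoin L S ≤
          (IntermediateField.adjoin (fixF G) (Set.range (algebraMap L F))).toSubfield.toIntermediateField
            (fun c => IntermediateField.subset_adjoin _ _ ⟨c, rfl⟩) :=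
        IntermediateField.adjoin_le_iff.mpr fun s hs =>
          IntermediateField.algebraMap_mem _ (⟨s, hS hs⟩ : fixF G)
      exact hle hx
    · rintro _ ⟨c, rfl⟩
      exact (((halg c).isIntegral.map (algebraMap L F).toRatAlgHom).tower_top).isAlgebraic
  have hx2 : x ∈ Algebra.adjoin L (fixF G : Set F) := by
    clear hx
    induction hx1 using Algebra.adjoin_induction with
    | mem y hy =>
      obtain ⟨c, rfl⟩ := hy
      exact Subalgebra.algebraMap_mem _ c
    | algebraMap c => exact Algebra.subset_adjoin c.2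
    | add y z _ _ hy hz => exact add_mem hy hz
    | mul y z _ _ hy hz => exact mul_mem hy hz
  rw [← Subalgebra.mem_toSubmodule, Algebra.adjoin_eq_span] at hx2
  exact Submodule.span_mono
    ((Submonoid.closure_le (S := (fixF G).toSubmonoid)).mpr subset_rfl) hx2

/-- The rational functions of a field spanned by them are a base for fixed lattices. -/
theorem fixedBase_ratField {D : BadBase π F C} (R : LLp.RatField D)
    (hspan : ∀ f : F, f ∈ Submodule.span L (fixF R.gal : Set F)) :
    FixedBase D.toTwoBranch R.gal ⟨R.ϖ, R.ϖ_mem_A⟩ where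
  span_fix := hspan
  π_ϖ := R.π_ϖ
  ϖ_ne := R.ϖ_ne
  ϖ_fixed := mem_fixL.mpr (mem_fixF.mpr ((R.mem_iff _).mp R.ϖ_mem))
  unif _ _ hf hfV h0 := R.inv_ϖ_smul_mem ((R.mem_iff _).mpr (mem_fixF.mp hf)) hfV h0
  lift_const x := by
    obtain ⟨c, hc, hπ⟩ := R.res_surj x
    exact ⟨c, hπ, mem_fixL.mpr (mem_fixF.mpr ((R.mem_iff _).mp hc))⟩

/-- A chart with rational coordinate is a rational chart. -/
theorem ratChart_of_span {D : BadBase π F C} (R : LLp.RatField D)
    (hspan : ∀ f : F, f ∈ Submodule.span L (fixF R.gal : Set F)) {u : F} {ubar : C} {d : ℕ}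
    (h : Chart D u ubar d) (hu : u ∈ R.FK) : R.RatChart h := by
  refine ⟨hu, fun p hp => ?_⟩
  obtain ⟨a, hafix, hR, hO, hred⟩ := (fixedBase_ratField R hspan).exists_fixed_chartLift h
    (mem_fixF.mpr ((R.mem_iff _).mp hu)) hp
  exact ⟨a, (R.mem_iff _).mpr (mem_fixF.mp hafix), hR, hO, hred⟩

end General

local notation "Qb" => AlgebraicClosure ℚ

variable {M r : ℕ} [NeZero M] [NeZero r] (hr : r.Prime) (hrM : ¬ r ∣ M)
  {A : ValuationSubring Qb} (hA : A.LiesOverPrime r) [Fact r.Prime]
  {H : Subgroup (Qb ≃ₐ[ℚ] Qb)} (hH : H ≤ A.inertiaSubgroupIn ℚ) (Q : Ordinary.Consts A)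
  (hQ : ∀ c, c ∈ Q.K ↔ ∀ σ ∈ H, σ c = c)

omit [Fact r.Prime] in
theorem span_fixF_galImg (f : modularFunctionFieldBar (M * r)) :
    f ∈ Submodule.span Qb (fixF (galImg M r H) : Set (modularFunctionFieldBar (M * r))) :=
  mem_span_fixF (fun c => (AlgebraicClosure.isAlgebraic ℚ).isAlgebraic c)
    (by rintro _ ⟨d, rfl⟩; exact genFn_mem_fixF d) (mem_adjoin_genFn f)

omit [Fact r.Prime] in
theorem u_mem_ratField :
    (mCurve hr hrM hA).u ∈ (ratField hr hrM hA hH Q hQ).FK :=
  (mem_ratField_FK hr hrM hA hH Q hQ).mpr fun σ _ => BAD.Modular.galF_coordU hr hrM hA σ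

/-- **The two charts are rational.** -/
theorem ratChart_fin :
    (ratField hr hrM hA hH Q hQ).RatChart (mCurve hr hrM hA).chartFin :=
  ratChart_of_span (ratField hr hrM hA hH Q hQ) (span_fixF_galImg (M := M) (r := r) (H := H))
    (mCurve hr hrM hA).chartFin (u_mem_ratField hr hrM hA hH Q hQ)

theorem ratChart_inf :
    (ratField hr hrM hA hH Q hQ).RatChart (mCurve hr hrM hA).chartInf :=
  ratChart_of_span (ratField hr hrM hA hH Q hQ) (span_fixF_galImg (M := M) (r := r) (H := H))
    (mCurve hr hrM hA).chartInf (inv_mem (u_mem_ratField hr hrM hA hH Q hQ))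

end Fermat.Agent.LL.Mazur
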