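import Fermat.Agent.RED.Specialization.SwapField
import Fermat.Prelude.Def_ModularCurve_ArithmeticGalois
import Mathlib.FieldTheory.IsAlgClosed.AlgebraicClosure
import Mathlib.Analysis.Complex.Polynomial.Basic

/-!
# The Atkin–Lehner involution `w_r` of level `M r`

The automorphism of `ℚ̄(X₀(Mr))` exchanging `j(q^d)` and `j(q^(rd))` for `d ∣ M`, and the induced
involution of `JZero (M r)`.
-/

set_option autoImplicit false

noncomputable section

open ModularCurve AlgebraicCurve IntermediateField Fermat.Agent.RED.Spec Fermat.Agent.HK.Corr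

namespace Fermat.Agent.LL.Mazur

variable {M r : ℕ} [NeZero M] [NeZero r]

local notation "Qb" => AlgebraicClosure ℚ

omit [NeZero r] in
theorem mem_bar_of_mem_adjoin [NeZero (M * r)] {x : LaurentSeries Qb}
    (hx : x ∈ adjoin Qb (Set.range (genSer Qb (M := M * r)))) :
    x ∈ modularFunctionFieldBar (M * r) :=
  (modField_eq_adjoin_genSer (L := Qb) (M * r)).ge hx

instance : NeZero (M * r) := ⟨mul_ne_zero (NeZero.ne M) (NeZero.ne r)⟩

/-- The generator `j(q^d)` as an element of the function field. -/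
def genFn (d : DivIdx (M * r)) : modularFunctionFieldBar (M * r) :=
  ⟨genSer Qb d, mem_bar_of_mem_adjoin (subset_adjoin Qb _ ⟨d, rfl⟩)⟩

theorem algHom_ext_of_eq {K Ω E : Type*} [Field K] [Field Ω] [Algebra K Ω] [Field E] [Algebra K E]
    {P : IntermediateField K Ω} {S : Set Ω} (hP : P = adjoin K S) {f g : P →ₐ[K] E}
    (h : ∀ x ∈ S, ∀ hx : x ∈ P, f ⟨x, hx⟩ = g ⟨x, hx⟩) : f = g := by
  subst hP
  exact adjoin_algHom_ext K fun x hx => h x hx (subset_adjoin K S hx)

theorem algHom_ext_genFn {E : Type*} [Field E] [Algebra Qb E]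
    {f g : modularFunctionFieldBar (M * r) →ₐ[Qb] E} (h : ∀ d, f (genFn d) = g (genFn d)) :
    f = g := by
  refine algHom_ext_of_eq (modField_eq_adjoin_genSer (L := Qb) (M * r)) ?_
  rintro _ ⟨d, rfl⟩ hx
  exact h d

theorem exists_wField (hr : r.Prime) (hrM : ¬ r ∣ M) :
    ∃ w : modularFunctionFieldBar (M * r) ≃ₐ[Qb] modularFunctionFieldBar (M * r),
      (∀ d, w (genFn d) = genFn (swapIdx hr d)) ∧ ∀ x, w (w x) = x := by
  have : Algebra.IsAlgebraic ℚ Qb := AlgebraicClosure.isAlgebraic ℚ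
  let ι : Qb →+* ℂ := (IsAlgClosed.lift (R := ℚ) (S := Qb) (M := ℂ)).toRingHom
  obtain ⟨φ, hφ⟩ := exists_swap_adjoin (L := Qb) ι hr hrM
  have hle : ∀ x, φ x ∈ modularFunctionFieldBar (M * r) := by
    have h1 : φ.fieldRange ≤ modularFunctionFieldBar (M * r) := by
      have htop : (⊤ : IntermediateField Qb (adjoin Qb (Set.range (genSer Qb (M := M * r))))) =
          adjoin Qb (Set.range fun d => (⟨genSer Qb d, subset_adjoin Qb _ ⟨d, rfl⟩⟩ :
            adjoin Qb (Set.range (genSer Qb (M := M * r))))) := by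
        refine IntermediateField.map_injective (adjoin Qb _).val ?_
        rw [adjoin_map, ← Set.range_comp, ← AlgHom.fieldRange_eq_map, fieldRange_val]
        rfl
      rw [AlgHom.fieldRange_eq_map, htop, adjoin_map, adjoin_le_iff]
      rintro _ ⟨_, ⟨d, rfl⟩, rfl⟩
      rw [hφ]
      exact (genFn (swapIdx hr d)).2
    exact fun x => h1 ⟨x, rfl⟩
  let w₀ : modularFunctionFieldBar (M * r) →ₐ[Qb] modularFunctionFieldBar (M * r) :=
    (φ.codRestrict (modularFunctionFieldBar (M * r)).toSubalgebra hle).comp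
      (inclusion (modField_eq_adjoin_genSer (L := Qb) (M * r)).le)
  have hw₀ : ∀ d, w₀ (genFn d) = genFn (swapIdx hr d) := fun d => Subtype.ext (hφ d)
  have hinv : w₀.comp w₀ = AlgHom.id Qb _ := algHom_ext_genFn fun d => by
    rw [AlgHom.comp_apply, hw₀, hw₀, swapIdx_swapIdx hr hrM]
    rfl
  exact ⟨AlgEquiv.ofAlgHom w₀ w₀ hinv hinv, hw₀, fun x => AlgHom.congr_fun hinv x⟩

/-- The involution `w_r` of the function field. -/
def wField (hr : r.Prime) (hrM : ¬ r ∣ M) :
    modularFunctionFieldBar (M * r) ≃ₐ[Qb] modularFunctionFieldBar (M * r) :=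
  (exists_wField hr hrM).choose

theorem wField_genFn (hr : r.Prime) (hrM : ¬ r ∣ M) (d : DivIdx (M * r)) :
    wField hr hrM (genFn d) = genFn (swapIdx hr d) := (exists_wField hr hrM).choose_spec.1 d

theorem wField_wField (hr : r.Prime) (hrM : ¬ r ∣ M) (x : modularFunctionFieldBar (M * r)) :
    wField hr hrM (wField hr hrM x) = x := (exists_wField hr hrM).choose_spec.2 x

/-- The involution `w_r` as a semilinear automorphism. -/
def wAut (hr : r.Prime) (hrM : ¬ r ∣ M) :
    SemilinearAut Qb (modularFunctionFieldBar (M * r)) :=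
  SemilinearAut.ofAlgAut (wField hr hrM)

/-- The involution `w_r` of `JZero (M r)`. -/
def wJ (hr : r.Prime) (hrM : ¬ r ∣ M) : JZero (M * r) →+ JZero (M * r) :=
  DistribSMul.toAddMonoidHom (JZero (M * r)) (wAut hr hrM)

theorem wJ_wJ (hr : r.Prime) (hrM : ¬ r ∣ M) (z : JZero (M * r)) :
    wJ hr hrM (wJ hr hrM z) = z := by
  have h2 : wAut hr hrM * wAut hr hrM = 1 := by
    rw [wAut, ← map_mul, ← map_one (SemilinearAut.ofAlgAut (K := Qb))]
    exact congrArg _ (AlgEquiv.ext (wField_wField hr hrM))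
  show wAut hr hrM • wAut hr hrM • z = z
  rw [smul_smul, h2, one_smul]

end Fermat.Agent.LL.Mazur
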