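import Fermat.Agent.LL.Mazur.GaussHecke
import Fermat.Agent.LL.Mazur.AtkinLehner
import Fermat.Agent.Carayol.Elements
import Fermat.Agent.MF.EtaEight.Swap
import Fermat.Agent.FF.PlacesOver
import Fermat.Prelude.Def_FLTPrelim_Ramification

/-!
# Auxiliary units with prescribed values on the two components

`Δ(τ)/Δ(rτ)` and, when a prime `q ≡ 2 mod 3` divides `M`,
`η(τ)⁸η(qτ)⁸ / (η(rτ)⁸η(qrτ)⁸)`: rational functions of level `M r` without zeros and poles where
`j` is finite, units at the first component and of value `12`, resp. `8`, at the second.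
-/

set_option autoImplicit false

noncomputable section

open UpperHalfPlane ModularCurve AlgebraicCurve IsLocalRing Fermat.Agent.RED.Spec Fermat.Agent.Igusa
open Fermat.Agent.Carayol Fermat.Agent.HK.Corr Fermat.Agent.EtaEight
open scoped MatrixGroups

namespace Fermat.Agent.LL.Mazur

local notation "Qb" => AlgebraicClosure ℚ

variable (M r : ℕ) [NeZero M] [NeZero r]

/-- `j` in the function field of level `M r`. -/
def jFn : modularFunctionFieldBar (M * r) :=
  genFn ⟨1, one_pos, one_dvd _⟩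

variable {M r}

/-- An embedding of `ℚ̄` into `ℂ`. -/
def iotaC : Qb →+* ℂ :=
  haveI : Algebra.IsAlgebraic ℚ Qb := AlgebraicClosure.isAlgebraic ℚ
  (IsAlgClosed.lift : Qb →ₐ[ℚ] ℂ).toRingHom

/-- Expansion of `j (d W τ)` for the substitution `W` of the swap, and the swapped quotient. -/
theorem wField_pairV (hr : r.Prime) (hrM : ¬ r ∣ M)
    (hv : pairV Qb 1 r ∈ modularFunctionFieldBar (M * r)) :
    (wField hr hrM ⟨_, hv⟩ : LaurentSeries Qb) = pairU Qb 1 r := by
  obtain ⟨x, y, hxy⟩ : IsCoprime (r : ℤ) (M : ℤ) :=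
    Int.isCoprime_iff_gcd_eq_one.mpr (by exact_mod_cast (hr.coprime_iff_not_dvd.mpr hrM))
  have hdet : x * (r : ℤ) - (-y) * (M : ℤ) = 1 := by linear_combination hxy
  let W : ℍ → ℍ := fun τ => slMk x (-y) (M : ℤ) (r : ℤ) hdet • MF.scaleH r τ
  let φ : modField Qb (M * r) →ₐ[Qb] LaurentSeries Qb :=
    (modularFunctionFieldBar (M * r)).val.comp (wField hr hrM).toAlgHom
  have hexp := hasExp_genFun_swap iotaC hr φ (fun d => by
    show ((wField hr hrM (genFn d) : modularFunctionFieldBar (M * r)) : LaurentSeries Qb) = _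
    rw [wField_genFn]
    rfl) hrM hdet
  refine substEmbedding_eq iotaC Nat.one_pos W φ hexp hv
    ((coeffMap_pairV iotaC 1 r).symm ▸ hasExp_vPair 1 r) ?_
  rw [coeffMap_pairU, show vPair 1 r ∘ W = uPair 1 r from funext fun τ => ?_]
  · exact hasExp_uPair 1 r
  · obtain ⟨g₁, h₁⟩ := exists_isTri_swapOne hdet (one_dvd M) zero_le_one
    obtain ⟨g₂, h₂⟩ := exists_isTri_swapOne hdet (one_dvd M) (le_refl 1)
    simp only [pow_zero, mul_one, pow_one, one_mul] at h₁ h₂
    show vPair 1 r (_ • MF.scaleH r τ) = _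
    rw [vPair_smul h₁ h₂]
    have e1 := affH_scaleH_one (r := r) (e := 1) zero_le_one τ
    have e2 := affH_scaleH_one (r := r) (e := 1) (le_refl 1) τ
    simp only [pow_zero, Nat.sub_zero, pow_one, one_mul, Nat.sub_self] at e1 e2
    rw [e1, e2, uPair]
    simp

/-- The image of the eta quotient under `w_r`. -/
theorem wField_etaQuotSer (hr : r.Prime) (hrM : ¬ r ∣ M) {q : ℕ} [NeZero q] (hq3 : q % 3 = 2)
    (hqM : q ∣ M) (hz : etaQuotSer Qb q r ∈ modularFunctionFieldBar (M * r)) :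
    (wField hr hrM ⟨_, hz⟩ : LaurentSeries Qb) =
      HahnSeries.single (0 : ℤ) ((r : Qb) ^ 8) * etaQuotInvSer Qb q r :=
  swap_etaQuotSer iotaC hr hrM hq3 hqM
    ((modularFunctionFieldBar (M * r)).val.comp (wField hr hrM).toAlgHom) (fun d => by
      show ((wField hr hrM (genFn d) : modularFunctionFieldBar (M * r)) : LaurentSeries Qb) = _
      rw [wField_genFn]
      rfl) hz

/-- An element of the function field integral over `ℤ[j]` is finite where `j` is. -/
theorem mem_place_of_isIntegralElem {s : LaurentSeries Qb}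
    (hs : s ∈ modularFunctionFieldBar (M * r))
    (hint : (Polynomial.eval₂RingHom (Int.castRingHom (LaurentSeries Qb))
      (jqModC Qb)).IsIntegralElem s)
    (P : Place Qb (modularFunctionFieldBar (M * r))) (hP : jFn M r ∈ P.toValuationSubring) :
    (⟨s, hs⟩ : modularFunctionFieldBar (M * r)) ∈ P.toValuationSubring := by
  obtain ⟨Q, hQ, hQ0⟩ := hint
  let f : modularFunctionFieldBar (M * r) →+* LaurentSeries Qb :=
    (modularFunctionFieldBar (M * r)).val.toRingHom
  let g : Polynomial ℤ →+* P.toValuationSubring :=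
    Polynomial.eval₂RingHom (Int.castRingHom _) ⟨jFn M r, hP⟩
  have h : IsIntegral P.toValuationSubring (⟨s, hs⟩ : modularFunctionFieldBar (M * r)) := by
    refine ⟨Q.map g, hQ.map g, f.injective ?_⟩
    rw [map_zero, Polynomial.eval₂_map, Polynomial.hom_eval₂,
      show f.comp ((algebraMap P.toValuationSubring (modularFunctionFieldBar (M * r))).comp g) =
        Polynomial.eval₂RingHom (Int.castRingHom (LaurentSeries Qb)) (jqModC Qb) from
        Polynomial.ringHom_ext (fun c => by simp [f, g]) (by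
          simp [f, g, jFn, genFn, genSer, qExpand_one_apply])]
    exact hQ0
  obtain ⟨y, hy⟩ := IsIntegrallyClosed.isIntegral_iff.mp h
  rw [← hy]
  exact y.2

omit [NeZero M] in
theorem gRed_intSeries {A : ValuationSubring Qb} {k : Type*} [Field k] (π : A →+* k)
    (a : LaurentSeries A) : GRed π (coeffMap A.subtype a) (coeffMap π a) :=
  ⟨a, 1, ⟨by rw [map_one]; exact one_ne_zero, by rw [map_one, one_mul]⟩,
    by rw [map_one, div_one]⟩

/-- **The unit `Δ(τ)/Δ(rτ)`**, of value `12` on the second component. -/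
theorem exists_thicknessUnit_twelve (hr : r.Prime) (hrM : ¬ r ∣ M) (A : ValuationSubring Qb) :
    ∃ Z : modularFunctionFieldBar (M * r), Z ≠ 0 ∧
      (∀ σ : Qb ≃ₐ[ℚ] Qb, arithmeticGalois (modularFunctionFieldFull (M * r)) σ • Z = Z) ∧
      (∀ P : Place Qb (modularFunctionFieldBar (M * r)),
        jFn M r ∈ P.toValuationSubring → P.ord Z = 0) ∧
      (∃ φ, φ ≠ 0 ∧ GRed (residue A) (Z : LaurentSeries Qb) φ) ∧
      ∃ φ, φ ≠ 0 ∧ GRed (residue A)
        (((((r : Qb) ^ 12)⁻¹ • wField hr hrM Z : modularFunctionFieldBar (M * r))) : LaurentSeries Qb)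
        φ := by
  have hrN : r ∣ M * r := dvd_mul_left r M
  have hv : pairV Qb 1 r ∈ modularFunctionFieldBar (M * r) := pairV_mem iotaC (one_dvd r) hrN
  have hu : pairU Qb 1 r ∈ modularFunctionFieldBar (M * r) := pairU_mem iotaC (one_dvd r) hrN
  have hr0 : ((r : Qb) ^ 12) ≠ 0 := pow_ne_zero _ (Nat.cast_ne_zero.mpr hr.ne_zero)
  have hmul : (⟨_, hu⟩ : modularFunctionFieldBar (M * r)) * ⟨_, hv⟩ =
      algebraMap Qb _ ((r : Qb) ^ 12) := Subtype.ext (by
    rw [IntermediateField.coe_mul]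
    show _ = algebraMap Qb (LaurentSeries Qb) _
    rw [algebraMap_laurentSeries_eq_single]
    simpa using pairU_mul_pairV (R := Qb) 1 r)
  have hv0 : (⟨_, hv⟩ : modularFunctionFieldBar (M * r)) ≠ 0 := fun h0 =>
    hr0 ((map_eq_zero (algebraMap Qb (modularFunctionFieldBar (M * r)))).mp
      (by rw [← hmul, h0, mul_zero]))
  have hunit : ∀ (k : Type) [Field k],
      qExpand k r (deltaSeries k) * deltaInvSeries k ≠ 0 ∧ pairV k 1 r ≠ 0 := fun k _ => by
    have h1 : deltaSeries k ≠ 0 := left_ne_zero_of_mul_eq_one (deltaSeries_mul_inv k)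
    have h2 : deltaInvSeries k ≠ 0 := right_ne_zero_of_mul_eq_one (deltaSeries_mul_inv k)
    have hinj : ∀ (n : ℕ) [NeZero n] {s : LaurentSeries k}, s ≠ 0 → qExpand k n s ≠ 0 :=
      fun n _ s hs => (map_ne_zero_iff _ (qExpand_injective (R := k) (N := n))).mpr hs
    exact ⟨mul_ne_zero (hinj r h1) h2, mul_ne_zero (hinj 1 h1) (hinj r h2)⟩
  refine ⟨⟨_, hv⟩, hv0, fun σ => Subtype.ext ?_, fun P hP => ?_, ⟨_, (hunit _).2, ?_⟩,
    _, (hunit _).1, ?_⟩
  · rw [coe_arithmeticGalois_smul]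
    exact coeffMap_pairV _ 1 r
  · have hV := mem_place_of_isIntegralElem hv (isIntegralElem_pairV iotaC (one_dvd r) hrN) P hP
    have hU := mem_place_of_isIntegralElem hu (isIntegralElem_pairU iotaC (one_dvd r) hrN) P hP
    have h1 := FF.PlacesOver.ord_nonneg_of_mem P hV
    have h2 := FF.PlacesOver.ord_nonneg_of_mem P hU
    have hu0 : (⟨_, hu⟩ : modularFunctionFieldBar (M * r)) ≠ 0 := fun h0 =>
      hr0 ((map_eq_zero (algebraMap Qb (modularFunctionFieldBar (M * r)))).mp
        (by rw [← hmul, h0, zero_mul]))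
    have h3 := P.ord_mul hu0 hv0
    rw [hmul, FF.ord_eq_zero_of_isAlgebraic _ (isAlgebraic_algebraMap _)] at h3
    omega
  · show GRed _ (pairV Qb 1 r) _
    rw [← coeffMap_pairV A.subtype 1 r, ← coeffMap_pairV (residue A) 1 r]
    exact gRed_intSeries _ _
  · rw [Algebra.smul_def, IntermediateField.coe_mul, wField_pairV hr hrM hv]
    have hq : ∀ {S : Type} [CommRing S] (f : A →+* S),
        coeffMap f (qExpand A r (deltaSeries A) * deltaInvSeries A) =
          qExpand S r (deltaSeries S) * deltaInvSeries S := fun f => by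
      rw [map_mul, coeffMap_qExpand, coeffMap_deltaSeries, coeffMap_deltaInvSeries]
    rw [← hq (residue A)]
    have e : algebraMap Qb (LaurentSeries Qb) ((r : Qb) ^ 12)⁻¹ * pairU Qb 1 r =
        coeffMap A.subtype (qExpand A r (deltaSeries A) * deltaInvSeries A) := by
      rw [hq, algebraMap_laurentSeries_eq_single, pairU, Nat.div_one,
        qExpand_one_apply, ← mul_assoc, HahnSeries.single_mul_single, inv_mul_cancel₀ hr0,
        add_zero, HahnSeries.single_zero_one, one_mul]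
    refine (congrArg (GRed (residue A) · _) ?_).mpr (gRed_intSeries (residue A) _)
    exact e

/-- **The unit `η⁸(τ) η⁸(qτ) / (η⁸(rτ) η⁸(qrτ))`**, of value `8` on the second component. -/
theorem exists_thicknessUnit_eight (hr : r.Prime) (hrM : ¬ r ∣ M) (A : ValuationSubring Qb) {q : ℕ}
    (hq : q.Prime) (hqM : q ∣ M) (hq3 : q % 3 = 2) :
    ∃ Z : modularFunctionFieldBar (M * r), Z ≠ 0 ∧
      (∀ σ : Qb ≃ₐ[ℚ] Qb, arithmeticGalois (modularFunctionFieldFull (M * r)) σ • Z = Z) ∧
      (∀ P : Place Qb (modularFunctionFieldBar (M * r)),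
        jFn M r ∈ P.toValuationSubring → P.ord Z = 0) ∧
      (∃ φ, φ ≠ 0 ∧ GRed (residue A) (Z : LaurentSeries Qb) φ) ∧
      ∃ φ, φ ≠ 0 ∧ GRed (residue A)
        (((((r : Qb) ^ 8)⁻¹ • wField hr hrM Z : modularFunctionFieldBar (M * r))) : LaurentSeries Qb)
        φ := by
  have : NeZero q := ⟨hq.ne_zero⟩
  have hqr : Nat.Coprime q r :=
    (Nat.coprime_primes hq hr).mpr fun h => hrM (h ▸ hqM)
  have hN : q * r ∣ M * r := Nat.mul_dvd_mul_right hqM r
  have hz : etaQuotSer Qb q r ∈ modularFunctionFieldBar (M * r) :=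
    etaQuotSer_mem iotaC hq hq3 hqr hN
  have hi : etaQuotInvSer Qb q r ∈ modularFunctionFieldBar (M * r) :=
    etaQuotInvSer_mem iotaC hq hq3 hqr hN
  have hz0 : (⟨_, hz⟩ : modularFunctionFieldBar (M * r)) ≠ 0 := fun h =>
    etaQuotSer_ne_zero Qb q r (congrArg Subtype.val h)
  have hr0 : (r : Qb) ≠ 0 := Nat.cast_ne_zero.mpr hr.ne_zero
  refine ⟨⟨_, hz⟩, hz0, fun σ => Subtype.ext ?_, fun P hP => ?_,
    ⟨_, etaQuotSer_ne_zero _ q r, ?_⟩, _, etaQuotInvSer_ne_zero _ q r, ?_⟩
  · rw [coe_arithmeticGalois_smul]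
    exact coeffMap_etaQuotSer q r _
  · have hi0 : (⟨_, hi⟩ : modularFunctionFieldBar (M * r)) ≠ 0 := fun h =>
      etaQuotInvSer_ne_zero Qb q r (congrArg Subtype.val h)
    have hc : ((r : Qb) ^ 12) * ((r : Qb) ^ 12) ≠ 0 :=
      mul_ne_zero (pow_ne_zero _ hr0) (pow_ne_zero _ hr0)
    have e : (algebraMap Qb _ (((r : Qb) ^ 12) * ((r : Qb) ^ 12)) * ⟨_, hi⟩ :
        modularFunctionFieldBar (M * r)).1 = HahnSeries.single (0 : ℤ)
          (((r : Qb) ^ 12) * ((r : Qb) ^ 12)) * etaQuotInvSer Qb q r := by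
      show algebraMap Qb (LaurentSeries Qb) _ * _ = _
      rw [algebraMap_laurentSeries_eq_single]
    have hI := mem_place_of_isIntegralElem
      (algebraMap Qb _ (((r : Qb) ^ 12) * ((r : Qb) ^ 12)) * ⟨_, hi⟩ :
        modularFunctionFieldBar (M * r)).2
      (by rw [e]; exact isIntegralElem_etaQuotInvSer iotaC hq hq3 hqr hN) P hP
    have h1 := FF.PlacesOver.ord_nonneg_of_mem P
      (mem_place_of_isIntegralElem hz (isIntegralElem_etaQuotSer iotaC hq hq3 hqr hN) P hP)
    have h2 := FF.PlacesOver.ord_nonneg_of_mem P hI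
    have hcK : algebraMap Qb (modularFunctionFieldBar (M * r))
        (((r : Qb) ^ 12) * ((r : Qb) ^ 12)) ≠ 0 := (map_ne_zero _).mpr hc
    simp only [Subtype.coe_eta] at h2
    rw [P.ord_mul hcK hi0, FF.ord_eq_zero_of_isAlgebraic _ (isAlgebraic_algebraMap _),
      zero_add] at h2
    have hmul : (⟨_, hz⟩ : modularFunctionFieldBar (M * r)) * ⟨_, hi⟩ = 1 :=
      Subtype.ext (etaQuotSer_mul_inv Qb q r)
    have h3 := P.ord_mul hz0 hi0
    rw [hmul, ← map_one (algebraMap Qb (modularFunctionFieldBar (M * r))),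
      FF.ord_eq_zero_of_isAlgebraic _ (isAlgebraic_algebraMap _)] at h3
    omega
  · show GRed _ (etaQuotSer Qb q r) _
    rw [← coeffMap_etaQuotSer q r A.subtype, ← coeffMap_etaQuotSer q r (residue A)]
    exact gRed_intSeries _ _
  · rw [Algebra.smul_def, IntermediateField.coe_mul, wField_etaQuotSer hr hrM hq3 hqM hz,
      ← coeffMap_etaQuotInvSer q r (residue A)]
    refine (congrArg (GRed (residue A) · _) ?_).mpr (gRed_intSeries (residue A) _)
    show algebraMap Qb (LaurentSeries Qb) ((r : Qb) ^ 8)⁻¹ * _ = _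
    rw [algebraMap_laurentSeries_eq_single, ← mul_assoc, HahnSeries.single_mul_single,
      inv_mul_cancel₀ (pow_ne_zero _ hr0), add_zero, HahnSeries.single_zero_one, one_mul,
      coeffMap_etaQuotInvSer]

/-- The auxiliary unit. -/
theorem exists_thicknessUnit (hr : r.Prime) (hrM : ¬ r ∣ M) (A : ValuationSubring Qb)
    (hA : A.LiesOverPrime r) (t : ℕ)
    (ht : t = 12 ∨ (t = 8 ∧ ∃ q : ℕ, q.Prime ∧ q ∣ M ∧ q % 3 = 2)) :
    ∃ Z : modularFunctionFieldBar (M * r), Z ≠ 0 ∧
      (∀ σ : Qb ≃ₐ[ℚ] Qb, arithmeticGalois (modularFunctionFieldFull (M * r)) σ • Z = Z) ∧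
      (∀ P : Place Qb (modularFunctionFieldBar (M * r)),
        jFn M r ∈ P.toValuationSubring → P.ord Z = 0) ∧
      (∃ φ, φ ≠ 0 ∧ GRed (residue A) (Z : LaurentSeries Qb) φ) ∧
      ∃ φ, φ ≠ 0 ∧ GRed (residue A)
        (((((r : Qb) ^ t)⁻¹ • wField hr hrM Z : modularFunctionFieldBar (M * r))) : LaurentSeries Qb)
        φ := by
  rcases ht with rfl | ⟨rfl, q, hq, hqM, hq3⟩
  · exact exists_thicknessUnit_twelve hr hrM A
  · exact exists_thicknessUnit_eight hr hrM A hq hqM hq3

end Fermat.Agent.LL.Mazur
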