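import Fermat.Agent.LL.Mazur.ResRep
import Fermat.Agent.LL.Mazur.RatCharts
import Fermat.Agent.LL.Mazur.Crossings
import Fermat.Agent.LL.Mazur.ThicknessUnit
import Fermat.Agent.LL.Mazur.PrincipleEnd
import Fermat.Agent.LLp.Inst.Cusps
import Fermat.Agent.LLp.Descent
import Fermat.Agent.HK.HeckeFinal
import Fermat.Prelude.Def_ModularCurve_HeckeModule
import Fermat.Prelude.Def_EllipticCurve_FrobeniusTrace
import Fermat.Prelude.Def_FLTPrelim_Ramification

/-!
# The Mazur principle on `J₀(M r)`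

A class function fixed by inertia, twisted by `T_l - (l + 1)` to have equal values on the two
branches, has residual divisors divisible by `n` after raising to the thickness; the Hecke
polynomial killing level `M` makes the reductions `n`-th powers, so that Frobenius composed with
`w_r` acts as `-r`.
-/

set_option autoImplicit false
set_option linter.style.haveILetI false
set_option synthInstance.maxHeartbeats 200000

noncomputable section

open ModularCurve AlgebraicCurve IsLocalRing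

namespace Fermat.Agent.LL.Mazur

local notation "Qb" => AlgebraicClosure ℚ
local notation "GalQb" => AlgebraicClosure ℚ ≃ₐ[ℚ] AlgebraicClosure ℚ

section

variable {M r : ℕ} [NeZero M] [NeZero r] (hr : r.Prime) (hrM : ¬ r ∣ M)
  {A : ValuationSubring Qb} (hA : A.LiesOverPrime r)

/-- The norm multiplies the value on each branch by `l + 1`. -/
theorem hasOrd_heckeNorm [Fact r.Prime] {l : ℕ} [NeZero l] (hl : l.Prime) (hlN : ¬ l ∣ M * r)
    {i : Fin 2} {f : modularFunctionFieldBar (M * r)} {m : ℤ}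
    (h : (mRat hr hrM hA).HasOrd i f m) :
    (mRat hr hrM hA).HasOrd i (heckeNorm (M * r) l f) ((l + 1 : ℕ) * m) := by
  obtain ⟨ζ, hζ⟩ := exists_primitiveRoot_units (A := A) hl
  obtain ⟨h1, h2, -⟩ := red_heckeNorm hr hrM hA hl hlN hζ h.1 h.2
  have he : ((mRat hr hrM hA).ϖ ^ (((l + 1 : ℕ) : ℤ) * m))⁻¹ • heckeNorm (M * r) l f =
      heckeNorm (M * r) l (((mRat hr hrM hA).ϖ ^ m)⁻¹ • f) := by
    rw [Algebra.smul_def, Algebra.smul_def, map_mul, heckeNorm_algebraMap _ _ hl hlN, ← map_pow,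
      inv_pow, ← zpow_natCast, ← zpow_mul, mul_comm m]
  exact ⟨he ▸ h1, by rw [he]; exact h2⟩

/-- The auxiliary unit has values `0` and `t` on the two branches. -/
theorem exists_thickness [Fact r.Prime] {t : ℕ}
    (ht : t = 12 ∨ (t = 8 ∧ ∃ q : ℕ, q.Prime ∧ q ∣ M ∧ q % 3 = 2)) :
    ∃ Z : modularFunctionFieldBar (M * r), Z ∈ (mRat hr hrM hA).FK ∧
      (mRat hr hrM hA).HasOrd 0 Z 0 ∧ (mRat hr hrM hA).HasOrd 1 Z t ∧
      (∀ x y, LLp.IsCrossing (mCurve hr hrM hA).chartFin x y →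
        LLp.IsFreeAt (mCurve hr hrM hA).chartFin ((0 : Fin 2), x) Z) ∧
      ∀ x y, LLp.IsCrossing (mCurve hr hrM hA).chartInf x y →
        LLp.IsFreeAt (mCurve hr hrM hA).chartInf ((0 : Fin 2), x) Z := by
  obtain ⟨Z, hZ0, hfix, hfree, ⟨φ₀, hφ₀, h₀⟩, φ₁, hφ₁, h₁⟩ :=
    exists_thicknessUnit hr hrM A hA t ht
  have key : ∀ (i : Fin 2) (x : modularFunctionFieldBar (M * r)) (φ : LaurentSeries (ResidueField A)),
      φ ≠ 0 → GRed (residue A) (BAD.Modular.emb M hr hrM i x) φ →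
      x ∈ (mCurve hr hrM hA).V i ∧ (mCurve hr hrM hA).red i x ≠ 0 := fun i x φ hφ hx => by
    have hV := (mem_V_iff hr hrM hA).mpr hx.mem
    refine ⟨hV, fun h0 => hφ ?_⟩
    have h := gRed_red hr hrM hA hV
    rw [h0, ZeroMemClass.coe_zero] at h
    exact hx.unique h
  refine ⟨Z, (mem_mRat_FK hr hrM hA).mpr fun σ _ => hfix σ,
    LLp.RatField.hasOrd_zero_iff.mpr (key 0 Z φ₀ hφ₀ ?_), key 1 _ φ₁ hφ₁ ?_,
    fun x y _ => isFreeAt_chartFin hr hrM hA hZ0 hfree _,
    fun x y hxy => isFreeAt_chartInf hr hrM hA hZ0 hfree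
      (LLp.isSmoothPt_curve_cusp hr hrM hA) hxy⟩
  · rw [BAD.Modular.emb_zero_apply]
    exact h₀
  · rw [emb_one_eq, Algebra.smul_def, map_mul, AlgEquiv.commutes, ← Algebra.smul_def, zpow_natCast]
    exact h₁

/-- Good-prime Hecke polynomials act on representations. -/
theorem ResRep.smul {n : ℕ} {P : HeckeAlg}
    (hP : ∀ l ∈ MvPolynomial.vars P, ¬ ((l : Nat.Primes) : ℕ) ∣ M * r)
    {y : JZero (M * r)} {x : Fin 2 → JZero M} (h : ResRep hr hrM hA n y x) :
    ResRep hr hrM hA n (letI := heckeModuleBar (M * r); P • y)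
      fun i => (letI := heckeModuleBar M; P • x i) := by
  letI := heckeModuleBar (M * r)
  letI := heckeModuleBar M
  show ResRep hr hrM hA n (P • y) fun i => P • x i
  have hsup : P ∈ MvPolynomial.supported ℤ {l : Nat.Primes | ¬ (l : ℕ) ∣ M * r} :=
    MvPolynomial.mem_supported.mpr fun l hl => hP l hl
  clear hP
  rw [MvPolynomial.supported_eq_adjoin_X] at hsup
  induction hsup using Algebra.adjoin_induction generalizing y x with
  | mem Q hQ =>
    obtain ⟨l, hl, rfl⟩ := hQ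
    rw [show (MvPolynomial.X l : HeckeAlg) = heckeGen l from rfl,
      heckeModuleBar_heckeGen_smul (HK.Corr.heckeOperatorsCommuteBar (M * r))]
    simp only [heckeModuleBar_heckeGen_smul (HK.Corr.heckeOperatorsCommuteBar M)]
    exact h.hecke l hl
  | algebraMap a =>
    rw [MvPolynomial.algebraMap_eq, heckeModuleBar_C_smul]
    simp only [heckeModuleBar_C_smul]
    exact h.zsmul a
  | add p q _ _ hp hq =>
    simp only [add_smul]
    exact (hp h).add (hq h)
  | mul p q _ _ hp hq =>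
    simp only [mul_smul]
    exact hp (hq h)

end

/-- **Mazur principle, general form.** `z` is an `n`-torsion point of `J₀(M r)` fixed by inertia
over `r`, `P` a good-prime Hecke polynomial killing `J₀(M)`, `T_l - (l + 1)` removes the component
part and `t` bounds the thickness of the crossings (`8` for `4` when a prime `≡ 2 mod 3` divides
`M`). -/
theorem mazur_principle_general {M r : ℕ} [NeZero M] [NeZero r] (hr : r.Prime)
    (hrM : ¬ r ∣ M) {n : ℕ} (hn : n.Coprime r) (t : ℕ)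
    (ht : t = 12 ∨ (t = 8 ∧ ∃ q : ℕ, q.Prime ∧ q ∣ M ∧ q % 3 = 2))
    (z : JZero (M * r)) (hz : n • z = 0)
    (A : ValuationSubring (AlgebraicClosure ℚ)) (hA : A.LiesOverPrime r)
    (hfix : ∀ σ ∈ A.inertiaSubgroupIn ℚ, σ • z = z)
    (P : HeckeAlg) (hP : ∀ l ∈ MvPolynomial.vars P, ¬ ((l : Nat.Primes) : ℕ) ∣ M * r)
    (hPM : ∀ y : JZero M, (letI := heckeModuleBar M; P • y) = 0)
    (l : Nat.Primes) (hl : ¬ (l : ℕ) ∣ M * r)
    (σ : GalQb) (hσ : A.IsFrobeniusAt σ r) :
    σ • wJ hr hrM (letI := heckeModuleBar (M * r)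
        P • (t • (heckeOperatorBar (M * r) l z - ((l : ℕ) + 1) • z))) =
      -(r • (letI := heckeModuleBar (M * r)
        P • (t • (heckeOperatorBar (M * r) l z - ((l : ℕ) + 1) • z)))) := by
  haveI := Fact.mk hr
  haveI : NeZero (l : ℕ) := ⟨l.2.ne_zero⟩
  haveI := Galois.place_residueField_isAlgClosed A
  haveI := MF.Coeff.isFunctionField_laurentBaseChange Qb (M * r)
  have hn0 : n ≠ 0 := fun h => hr.ne_one (by simpa [h] using hn)
  obtain ⟨f, hf, -, hffix⟩ := LLp.exists_fixed_classFun hn0 (A.inertiaSubgroupIn ℚ)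
    (P := z) (by rw [natCast_zsmul]; exact hz) hfix
  set R := mRat hr hrM hA
  have hF : f ∈ R.FK := (mem_mRat_FK hr hrM hA).mpr hffix
  have hNF : heckeNorm (M * r) (l : ℕ) f ∈ R.FK := (mem_mRat_FK hr hrM hA).mpr fun s hs => by
    rw [← heckeNorm_galois, (mem_mRat_FK hr hrM hA).mp hF s hs]
  set g := heckeNorm (M * r) (l : ℕ) f * (f ^ ((l : ℕ) + 1))⁻¹
  set y := heckeOperatorBar (M * r) l z - ((l : ℕ) + 1) • z
  have hg : LLp.IsClassFun n y g := by
    have h := (hf.hecke l).mul (hf.pow ((l : ℕ) + 1)).inv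
    rwa [← sub_eq_add_neg] at h
  have hgF : g ∈ R.FK := mul_mem hNF (inv_mem (pow_mem hF _))
  have hgu : ∀ i, R.HasOrd i g 0 := fun i => by
    obtain ⟨m, hm⟩ := R.exists_hasOrd (i := i) hF hf.1
    have h := ((hasOrd_heckeNorm hr hrM hA l.2 hl hm).mul
      (hasOrd_pow hm ((l : ℕ) + 1)).1.inv.1).1
    rwa [add_neg_cancel] at h
  obtain ⟨hg0, E, -, hE⟩ := id hg
  have ht0 : 0 < t := by rcases ht with rfl | ⟨rfl, -⟩ <;> norm_num
  obtain ⟨Z, hZF, hZ₀, hZ₁, hZfin, hZinf⟩ := exists_thickness hr hrM hA ht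
  have hunit : ∀ i, g ∈ (mCurve hr hrM hA).V i ∧ (mCurve hr hrM hA).red i g ≠ 0 := fun i =>
    LLp.RatField.hasOrd_zero_iff.mp (hgu i)
  have hdiv : ∀ Q : Place Qb (modularFunctionFieldBar (M * r)), (n : ℤ) ∣ Q.ord g :=
    fun Q => ⟨_, (hE Q).symm⟩
  have hres : ∀ (i : Fin 2) (x : Place (ResidueField A)
      (modularFunctionFieldFullC (ResidueField A) M)),
      (n : ℤ) ∣ t * x.ord ((mCurve hr hrM hA).red i g) := fun i x => by
    rcases x.toValuationSubring.mem_or_inv_mem (mCurve hr hrM hA).ubar with hx | hx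
    · exact dvd_ord_red_of_chart (ratChart_fin hr hrM hA le_rfl (inertiaConsts hA)
        fun _ => mem_inertiaConsts_iff hA) hZF ht0 hZ₀ hZ₁ hZfin hgF hdiv hgu i x hx
    · exact dvd_ord_red_of_chart (ratChart_inf hr hrM hA le_rfl (inertiaConsts hA)
        fun _ => mem_inertiaConsts_iff hA) hZF ht0 hZ₀ hZ₁ hZinf hgF hdiv hgu i x hx
  obtain ⟨x, hx⟩ := exists_resRep (hr := hr) (hrM := hrM) (hA := hA) hn0 (hg.pow t)
    (fun i => ⟨pow_mem (hunit i).1 t, by
      rw [(mCurve hr hrM hA).red_pow (hunit i).1]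
      exact pow_ne_zero _ (hunit i).2⟩)
    fun i Q => by
      rw [(mCurve hr hrM hA).red_pow (hunit i).1, ← zpow_natCast, Q.ord_zpow]
      exact hres i Q
  have hPx := hx.smul hr hrM hA hP
  simp only [hPM] at hPx
  obtain ⟨f', hf', hred⟩ := hPx.exists_redIsPow
  exact smul_wJ_eq_of_redIsPow hr hrM hA hσ hn hf' hred

end Fermat.Agent.LL.Mazur
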