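import Fermat.Agent.GAL.PointExtend
import Fermat.Agent.GAL.PointRep
import Fermat.Prelude.Thm_IsAdicComplete_of_module_finite
import Mathlib.RingTheory.Localization.FractionRing
import Mathlib.RingTheory.AdicCompletion.Functoriality
import Mathlib.LinearAlgebra.Dual.Lemmas

/-!
# Eigenvectors of a point of a ring of integral matrices; complete discrete valuation rings as
finite free `ℤ_[p]`-modules
-/

set_option autoImplicit false

noncomputable section

open scoped Matrix nonZeroDivisors

namespace Fermat.Agent.LL.Mazur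

/-- A homomorphism on a commutative ring of integral matrices has a nonzero eigenvector. -/
theorem exists_eigenvec {H O : Type} [CommRing H] [CommRing O] [IsDomain O] {d : ℕ}
    (rep : H →+* Matrix (Fin d) (Fin d) ℤ) (hrep : Function.Injective rep) (χ : H →+* O) :
    ∃ y : Fin d → O, y ≠ 0 ∧ ∀ t, (rep t).map (Int.castRingHom O) *ᵥ y = χ t • y := by
  classical
  let M := Fin d → ℤ
  let act : H →+* Module.End ℤ M :=
    { toFun := fun t => Matrix.toLin' (rep t)ᵀ
      map_one' := by simp [Module.End.one_eq_id]
      map_mul' := fun s t => by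
        rw [mul_comm s t, map_mul, Matrix.transpose_mul, Matrix.toLin'_mul]; rfl
      map_zero' := by simp
      map_add' := fun s t => by rw [map_add, Matrix.transpose_add, map_add] }
  let _instM : Module H M := Module.compHom M act
  have hsmul : ∀ (t : H) (m : M), t • m = Matrix.toLin' (rep t)ᵀ m := fun _ _ => rfl
  have : Module.Finite H M := Module.Finite.of_restrictScalars_finite ℤ H M
  set P := RingHom.ker χ with hP
  have : P.IsPrime := RingHom.ker_isPrime χ
  -- some vector is not torsion modulo `P`
  obtain ⟨m₀, hm₀⟩ : ∃ m : M, ∀ s ∉ P, s • m ∉ P • (⊤ : Submodule H M) := by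
    by_contra hcon
    push Not at hcon
    choose s hs hsm using fun i : Fin d => hcon (Pi.single i 1)
    set u := ∏ i, s i
    have hu : u ∉ P := fun h => by
      obtain ⟨i, -, hi⟩ := Ideal.IsPrime.prod_mem_iff.mp h
      exact hs i hi
    have hrange : LinearMap.range (u • LinearMap.id : Module.End H M) ≤ P • ⊤ := by
      rintro _ ⟨m, rfl⟩
      show u • m ∈ _
      rw [pi_eq_sum_univ' m, Finset.smul_sum]
      refine Submodule.sum_mem _ fun i _ => ?_
      rw [show u • (m i • (Pi.single i (1 : ℤ) : M)) = m i • (u • (Pi.single i (1 : ℤ) : M)) by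
        rw [hsmul, hsmul, map_zsmul]]
      refine zsmul_mem ?_ (m i)
      rw [show u = (∏ j ∈ Finset.univ.erase i, s j) * s i from
        (Finset.prod_erase_mul _ _ (Finset.mem_univ i)).symm, mul_smul]
      exact Submodule.smul_mem _ _ (hsm i)
    obtain ⟨p, hmonic, -, hcoeff, hp⟩ :=
      LinearMap.exists_monic_and_natDegree_eq_and_coeff_mem_pow_and_aeval_eq_zero H
        (u • LinearMap.id : Module.End H M) P hrange
    have h0 : p.eval u = 0 := by
      refine hrep (Matrix.transpose_injective (Matrix.toLin'.injective (LinearMap.ext fun x => ?_)))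
      rw [show (u • LinearMap.id : Module.End H M) = algebraMap H _ u from
        (Algebra.algebraMap_eq_smul_one u).symm,
        Polynomial.aeval_algebraMap_apply_eq_algebraMap_eval] at hp
      rw [map_zero, Matrix.transpose_zero, map_zero, LinearMap.zero_apply, ← hsmul]
      exact LinearMap.congr_fun hp x
    refine hu (Ideal.IsPrime.mem_of_pow_mem inferInstance p.natDegree ?_)
    rw [Polynomial.eval_eq_sum_range, Finset.sum_range_succ, hmonic.coeff_natDegree, one_mul,
      add_eq_zero_iff_eq_neg'] at h0
    rw [h0]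
    refine Submodule.neg_mem _ (Submodule.sum_mem _ fun k hk => Ideal.mul_mem_right _ _ ?_)
    rw [Finset.mem_range] at hk
    exact Ideal.pow_le_self (Nat.sub_ne_zero_of_lt hk) (hcoeff k)
  -- a functional
  let V := M ⧸ P • (⊤ : Submodule H M)
  let mk : V →ₗ[H ⧸ P] LocalizedModule (H ⧸ P)⁰ V := LocalizedModule.mkLinearMap _ _
  set x := mk (Submodule.Quotient.mk m₀) with hx
  have hx0 : x ≠ 0 := by
    intro h
    rw [hx] at h
    obtain ⟨c, hc⟩ := (IsLocalizedModule.eq_zero_iff (H ⧸ P)⁰ mk).mp h
    obtain ⟨s, hs⟩ := Ideal.Quotient.mk_surjective (c : H ⧸ P)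
    rw [Submonoid.smul_def, ← hs] at hc
    refine hm₀ s (fun hsP => nonZeroDivisors.coe_ne_zero c ?_) ?_
    · rw [← hs, Ideal.Quotient.eq_zero_iff_mem.mpr hsP]
    · rw [← Submodule.Quotient.mk_eq_zero]
      exact hc
  obtain ⟨l, hl⟩ : ∃ l : Module.Dual (FractionRing (H ⧸ P)) (LocalizedModule (H ⧸ P)⁰ V),
      l x ≠ 0 := by
    by_contra! hall
    exact hx0 ((Module.forall_dual_apply_eq_zero_iff _ x).mp hall)
  let χ' : H ⧸ P →+* O := Ideal.Quotient.lift P χ fun a ha => ha
  have hχ' : Function.Injective ((algebraMap O (FractionRing O)).comp χ') :=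
    (IsFractionRing.injective O (FractionRing O)).comp (RingHom.kerLift_injective χ)
  let f : FractionRing (H ⧸ P) →+* FractionRing O := IsFractionRing.lift hχ'
  let φ : M →+ FractionRing O :=
    (f.toAddMonoidHom.comp l.toAddMonoidHom).comp
      (mk.toAddMonoidHom.comp (P • (⊤ : Submodule H M)).mkQ.toAddMonoidHom)
  have hφ : ∀ t m, φ (t • m) = algebraMap O (FractionRing O) (χ t) * φ m := by
    intro t m
    show f (l (mk (Submodule.Quotient.mk (t • m)))) = _
    rw [Submodule.Quotient.mk_smul,
      show t • (Submodule.Quotient.mk m : V) = (Ideal.Quotient.mk P t) • (Submodule.Quotient.mk m : V)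
        from rfl, map_smul, ← algebraMap_smul (FractionRing (H ⧸ P)) (Ideal.Quotient.mk P t),
      map_smul, smul_eq_mul, map_mul, IsFractionRing.lift_algebraMap]
    rfl
  let w : Fin d → FractionRing O := fun i => φ (Pi.single i 1)
  have hwsum : ∀ m : M, φ m = ∑ i, (m i : FractionRing O) * w i := fun m => by
    conv_lhs => rw [pi_eq_sum_univ' m, map_sum]
    exact Finset.sum_congr rfl fun i _ => by rw [map_zsmul, zsmul_eq_mul]
  have hw0 : w ≠ 0 := fun h => hl (f.injective (by
    rw [map_zero]
    exact ((hwsum m₀).trans (Finset.sum_eq_zero fun i _ => by rw [h, Pi.zero_apply, mul_zero]))))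
  obtain ⟨b, hb⟩ := IsLocalization.exist_integer_multiples_of_finite O⁰ w
  choose y hy using hb
  refine ⟨y, fun h => hw0 (funext fun i => ?_), fun t => funext fun j => ?_⟩
  · have h1 := hy i
    rw [h, Pi.zero_apply, map_zero, Algebra.smul_def, eq_comm, mul_eq_zero] at h1
    exact h1.resolve_left fun hb0 => nonZeroDivisors.coe_ne_zero b
      (IsFractionRing.injective O (FractionRing O) (by rw [hb0, map_zero]))
  · refine IsFractionRing.injective O (FractionRing O) ?_
    rw [Pi.smul_apply, smul_eq_mul, map_mul, hy j, Matrix.mulVec, dotProduct, map_sum]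
    simp only [Matrix.map_apply, eq_intCast, map_mul, map_intCast, hy, Algebra.smul_def,
      mul_left_comm _ (algebraMap O (FractionRing O) (b : O)), ← Finset.mul_sum]
    congr 1
    have h2 := hφ t (Pi.single j 1)
    rw [hwsum, hsmul] at h2
    rw [← show _ = algebraMap O (FractionRing O) (χ t) * w j from h2]
    exact Finset.sum_congr rfl fun i _ => by
      rw [Matrix.toLin'_apply, Matrix.mulVec_single_one, Matrix.col_apply, Matrix.transpose_apply]

section Padic

open IsLocalRing

variable (O : Type) [CommRing O] [IsDomain O] [IsDiscreteValuationRing O]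
  [IsAdicComplete (maximalIdeal O) O] [Finite (ResidueField O)] [CharZero O] {p : ℕ} [Fact p.Prime]

/-- `O` is a finite free `ℤ_[p]`-module. -/
theorem exists_padic_finite_free (hp : (p : O) ∈ maximalIdeal O) :
    ∃ ψ : ℤ_[p] →+* O, letI := ψ.toAlgebra; Module.Finite ℤ_[p] O ∧ Module.Free ℤ_[p] O := by
  classical
  obtain ⟨ψ⟩ := GAL.exists_padicInt_hom (I := maximalIdeal O) hp
  refine ⟨ψ, ?_⟩
  set_option linter.style.haveILetI false in
  letI := ψ.toAlgebra
  set I := maximalIdeal ℤ_[p] with hI
  set J : Ideal O := Ideal.span {(p : O)} with hJ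
  have hmap : I.map (algebraMap ℤ_[p] O) = J := by
    rw [hI, PadicInt.maximalIdeal_eq_span_p, Ideal.map_span, Set.image_singleton, map_natCast]
  have hJm : J ≤ maximalIdeal O := (Ideal.span_singleton_le_iff_mem _).mpr hp
  have hfin : Finite (O ⧸ J) := by
    obtain ⟨ϖ, hϖ⟩ := IsDiscreteValuationRing.exists_irreducible O
    obtain ⟨n, hn⟩ := IsDiscreteValuationRing.ideal_eq_span_pow_irreducible (s := J)
      (by rw [hJ, ne_eq, Ideal.span_singleton_eq_bot]
          exact Nat.cast_ne_zero.mpr (Fact.out : p.Prime).ne_zero) hϖ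
    rw [hn, ← Ideal.span_singleton_pow, ← hϖ.maximalIdeal_eq]
    have : Finite (O ⧸ maximalIdeal O) := ‹Finite (ResidueField O)›
    exact Ideal.finite_quotient_pow (IsNoetherian.noetherian _) n
  let : Fintype (O ⧸ J) := Fintype.ofFinite _
  let g : ((O ⧸ J) → ℤ_[p]) →ₗ[ℤ_[p]] O :=
    Fintype.linearCombination ℤ_[p] fun q => (Ideal.Quotient.mk_surjective q).choose
  have := IsAdicComplete.of_module_finite I ((O ⧸ J) → ℤ_[p])
  have : IsHausdorff I O := IsHausdorff.of_map (J := maximalIdeal O) (by rw [hmap]; exact hJm)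
  have hg : Function.Surjective g := by
    refine surjective_of_mkQ_comp_surjective (I := I) fun z => ?_
    obtain ⟨o, rfl⟩ := Submodule.mkQ_surjective _ z
    refine ⟨Pi.single (Ideal.Quotient.mk J o) 1, ?_⟩
    simp only [LinearMap.comp_apply, g, Fintype.linearCombination_apply_single, one_smul,
      Submodule.mkQ_apply, Submodule.Quotient.eq, Ideal.smul_top_eq_map, hmap,
      Submodule.restrictScalars_mem]
    exact Ideal.Quotient.eq.mp (Ideal.Quotient.mk_surjective (Ideal.Quotient.mk J o)).choose_spec
  have hfinite : Module.Finite ℤ_[p] O := Module.Finite.of_surjective g hg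
  have htf : Module.IsTorsionFree ℤ_[p] O :=
    Module.IsTorsionFree.comap ψ (fun r hr => IsRegular.of_ne_zero
      ((map_ne_zero_iff ψ (GAL.padicInt_hom_injective ψ)).mpr hr.ne_zero))
      (fun r m => (Algebra.smul_def r m).symm)
  exact ⟨hfinite, Module.free_of_finite_type_torsion_free'⟩

end Padic

end Fermat.Agent.LL.Mazur
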