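import Fermat.Agent.LL.Mazur.Scalar
import Fermat.Agent.LL.Mazur.KillsPoints
import Fermat.Agent.LL.Mazur.EigenVec
import Fermat.Agent.CondLevel.Compare
import Fermat.Agent.LR.NonEisenstein
import Fermat.Agent.Deform.FrobExist
import Fermat.Agent.TraceFn.Burnside
import Fermat.Agent.TraceFn.Cyclo
import Fermat.Agent.GAL.SpecialRep

/-!
# The Mazur principle in characteristic zero

An eigensystem of level `M r` with values in a complete discrete valuation ring which is new at `r`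
has a representation ramified at `r`: else a Frobenius at `r` is a scalar `s` with `s² = r²` and
determinant `r`.  The eigen module sits in the coordinates of the `p`-adic Tate module.
-/

set_option autoImplicit false

noncomputable section

open ModularCurve IsLocalRing
open scoped Matrix

namespace Fermat.Agent.LL.Mazur

local notation "GalQb" => AlgebraicClosure ℚ ≃ₐ[ℚ] AlgebraicClosure ℚ

section Eigen

variable {N p : ℕ} [NeZero N] [Fact p.Prime] {S : Finset ℕ} {O : Type} [CommRing O]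
  (χ : CuspForm.heckeAlgebra N 2 (↑S : Set ℕ) →+* O)

/-- The vectors on which the Hecke algebra away from `S` acts through `χ`. -/
def eigenY : Submodule O (Fin (MF.ParHom.parRank N) → O) where
  carrier := {v | ∀ t, HK.castMat N O (HK.heckeRep N (TraceFn.awayToFull N S t)) *ᵥ v = χ t • v}
  zero_mem' t := by rw [Matrix.mulVec_zero, smul_zero]
  add_mem' ha hb t := by rw [Matrix.mulVec_add, ha t, hb t, smul_add]
  smul_mem' a v hv t := by rw [Matrix.mulVec_smul, hv t, smul_comm]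

theorem exists_mem_eigenY_ne_zero [IsDomain O] : ∃ y : eigenY χ, y.1 ≠ 0 := by
  obtain ⟨y, hy, h⟩ := exists_eigenvec ((HK.heckeRep N).comp (TraceFn.awayToFull N S))
    ((HK.heckeRep_injective N).comp (Subalgebra.inclusion_injective _)) χ
  exact ⟨⟨y, h⟩, hy⟩

variable [Algebra ℤ_[p] O] (D : HK.TorsionCoords N p)

theorem map_castMat_padic (A : Matrix (Fin (MF.ParHom.parRank N)) (Fin (MF.ParHom.parRank N)) ℤ) :
    (HK.castMat N ℤ_[p] A).map (algebraMap ℤ_[p] O) = HK.castMat N O A :=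
  Matrix.ext fun i j => map_intCast (algebraMap ℤ_[p] O) (A i j)

/-- The Galois action on the Tate module with coefficients in `O`. -/
def tateO : GalQb →* Matrix (Fin (MF.ParHom.parRank N)) (Fin (MF.ParHom.parRank N)) O :=
  (RingHom.mapMatrix (m := Fin (MF.ParHom.parRank N)) (algebraMap ℤ_[p] O)).toMonoidHom.comp
    D.tateMat

theorem tateO_apply (g : GalQb) :
    (tateO D g : Matrix _ _ O) = (D.tateMat g).map (algebraMap ℤ_[p] O) := rfl

theorem tateO_mulVec_mem (g : GalQb) {v : Fin (MF.ParHom.parRank N) → O} (hv : v ∈ eigenY χ) :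
    tateO D g *ᵥ v ∈ eigenY χ := by
  intro t
  have hc := (D.tateMat_commute g (TraceFn.awayToFull N S t)).map
    ((algebraMap ℤ_[p] O).mapMatrix :
      Matrix (Fin (MF.ParHom.parRank N)) (Fin (MF.ParHom.parRank N)) ℤ_[p] →+* _)
  rw [RingHom.mapMatrix_apply, RingHom.mapMatrix_apply, map_castMat_padic, ← tateO_apply] at hc
  rw [Matrix.mulVec_mulVec, ← hc.eq, ← Matrix.mulVec_mulVec, hv t, Matrix.mulVec_smul]

/-- The Galois action on the eigen module. -/
def eigenAct : GalQb →* Module.End O (eigenY χ) where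
  toFun g := (Matrix.mulVecLin (tateO D g)).restrict fun _ hv => tateO_mulVec_mem χ D g hv
  map_one' := LinearMap.ext fun v => Subtype.ext (by
    show tateO D 1 *ᵥ v.1 = v
    rw [map_one, Matrix.one_mulVec])
  map_mul' g g' := LinearMap.ext fun v => Subtype.ext (by
    show tateO D (g * g') *ᵥ v.1 = tateO D g *ᵥ (tateO D g' *ᵥ v.1)
    rw [map_mul, Matrix.mulVec_mulVec])

theorem coe_eigenAct (g : GalQb) (y : eigenY χ) :
    (eigenAct χ D g y).1 = tateO D g *ᵥ y.1 := rfl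

/-- The point with coordinates `lam (y i)` modulo `p ^ k`. -/
def coordPt (k : ℕ) (lam : O →ₗ[ℤ_[p]] ℤ_[p]) : eigenY χ →+ JZero N :=
  AddMonoidHom.mk'
    (fun y => (((D.e k).symm fun i => PadicInt.toZModPow k (lam (y.1 i))) : JZero N))
    fun a b => by
      rw [← AddSubgroup.coe_add, ← map_add]
      exact congrArg (fun v => (((D.e k).symm v : HK.jTor N p k) : JZero N))
        (funext fun i => by
          show PadicInt.toZModPow k (lam (a.1 i + b.1 i)) = _
          rw [map_add, map_add]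
          rfl)

theorem coordPt_torsion (k : ℕ) (lam : O →ₗ[ℤ_[p]] ℤ_[p]) (y : eigenY χ) :
    p ^ k • coordPt χ D k lam y = 0 :=
  ((D.e k).symm fun i => PadicInt.toZModPow k (lam (y.1 i))).2

theorem coord_mulVec (k : ℕ) (lam : O →ₗ[ℤ_[p]] ℤ_[p])
    (A : Matrix (Fin (MF.ParHom.parRank N)) (Fin (MF.ParHom.parRank N)) ℤ_[p])
    (v : Fin (MF.ParHom.parRank N) → O) :
    (fun i => PadicInt.toZModPow k (lam ((A.map (algebraMap ℤ_[p] O) *ᵥ v) i))) =
      HK.matMod k A *ᵥ fun i => PadicInt.toZModPow k (lam (v i)) := by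
  funext i
  simp only [Matrix.mulVec, dotProduct, Matrix.map_apply, map_sum]
  refine Finset.sum_congr rfl fun j _ => ?_
  rw [← Algebra.smul_def, map_smul, smul_eq_mul, map_mul]
  rfl

theorem coordPt_galois (k : ℕ) (lam : O →ₗ[ℤ_[p]] ℤ_[p]) (g : GalQb) (y : eigenY χ) :
    coordPt χ D k lam (eigenAct χ D g y) = g • coordPt χ D k lam y := by
  set z := (D.e k).symm fun i => PadicInt.toZModPow k (lam (y.1 i)) with hz
  show (((D.e k).symm fun i =>
    PadicInt.toZModPow k (lam ((tateO D g *ᵥ y.1) i))) : JZero N) = g • (z : JZero N)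
  rw [tateO_apply, coord_mulVec, D.tateMat_mod, ← (D.e k).apply_symm_apply
    (fun i => PadicInt.toZModPow k (lam (y.1 i))), ← hz, D.galMat_mulVec,
    AddEquiv.symm_apply_apply]

theorem coordPt_hecke (hNS : ∀ q : ℕ, q.Prime → q ∣ N → q ∈ S) (k : ℕ)
    (lam : O →ₗ[ℤ_[p]] ℤ_[p]) (Q : TraceFn.AwayHecke S) (y : eigenY χ) :
    TraceFn.jHecke N (TraceFn.awayIncl S Q) (coordPt χ D k lam y) =
      coordPt χ D k lam (χ (TraceFn.awayEval N S hNS Q) • y) := by
  have h := HK.Corr.heckeOperatorsCommuteBar N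
  set z := (D.e k).symm fun i => PadicInt.toZModPow k (lam (y.1 i)) with hz
  show TraceFn.jHecke N _ (z : JZero N) = (((D.e k).symm fun i =>
    PadicInt.toZModPow k (lam ((χ (TraceFn.awayEval N S hNS Q) • y.1) i))) : JZero N)
  rw [← y.2, ← map_castMat_padic (p := p), coord_mulVec, HK.TorsionCoords.matMod_cast,
    HK.awayToFull_awayEval, ← (D.e k).apply_symm_apply
      (fun i => PadicInt.toZModPow k (lam (y.1 i))), ← hz, ← D.e_heckeEvalBar h,
    AddEquiv.symm_apply_apply, TraceFn.jHecke_apply, heckeModuleBar_smul_def h]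

theorem eq_zero_of_coordPt [Module.Free ℤ_[p] O] (y : eigenY χ)
    (h : ∀ k lam, coordPt χ D k lam y = 0) : y = 0 := by
  refine Subtype.ext (funext fun i => ?_)
  refine (Module.forall_dual_apply_eq_zero_iff ℤ_[p] _).mp fun lam => ?_
  refine PadicInt.ext_of_toZModPow.mp fun k => ?_
  have h1 : ((D.e k).symm fun i => PadicInt.toZModPow k (lam (y.1 i))) = 0 :=
    Subtype.ext (h k lam)
  rw [map_zero]
  exact congrFun ((D.e k).symm.map_eq_zero_iff.mp h1) i

end Eigen

section Approx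

variable {N p : ℕ} [NeZero N] [Fact p.Prime] {S : Finset ℕ} {O : Type} [CommRing O]
  [IsDomain O] [IsDiscreteValuationRing O] (ρ : GaloisRepAdic O)
  (b : Module.Basis (Fin 2) O ρ.V)

/-- The matrices of `ρ` in a basis. -/
def repMat : GalQb →* Matrix (Fin 2) (Fin 2) O :=
  (LinearMap.toMatrixAlgEquiv b).toMulEquiv.toMonoidHom.comp ρ.ρ

theorem repMat_trace (g : GalQb) : (repMat ρ b g).trace = LinearMap.trace O ρ.V (ρ.ρ g) :=
  (LinearMap.trace_eq_matrix_trace O b (ρ.ρ g)).symm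

theorem repMat_det (g : GalQb) : (repMat ρ b g).det = LinearMap.det (ρ.ρ g) :=
  LinearMap.det_toMatrix b (ρ.ρ g)

theorem eq_of_forall_mk_pow {x y : O}
    (h : ∀ n, Ideal.Quotient.mk (maximalIdeal O ^ n) x = Ideal.Quotient.mk _ y) : x = y := by
  refine sub_eq_zero.mp ((Submodule.mem_bot O).mp ?_)
  rw [← Ideal.iInf_pow_eq_bot_of_isLocalRing (maximalIdeal O) (maximalIdeal.isMaximal O).ne_top,
    Submodule.mem_iInf]
  exact fun n => Ideal.Quotient.eq.mp (h n)

/-- Any element agrees to order `n`, on the Tate module, on `ρ` and on the roots of unity, with a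
power of a Frobenius element outside `S`. -/
theorem exists_frobenius_pow_near (D : HK.TorsionCoords N p) (S : Finset ℕ) (g : GalQb) (n : ℕ) :
    ∃ l : ℕ, l.Prime ∧ l ∉ S ∧ ∃ A : ValuationSubring (AlgebraicClosure ℚ), A.LiesOverPrime l ∧
      ∃ σ : GalQb, A.IsFrobeniusAt σ l ∧ ∃ k : ℕ, D.galMat n g = D.galMat n (σ ^ k) ∧
        (repMat ρ b g).map (Ideal.Quotient.mk (maximalIdeal O ^ n)) =
          (repMat ρ b (σ ^ k)).map (Ideal.Quotient.mk (maximalIdeal O ^ n)) ∧
        TraceFn.cycExp p n g = TraceFn.cycExp p n (σ ^ k) := by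
  obtain ⟨L₁, hL₁, h₁⟩ := HK.torsionFiniteLevel N p n
  obtain ⟨L₂, hL₂, h₂⟩ := ρ.isAdicContinuous n
  obtain ⟨L₃, hL₃, h₃⟩ := TraceFn.exists_level_cycExp p n
  obtain ⟨l, hl, hlS, A, hA, σ, hσ, k, hk⟩ :=
    GAL.exists_frobenius_pow_on ((L₁ ⊔ L₂) ⊔ L₃) inferInstance g S
  refine ⟨l, hl, hlS, A, hA, σ, hσ, k, ?_, ?_, ?_⟩
  · exact CondLevel.eq_of_finiteLevel (χ := D.galMat n)
      (fun τ hτ => D.galMat_eq_one (h₁ τ hτ))
      fun x hx => (hk x (le_sup_left (b := L₃) (le_sup_left (b := L₂) hx))).symm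
  · let q : Matrix (Fin 2) (Fin 2) O →* Matrix (Fin 2) (Fin 2) (O ⧸ maximalIdeal O ^ n) :=
      (RingHom.mapMatrix (m := Fin 2) (Ideal.Quotient.mk (maximalIdeal O ^ n))).toMonoidHom
    refine CondLevel.eq_of_finiteLevel (χ := q.comp (repMat ρ b)) (fun τ hτ => ?_)
      fun x hx => (hk x (le_sup_left (b := L₃) (le_sup_right (a := L₁) hx))).symm
    have hcoord : ∀ x ∈ (maximalIdeal O ^ n) • (⊤ : Submodule O ρ.V), ∀ i,
        b.coord i x ∈ maximalIdeal O ^ n := fun x hx i =>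
      Submodule.smul_induction_on hx
        (fun a ha w _ => by rw [map_smul, smul_eq_mul]; exact Ideal.mul_mem_right _ _ ha)
        (fun x y hx hy => by rw [map_add]; exact Ideal.add_mem _ hx hy)
    ext i j
    rw [← map_one q]
    refine Ideal.Quotient.eq.mpr ?_
    have h := hcoord _ (h₂ τ hτ (b j)) i
    rw [map_sub, Module.Basis.coord_apply, Module.Basis.coord_apply, b.repr_self,
      Finsupp.single_apply] at h
    rw [show repMat ρ b τ i j = b.repr (ρ.ρ τ (b j)) i from LinearMap.toMatrix_apply b b _ i j,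
      Matrix.one_apply]
    simpa only [eq_comm (a := i)] using h
  · exact CondLevel.eq_of_finiteLevel h₃
      fun x hx => (hk x (le_sup_right (a := L₁ ⊔ L₂) hx)).symm

variable [Algebra ℤ_[p] O]

theorem map_tateO_eq_of_galMat_eq (hpO : (p : O) ∈ maximalIdeal O) (D : HK.TorsionCoords N p)
    {n : ℕ} {g h : GalQb} (e : D.galMat n g = D.galMat n h) :
    (tateO (O := O) D g).map (Ideal.Quotient.mk (maximalIdeal O ^ n)) =
      (tateO (O := O) D h).map (Ideal.Quotient.mk (maximalIdeal O ^ n)) := by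
  rw [← D.tateMat_mod, ← D.tateMat_mod] at e
  ext i j
  refine Ideal.Quotient.eq.mpr ?_
  have hmem : D.tateMat g i j - D.tateMat h i j ∈ RingHom.ker (PadicInt.toZModPow n) := by
    rw [RingHom.mem_ker, map_sub, sub_eq_zero]
    exact congrFun (congrFun e i) j
  rw [PadicInt.ker_toZModPow, Ideal.mem_span_singleton] at hmem
  obtain ⟨c, hc⟩ := hmem
  show algebraMap ℤ_[p] O (D.tateMat g i j) - algebraMap ℤ_[p] O (D.tateMat h i j) ∈ _
  rw [← map_sub, hc, map_mul, map_pow, map_natCast]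
  exact Ideal.mul_mem_right _ _ (Ideal.pow_mem_pow hpO n)

variable (χ : CuspForm.heckeAlgebra N 2 (↑S : Set ℕ) →+* O)
  (hNS : ∀ q : ℕ, q.Prime → q ∣ N → q ∈ S) (hpS : p ∈ S)
  (hρ : ∀ (l : ℕ) (hl : l.Prime) (hlN : ¬ l ∣ N) (hlS : l ∉ (↑S : Set ℕ)),
    ∀ A : ValuationSubring (AlgebraicClosure ℚ), A.LiesOverPrime l →
      ∀ σ : GalQb, A.IsFrobeniusAt σ l →
        LinearMap.charpoly (ρ.ρ σ) = Polynomial.X ^ 2 -
          Polynomial.C (χ (CuspForm.heckeAlgebra.T hl hlN hlS)) * Polynomial.X +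
            Polynomial.C ((l : O)))

include hNS hρ

theorem trace_det_frobenius {l : ℕ} (hl : l.Prime) (hlS : l ∉ S)
    {A : ValuationSubring (AlgebraicClosure ℚ)} (hA : A.LiesOverPrime l) {σ : GalQb}
    (hσ : A.IsFrobeniusAt σ l) :
    LinearMap.trace O ρ.V (ρ.ρ σ) = χ (CuspForm.heckeAlgebra.T hl
      (fun h => hlS (hNS l hl h)) (fun h => hlS (Finset.mem_coe.mp h))) ∧
      LinearMap.det (ρ.ρ σ) = (l : O) :=
  CondLevel.trace_det_of_charpoly ρ.finrank_eq _ (hρ l hl _ _ A hA σ hσ)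

include hpS

theorem eigenAct_sq_frobenius (hquad : GAL.TorsionQuadratic N p) (D : HK.TorsionCoords N p) {l : ℕ}
    (hl : l.Prime) (hlS : l ∉ S)
    {A : ValuationSubring (AlgebraicClosure ℚ)} (hA : A.LiesOverPrime l) {σ : GalQb}
    (hσ : A.IsFrobeniusAt σ l) :
    eigenAct χ D σ ^ 2 = LinearMap.trace O ρ.V (ρ.ρ σ) • eigenAct χ D σ -
      LinearMap.det (ρ.ρ σ) • (1 : Module.End O (eigenY χ)) := by
  have hlN : ¬ l ∣ N := fun h => hlS (hNS l hl h)
  have hlS' : l ∉ (↑S : Set ℕ) := fun h => hlS (Finset.mem_coe.mp h)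
  obtain ⟨ht, hd⟩ := trace_det_frobenius ρ χ hNS hρ hl hlS hA hσ
  rw [ht, hd]
  let L : Nat.Primes := ⟨l, hl⟩
  have : Fact (L : ℕ).Prime := ⟨hl⟩
  have hrep : HK.heckeRep N (TraceFn.awayToFull N S (CuspForm.heckeAlgebra.T hl hlN hlS')) =
      HK.heckeMatZ N L := by
    rw [← HK.heckeRep_heckeFormsGen, CuspForm.heckeFormsGen_of_not_dvd (ℓ := L) hlN]
    rfl
  have hlNp : ¬ l ∣ N * p := fun h => (hl.dvd_mul.mp h).elim hlN fun h' =>
    hlS (((Nat.prime_dvd_prime_iff_eq hl Fact.out).mp h') ▸ hpS)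
  have hq := congrArg ((algebraMap ℤ_[p] O).mapMatrix :
    Matrix (Fin (MF.ParHom.parRank N)) (Fin (MF.ParHom.parRank N)) ℤ_[p] →+* _)
    (D.tateMat_quad L fun x hx => hquad l hl hlNp A hA σ hσ x hx)
  rw [Nat.cast_smul_eq_nsmul, map_add, map_sub, map_mul, map_mul, map_nsmul, map_one, map_zero,
    RingHom.mapMatrix_apply, RingHom.mapMatrix_apply, ← tateO_apply, map_castMat_padic] at hq
  refine LinearMap.ext fun y => Subtype.ext ?_
  have hmem := tateO_mulVec_mem χ D σ y.2 (CuspForm.heckeAlgebra.T hl hlN hlS')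
  rw [hrep] at hmem
  have h1 := congrArg (· *ᵥ y.1) hq
  simp only [Matrix.add_mulVec, Matrix.sub_mulVec, Matrix.zero_mulVec, ← Matrix.mulVec_mulVec,
    Matrix.smul_mulVec, Matrix.one_mulVec, hmem] at h1
  show tateO D σ *ᵥ (tateO D σ *ᵥ y.1) = _ • (tateO D σ *ᵥ y.1) - (l : O) • y.1
  rw [Nat.cast_smul_eq_nsmul]
  linear_combination (norm := module) h1

theorem eigenAct_quad (hpO : (p : O) ∈ maximalIdeal O) (hquad : GAL.TorsionQuadratic N p)
    (D : HK.TorsionCoords N p) (g : GalQb) :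
    eigenAct χ D g * eigenAct χ D g = (repMat ρ b g).trace • eigenAct χ D g -
      (repMat ρ b g).det • (1 : Module.End O (eigenY χ)) := by
  refine LinearMap.ext fun y => Subtype.ext (funext fun i => eq_of_forall_mk_pow fun n => ?_)
  obtain ⟨l, hl, hlS, A, hA, σ, hσ, k, e₁, e₂, -⟩ := exists_frobenius_pow_near ρ b D S g n
  have h := CondLevel.pow_quadratic
    (eigenAct_sq_frobenius ρ χ hNS hpS hρ hquad D hl hlS hA hσ) k
  rw [← CondLevel.trace_pow_eq ρ.finrank_eq, ← map_pow LinearMap.det, ← map_pow ρ.ρ σ k,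
    ← map_pow (eigenAct χ D) σ k, ← repMat_trace ρ b, ← repMat_det ρ b, sq] at h
  set q := Ideal.Quotient.mk (maximalIdeal O ^ n)
  have key : ∀ g' : GalQb, q (((eigenAct χ D g' * eigenAct χ D g') y).1 i) -
      q ((((repMat ρ b g').trace • eigenAct χ D g' -
        (repMat ρ b g').det • (1 : Module.End O (eigenY χ))) y).1 i) =
      ((tateO D g').map q *ᵥ ((tateO D g').map q *ᵥ (q ∘ y.1))) i -
        (((repMat ρ b g').map q).trace * ((tateO D g').map q *ᵥ (q ∘ y.1)) i -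
          ((repMat ρ b g').map q).det * q (y.1 i)) := by
    intro g'
    show q ((tateO D g' *ᵥ (tateO D g' *ᵥ y.1)) i) -
      q ((repMat ρ b g').trace * (tateO D g' *ᵥ y.1) i -
        (repMat ρ b g').det * y.1 i) = _
    have hv : q ∘ (tateO D g' *ᵥ y.1) = (tateO D g').map q *ᵥ (q ∘ y.1) :=
      funext fun j => RingHom.map_mulVec q _ _ j
    rw [RingHom.map_mulVec, hv, map_sub, map_mul, map_mul, RingHom.map_mulVec q _ y.1,
      RingHom.map_det, RingHom.mapMatrix_apply, AddMonoidHom.map_trace q]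
  rw [← sub_eq_zero, key g, map_tateO_eq_of_galMat_eq hpO D e₁, e₂, ← key (σ ^ k), h, sub_self]

omit [Algebra ℤ_[p] O] in
theorem det_frobenius_eq (hpO : (p : O) ∈ maximalIdeal O) {r : ℕ} (hr : r.Prime) (hrp : r ≠ p)
    {A : ValuationSubring (AlgebraicClosure ℚ)} (hA : A.LiesOverPrime r) {σ₀ : GalQb}
    (hσ₀ : A.IsFrobeniusAt σ₀ r) : LinearMap.det (ρ.ρ σ₀) = (r : O) := by
  refine eq_of_forall_mk_pow fun n => ?_
  obtain ⟨l, hl, hlS, B, hB, σ, hσ, k, -, e₂, e₃⟩ :=
    exists_frobenius_pow_near ρ (Module.finBasisOfFinrankEq O ρ.V ρ.finrank_eq)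
      (HK.tateCoords N p) S σ₀ n
  have hd := congrArg Matrix.det e₂
  rw [← RingHom.mapMatrix_apply, ← RingHom.mapMatrix_apply, ← RingHom.map_det, ← RingHom.map_det,
    repMat_det, repMat_det, map_pow ρ.ρ, map_pow,
    (trace_det_frobenius ρ χ hNS hρ hl hlS hB hσ).2] at hd
  rw [hd, ← Nat.cast_pow]
  rw [TraceFn.cycExp_frobenius hr hrp hA hσ₀, map_pow,
    TraceFn.cycExp_frobenius hl (fun h => hlS (by rwa [h])) hB hσ, ← Nat.cast_pow,
    ZMod.natCast_eq_natCast_iff, Nat.modEq_iff_dvd] at e₃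
  obtain ⟨c, hc⟩ := e₃
  refine Ideal.Quotient.eq.mpr ?_
  have hc' := congrArg (Int.cast : ℤ → O) hc
  push_cast at hc' ⊢
  rw [hc']
  exact Ideal.mul_mem_right _ _ (Ideal.pow_mem_pow hpO n)

omit [Algebra ℤ_[p] O] hpS in
theorem exists_not_eisenstein (hirr : ρ.residual.IsAbsolutelyIrreducible) :
    ∃ (l : ℕ) (hl : l.Prime) (hlS : l ∉ S), χ (CuspForm.heckeAlgebra.T hl
      (fun h => hlS (hNS l hl h)) (fun h => hlS (Finset.mem_coe.mp h))) ≠ (l : O) + 1 := by
  by_contra hcon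
  push Not at hcon
  set K := AlgebraicClosure (ResidueField O)
  set V := ρ.residual.baseChange K
  have hfix : ∀ g, ∃ v : V.V, v ≠ 0 ∧ V.ρ g v = v := by
    intro g
    obtain ⟨L, hL, hLfix⟩ := V.factorsThroughFiniteLevel
    obtain ⟨l, hl, hlS, A, hA, σ, hσ, k, hk⟩ := GAL.exists_frobenius_pow_on L hL g S
    obtain ⟨ht, hd⟩ := trace_det_frobenius ρ χ hNS hρ hl hlS hA hσ
    rw [hcon l hl hlS] at ht
    obtain ⟨v, hv, hσv⟩ := LR.exists_fixed_of_trace_det V.finrank_eq (V.ρ σ) (by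
      show LinearMap.trace K _ (((ρ.ρ σ).baseChange (ResidueField O)).baseChange K) =
        LinearMap.det (((ρ.ρ σ).baseChange (ResidueField O)).baseChange K) + 1
      rw [LinearMap.trace_baseChange, LinearMap.trace_baseChange, LinearMap.det_baseChange,
        LinearMap.det_baseChange, ht, hd, map_add, map_add, map_one, map_one])
    refine ⟨v, hv, ?_⟩
    rw [CondLevel.eq_of_finiteLevel (χ := V.ρ) hLfix fun x hx => (hk x hx).symm]
    exact LR.fixed_pow _ σ v hσv k
  obtain ⟨W, hW, hW', hst⟩ := LR.exists_stable_of_forall_fixed V.finrank_eq V.ρ hfix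
  exact (hirr W hst).elim hW hW'

end Approx

/-- **An eigensystem new at `r` with values in characteristic zero has a representation ramified
at `r`.** -/
theorem not_isUnramifiedAt_of_new {M r p : ℕ} [NeZero M] [NeZero r] [Fact p.Prime] (hp2 : p ≠ 2)
    (hr : r.Prime) (hrM : ¬ r ∣ M) (hrp : r ≠ p) (S : Finset ℕ) (hpS : p ∈ S)
    (hS : ∀ l : ℕ, l.Prime → l ∣ M * r → l ∈ S) (hquad : GAL.TorsionQuadratic (M * r) p)
    (O' : Type) [CommRing O'] [IsDomain O'] [IsDiscreteValuationRing O']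
    [IsAdicComplete (maximalIdeal O') O'] [Finite (ResidueField O')] [CharZero O']
    (hpO' : (p : O') ∈ maximalIdeal O')
    (χ : CuspForm.heckeAlgebra (M * r) 2 (↑S : Set ℕ) →+* O')
    (hnew : ∀ θ : CuspForm.heckeAlgebra M 2 (↑S : Set ℕ) →+* O',
      ∃ (l : ℕ) (hl : l.Prime) (hlM : ¬ l ∣ M * r) (hlS : l ∉ (↑S : Set ℕ)),
        θ (CuspForm.heckeAlgebra.T hl (fun h => hlM (h.mul_right r)) hlS) ≠
          χ (CuspForm.heckeAlgebra.T hl hlM hlS))
    (ρ : GaloisRepAdic O')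
    (hρ : ∀ (l : ℕ) (hl : l.Prime) (hlM : ¬ l ∣ M * r) (hlS : l ∉ (↑S : Set ℕ)),
      ∀ A : ValuationSubring (AlgebraicClosure ℚ), A.LiesOverPrime l →
        ∀ σ : GalQb, A.IsFrobeniusAt σ l →
          LinearMap.charpoly (ρ.ρ σ) = Polynomial.X ^ 2 -
            Polynomial.C (χ (CuspForm.heckeAlgebra.T hl hlM hlS)) * Polynomial.X +
              Polynomial.C ((l : O')))
    (hirr : ρ.residual.IsAbsolutelyIrreducible) :
    ¬ ρ.IsUnramifiedAt r := by
  intro hunr
  obtain ⟨ψ, hψ⟩ := exists_padic_finite_free O' (p := p) hpO'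
  set_option linter.style.haveILetI false in
  letI := ψ.toAlgebra
  obtain ⟨-, hfree⟩ := hψ
  have hMS : ∀ q : ℕ, q.Prime → q ∣ M → q ∈ S := fun q hq h => hS q hq (h.mul_right r)
  obtain ⟨P, hP, hP'⟩ : ∃ P, TraceFn.awayEval M S hMS P = 0 ∧
      χ (TraceFn.awayEval (M * r) S hS P) ≠ 0 := by
    by_contra hne
    push Not at hne
    obtain ⟨l, hl, hlMr, hlS, h⟩ := hnew (RingHom.liftOfSurjective (TraceFn.awayEval M S hMS)
      (TraceFn.awayEval_surjective hMS) ⟨χ.comp (TraceFn.awayEval (M * r) S hS), fun P hP =>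
        hne P hP⟩)
    refine h ?_
    rw [← TraceFn.awayEval_awayGen M S hMS hl (fun h => hlMr (h.mul_right r)) hlS,
      ← TraceFn.awayEval_awayGen (M * r) S hS hl hlMr hlS]
    exact RingHom.liftOfSurjective_comp_apply _ _ _ _
  obtain ⟨l, hl, hlS, hne⟩ := exists_not_eisenstein ρ χ hS hρ hirr
  set b := Module.finBasisOfFinrankEq O' ρ.V ρ.finrank_eq
  set D := HK.tateCoords (M * r) p
  obtain ⟨y₀, hy₀⟩ := exists_mem_eigenY_ne_zero χ
  obtain ⟨i₀, hi₀⟩ := Function.ne_iff.mp hy₀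
  have h : IsEigenPoints (repMat ρ b) (eigenAct χ D)
      (fun j : ℕ × (O' →ₗ[ℤ_[p]] ℤ_[p]) => coordPt χ D j.1 j.2) (fun j => p ^ j.1) :=
    { quad := eigenAct_quad ρ b χ hS hpS hρ hpO' hquad D
      span := TraceFn.span_range_toMatrix_eq_top ρ hirr b
      two := by
        by_contra h2
        have h2' : (2 : O') ∈ maximalIdeal O' := h2
        obtain ⟨m, hm⟩ := (Fact.out : p.Prime).odd_of_ne_two hp2
        refine (maximalIdeal.isMaximal O').ne_top ((Ideal.eq_top_iff_one _).mpr ?_)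
        have h1 := Ideal.sub_mem _ hpO' (Ideal.mul_mem_right (m : O') _ h2')
        rwa [hm, Nat.cast_add, Nat.cast_mul, Nat.cast_one, Nat.cast_ofNat, add_sub_cancel_left]
          at h1
      faith := fun a ha =>
        (mul_eq_zero.mp (congrFun (congrArg Subtype.val (ha y₀)) i₀)).resolve_right hi₀
      inj := fun y hy => eq_zero_of_coordPt χ D y fun k lam => hy (k, lam)
      galois := fun j g y => coordPt_galois χ D j.1 j.2 g y
      coprime := fun j => Nat.Coprime.pow_left _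
        ((Nat.coprime_primes Fact.out hr).mpr (Ne.symm hrp))
      torsion := fun j y => coordPt_torsion χ D j.1 j.2 y }
  have hc : χ (TraceFn.awayEval (M * r) S hS (mazurOp 12 P l)) ≠ 0 := by
    rw [mazurOp, LowerSq.eisOp, map_mul, map_mul, map_mul, map_mul, map_sub, map_sub,
      eq_intCast (MvPolynomial.C : ℤ →+* TraceFn.AwayHecke S), map_intCast, map_intCast,
      map_natCast, map_natCast,
      TraceFn.awayEval_awayGen (M * r) S hS hl (fun h => hlS (hS l hl h))
        (fun h => hlS (Finset.mem_coe.mp h))]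
    refine mul_ne_zero hP' (mul_ne_zero (Nat.cast_ne_zero.mpr (by norm_num)) (sub_ne_zero.mpr ?_))
    push_cast
    exact hne
  obtain ⟨A, hA⟩ := Deform.exists_valuationSubring_liesOverPrime hr
  obtain ⟨σ, hσ⟩ := Deform.exists_isFrobeniusAt hr hA
  obtain ⟨s, hs, hss⟩ := h.exists_scalar hr hrM hS 12 (Or.inl rfl) P
    (jHecke_eq_zero_of_awayEval hMS hP) hl hlS _
    (fun j y => coordPt_hecke χ D hS j.1 j.2 _ y)
    (fun a ha => (mul_eq_zero.mp ha).resolve_left hc)
    (fun a ha => (mul_eq_zero.mp ha).resolve_left (Nat.cast_ne_zero.mpr hr.ne_zero))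
    hA (fun g hg => by
      show LinearMap.toMatrixAlgEquiv b (ρ.ρ g) = 1
      rw [hunr A hA g hg, map_one]) hσ
  have hdet := det_frobenius_eq ρ χ hS hpS hρ hpO' hr hrp hA hσ
  rw [← repMat_det ρ b, hs, Matrix.det_smul, Matrix.det_one, Fintype.card_fin, mul_one, sq,
    hss] at hdet
  have h1 : r * r = r * 1 := by
    rw [mul_one]
    exact_mod_cast hdet
  exact hr.one_lt.ne' (Nat.eq_of_mul_eq_mul_left hr.pos h1)

end Fermat.Agent.LL.Mazur
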