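import Fermat.Agent.BAD.Gauss
import Fermat.Agent.RED.Specialization.NormExpansion

/-!
# Gauss reduction of the norm series

`GRed π y φ` says that the series `y` is integral with reduction `φ`.  The series
`y(q^(l²)) ∏ y(ζ^i q)` reduces to the same expression in the reduction, and a scalable series `z`
with `z(q^l)` a unit is a unit.
-/

set_option autoImplicit false

noncomputable section

open ModularCurve Fermat.Agent.RED.Spec Fermat.Agent.BAD

namespace Fermat.Agent.LL.Mazur

variable {L k : Type*} [Field L] [Field k] {A : ValuationSubring L} {π : A →+* k}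

/-- `y` is integral for the Gauss valuation with reduction `φ`. -/
def GRed (π : A →+* k) (y : LaurentSeries L) (φ : LaurentSeries k) : Prop :=
  ∃ a b, Gauss.IsFrac π a b y ∧ φ = coeffMap π a / coeffMap π b

theorem GRed.unique {y : LaurentSeries L} {φ ψ : LaurentSeries k} (h : GRed π y φ)
    (h' : GRed π y ψ) : φ = ψ := by
  obtain ⟨a, b, h, rfl⟩ := h
  obtain ⟨a', b', h', rfl⟩ := h'
  exact h.red_congr h'

theorem GRed.mem {y : LaurentSeries L} {φ : LaurentSeries k} (h : GRed π y φ) :
    y ∈ Gauss.gaussRing π :=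
  ⟨h.choose, h.choose_spec.choose, h.choose_spec.choose_spec.1⟩

theorem gRed_gaussRed {y : LaurentSeries L} (hy : y ∈ Gauss.gaussRing π) :
    GRed π y (Gauss.gaussRed π ⟨y, hy⟩) := by
  obtain ⟨a, b, h⟩ := hy
  exact ⟨a, b, h, Gauss.gaussRed_eq _ h⟩

theorem GRed.gaussRed_eq {y : LaurentSeries L} {φ : LaurentSeries k} (h : GRed π y φ) :
    Gauss.gaussRed π ⟨y, h.mem⟩ = φ :=
  (gRed_gaussRed h.mem).unique h

theorem gRed_one : GRed π (1 : LaurentSeries L) 1 :=
  ⟨1, 1, ⟨by rw [map_one]; exact one_ne_zero, by simp⟩, by simp⟩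

theorem GRed.mul {y z : LaurentSeries L} {φ ψ : LaurentSeries k} (h : GRed π y φ)
    (h' : GRed π z ψ) : GRed π (y * z) (φ * ψ) := by
  obtain ⟨a, b, h, rfl⟩ := h
  obtain ⟨a', b', h', rfl⟩ := h'
  exact ⟨_, _, h.mul h', by rw [map_mul, map_mul, div_mul_div_comm]⟩

theorem GRed.pow {y : LaurentSeries L} {φ : LaurentSeries k} (h : GRed π y φ) (n : ℕ) :
    GRed π (y ^ n) (φ ^ n) := by
  induction n with
  | zero => simpa using gRed_one
  | succ n ih => rw [pow_succ, pow_succ]; exact ih.mul h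

theorem GRed.prod {ι : Type*} (s : Finset ι) {y : ι → LaurentSeries L} {φ : ι → LaurentSeries k}
    (h : ∀ i ∈ s, GRed π (y i) (φ i)) : GRed π (∏ i ∈ s, y i) (∏ i ∈ s, φ i) := by
  induction s using Finset.cons_induction with
  | empty => simpa using gRed_one
  | cons i s hi ih =>
    rw [Finset.prod_cons, Finset.prod_cons]
    exact (h i (Finset.mem_cons_self i s)).mul
      (ih fun j hj => h j (Finset.mem_cons_of_mem hj))

theorem gRed_algebraMap (a : A) :
    GRed π (algebraMap L (LaurentSeries L) (a : L)) (algebraMap k (LaurentSeries k) (π a)) :=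
  Gauss.gaussRed_algebraMap (π := π) a ▸ gRed_gaussRed _

theorem GRed.qExpand {y : LaurentSeries L} {φ : LaurentSeries k} (h : GRed π y φ) (d : ℕ)
    [NeZero d] : GRed π (qExpand L d y) (ModularCurve.qExpand k d φ) := by
  obtain ⟨a, b, h, rfl⟩ := h
  refine ⟨ModularCurve.qExpand A d a, ModularCurve.qExpand A d b, ⟨?_, ?_⟩, ?_⟩
  · rw [coeffMap_qExpand]
    exact fun h0 => h.1 ((ModularCurve.qExpand k d).injective (h0.trans (map_zero _).symm))
  · rw [coeffMap_qExpand, coeffMap_qExpand, ← map_mul, h.2]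
  · rw [coeffMap_qExpand, coeffMap_qExpand, map_div₀]

theorem twist_eq_zero {u : kˣ} {x : LaurentSeries k} (h : twist u x = 0) : x = 0 := by
  ext n
  have := congrArg (fun s : LaurentSeries k => s.coeff n) h
  rw [twist_coeff, HahnSeries.coeff_zero, mul_eq_zero] at this
  exact this.resolve_left (Units.ne_zero _)

theorem GRed.twist {y : LaurentSeries L} {φ : LaurentSeries k} (h : GRed π y φ) (u : Aˣ) :
    GRed π (RED.Spec.twist (Units.map A.subtype u) y)
      (RED.Spec.twist (Units.map π u) φ) := by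
  obtain ⟨a, b, h, rfl⟩ := h
  refine ⟨RED.Spec.twist u a, RED.Spec.twist u b, ⟨?_, ?_⟩, ?_⟩
  · rw [coeffMap_twist]
    exact fun h0 => h.1 (twist_eq_zero h0)
  · rw [coeffMap_twist, coeffMap_twist, ← h.2, map_mul]
  · rw [coeffMap_twist, coeffMap_twist, map_div₀]

/-- `y(q^(l²)) ∏ y(ζ^i q)`. -/
def normSeries (l : ℕ) [NeZero l] (ζ : kˣ) : LaurentSeries k →* LaurentSeries k where
  toFun φ := ModularCurve.qExpand k (l * l) φ * ∏ i : Fin l, RED.Spec.twist (ζ ^ (i : ℕ)) φ
  map_one' := by simp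
  map_mul' φ ψ := by simp only [map_mul, Finset.prod_mul_distrib, mul_mul_mul_comm]

theorem normSeries_apply (l : ℕ) [NeZero l] (ζ : kˣ) (φ : LaurentSeries k) :
    normSeries l ζ φ =
      ModularCurve.qExpand k (l * l) φ * ∏ i : Fin l, RED.Spec.twist (ζ ^ (i : ℕ)) φ := rfl

theorem normSeries_ne_zero (l : ℕ) [NeZero l] (ζ : kˣ) {φ : LaurentSeries k} (h : φ ≠ 0) :
    normSeries l ζ φ ≠ 0 := by
  rw [normSeries_apply]
  refine mul_ne_zero (fun h0 => h ((qExpand k (l * l)).injective (h0.trans (map_zero _).symm)))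
    (Finset.prod_ne_zero_iff.mpr fun i _ h0 => h (twist_eq_zero h0))

theorem GRed.normSeries {y : LaurentSeries L} {φ : LaurentSeries k} (h : GRed π y φ) (l : ℕ)
    [NeZero l] (ζ : Aˣ) :
    GRed π (ModularCurve.qExpand L (l * l) y *
      ∏ i : Fin l, RED.Spec.twist (Units.map A.subtype ζ ^ (i : ℕ)) y)
      (LL.Mazur.normSeries l (Units.map π ζ) φ) := by
  refine (h.qExpand (l * l)).mul (GRed.prod _ fun i _ => ?_)
  have := h.twist (ζ ^ (i : ℕ))
  rwa [map_pow, map_pow] at this

/-- A scalable series which becomes integral after `q ↦ q^d` is integral. -/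
theorem GRed.of_qExpand (hπ : Function.Surjective π) {y : LaurentSeries L} {d : ℕ} [NeZero d]
    {χ : LaurentSeries k} (h : GRed π (ModularCurve.qExpand L d y) χ) {c : L}
    {ψ : LaurentSeries k} (hc : GRed π (algebraMap L (LaurentSeries L) c * y) ψ) (hψ : ψ ≠ 0) :
    ∃ φ, GRed π y φ ∧ ModularCurve.qExpand k d φ = χ := by
  have h' : GRed π (algebraMap L (LaurentSeries L) c * ModularCurve.qExpand L d y)
      (ModularCurve.qExpand k d ψ) := by
    have := hc.qExpand d
    rwa [map_mul, algebraMap_laurentSeries_eq_single, qExpand_single, mul_zero,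
      ← algebraMap_laurentSeries_eq_single] at this
  have hψd : ModularCurve.qExpand k d ψ ≠ 0 := fun h0 =>
    hψ ((ModularCurve.qExpand k d).injective (h0.trans (map_zero _).symm))
  have hc0 : c ≠ 0 := fun h0 => hψd (by
    rw [h0, map_zero, zero_mul] at h'
    refine (GRed.unique h' ?_)
    exact ⟨0, 1, ⟨by simp, by simp⟩, by simp⟩)
  have hcA : c⁻¹ ∈ A := by
    by_contra hci
    have hc1 : c ∈ A := ((A.mem_or_inv_mem c).resolve_right hci)
    have hπc : π ⟨c, hc1⟩ = 0 := by
      by_contra hne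
      have hker : RingHom.ker π = IsLocalRing.maximalIdeal A :=
        IsLocalRing.eq_maximalIdeal (RingHom.ker_isMaximal_of_surjective π hπ)
      have hu : IsUnit (⟨c, hc1⟩ : A) := by
        by_contra hu
        exact hne (RingHom.mem_ker.mp (hker ▸ hu))
      obtain ⟨v, hv⟩ := hu.exists_right_inv
      have hv' : c * (v : L) = 1 := congrArg Subtype.val hv
      exact hci (inv_eq_of_mul_eq_one_right hv' ▸ v.2)
    refine hψd (h'.unique ?_)
    have := (gRed_algebraMap (π := π) ⟨c, hc1⟩).mul h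
    rwa [hπc, map_zero, zero_mul] at this
  refine ⟨algebraMap k (LaurentSeries k) (π ⟨c⁻¹, hcA⟩) * ψ, ?_, ?_⟩
  · have := (gRed_algebraMap (π := π) ⟨c⁻¹, hcA⟩).mul hc
    rwa [← mul_assoc, ← map_mul, inv_mul_cancel₀ hc0, map_one, one_mul] at this
  · refine GRed.unique (y := ModularCurve.qExpand L d y) ?_ h
    have := (gRed_algebraMap (π := π) ⟨c⁻¹, hcA⟩).mul h'
    rw [← mul_assoc, ← map_mul, inv_mul_cancel₀ hc0, map_one, one_mul] at this
    rwa [map_mul, algebraMap_laurentSeries_eq_single, qExpand_single, mul_zero,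
      ← algebraMap_laurentSeries_eq_single]

end Fermat.Agent.LL.Mazur
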