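import Fermat.Agent.CondLevel.Compare
import Fermat.Agent.CondLevel.LevelMin
import Fermat.Agent.Eigen.Residue
import Fermat.Agent.LL.Mazur.Lower
import Fermat.Agent.S35

/-!
# Removing a harmless prime from the level

A prime `l` exactly dividing the level of a newform has Frobenius traces `± (l + 1)` in the
representation of the form. So a good prime `l` of a curve with `a_l ^ 2 ≢ (l + 1) ^ 2` modulo `p`
does not divide the level of a congruent newform. No auxiliary prime is needed at `p = 3`.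
-/

set_option autoImplicit false

noncomputable section

open IsLocalRing Polynomial Fermat.Agent.CondLevel
open scoped WeierstrassCurve.Affine

namespace Fermat.Agent.LL.Mazur

local notation "GQ" => AlgebraicClosure ℚ ≃ₐ[ℚ] AlgebraicClosure ℚ

set_option maxHeartbeats 1000000 in
-- the coefficient ring of the congruence and the attached representation
/-- A harmless prime does not divide exactly the level of a congruent newform. -/
theorem sq_dvd_level_of_harmless (W : WeierstrassCurve ℤ) (hΔ : W.Δ ≠ 0) {p : ℕ} [Fact p.Prime]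
    {M l : ℕ} [NeZero M] (hl : l.Prime) (hlp : l ≠ p) (hgood : W.IsGoodPrimeFor l)
    (hne : (W.apOfModel l : ZMod p) ^ 2 ≠ ((l : ZMod p) + 1) ^ 2)
    {g : CuspForm (CongruenceSubgroup.Gamma0 M) 2} (hg : g.IsNewform) (S : Finset ℕ)
    (hpS : p ∈ S) (hMS : ∀ r : ℕ, r.Prime → r ∣ M → r ∈ S)
    (hbad : ∀ ℓ : ℕ, ℓ.Prime → (ℓ : ℤ) ∣ W.Δ → ℓ ∈ S) (𝔪 : Ideal (integralClosure ℤ ℂ))
    [𝔪.IsMaximal] (hp𝔪 : (p : integralClosure ℤ ℂ) ∈ 𝔪)
    (hcong : ∀ ℓ : ℕ, ℓ.Prime → ℓ ∉ S → ∃ a : integralClosure ℤ ℂ,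
      (a : ℂ) = ModularFormClass.qCoeff g ℓ ∧
        a - ((W.apOfModel ℓ : ℤ) : integralClosure ℤ ℂ) ∈ 𝔪)
    (hlM : l ∣ M) : l ^ 2 ∣ M := by
  by_contra hl2
  have hp : p.Prime := Fact.out
  have := MF.IntStruct.moduleFinite_heckeAlgebra M 2 (∅ : Set ℕ)
  have := MF.IntStruct.moduleFinite_heckeAlgebra M 2 (↑S : Set ℕ)
  let : Field (integralClosure ℤ ℂ ⧸ 𝔪) := Ideal.Quotient.field 𝔪
  have : CharP (integralClosure ℤ ℂ ⧸ 𝔪) p := Eigen.charP_quotient_maximal hp 𝔪 hp𝔪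
  obtain ⟨O, _, _, _, _, _, _, χ, ι, hpO, hker, -, hT⟩ :=
    Eigen.exists_point_of_eigenform hg.1 (↑S : Set ℕ) hp (Ideal.Quotient.mk 𝔪)
  let chig := Eigen.eigenChar hg.1 (↑S : Set ℕ)
  let iota : chig.range →+* O := RingHom.liftOfSurjective chig.rangeRestrict
    chig.rangeRestrict_surjective ⟨χ, by
      rw [RingHom.ker_rangeRestrict, ← hker]⟩
  have hiota : ∀ t, iota (chig.rangeRestrict t) = χ t := fun t =>
    RingHom.liftOfRightInverse_comp_apply _ _ _ _ t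
  have hmem : ∀ (ℓ : ℕ) (hℓ : ℓ.Prime) (hℓM : ¬ ℓ ∣ M) (hℓS : ℓ ∉ (↑S : Set ℕ)),
      χ (CuspForm.heckeAlgebra.T hℓ hℓM hℓS) - (W.apOfModel ℓ : O) ∈ maximalIdeal O := by
    intro ℓ hℓ hℓM hℓS
    rw [← residue_eq_zero_iff, map_sub, map_intCast, sub_eq_zero]
    refine ι.injective ?_
    obtain ⟨a, ha, hca⟩ := hcong ℓ hℓ (fun h => hℓS (Finset.mem_coe.mpr h))
    rw [hT ℓ hℓ hℓM hℓS, show Eigen.intCoeff hg.1 ℓ = a from Subtype.ext ha.symm, map_intCast,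
      ← map_intCast (Ideal.Quotient.mk 𝔪), Ideal.Quotient.mk_eq_mk_iff_sub_mem]
    exact hca
  obtain ⟨O'', _, _, _, _, _, _, _, _, hloc, -, ρ, hρ, hfrob⟩ := S35.result hg p S O hpO chig
    (fun ℓ hℓ hℓM hℓS => Eigen.eigenChar_T hg.1 _ hℓ hℓM hℓS) iota hpS hMS
  have hp'' : (p : O'') ∈ maximalIdeal O'' := by
    rw [← map_natCast (algebraMap O O'')]
    exact map_nonunit _ _ hpO
  have : CharP (ResidueField O'') p := charP_residueField p hp''
  obtain ⟨A, σ, hA, hσ⟩ := Galois.exists_place_isFrobeniusAt hl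
  have h1 := (residual_trace_det_eq W hΔ p ρ.residual S hpS hbad (by
    intro _ _ _ _ _ g' _ ℓ hℓ hℓS A hA hg'
    obtain ⟨ht, hd⟩ := trace_det_of_charpoly ρ.finrank_eq _
      (hρ ℓ hℓ (fun h => hℓS (hMS ℓ hℓ h)) (fun h => hℓS (Finset.mem_coe.mp h)) A hA g' hg')
    rw [charpoly_eq_of_finrank_two ρ.residual.finrank_eq,
      (trace_det_residual ρ g').1, (trace_det_residual ρ g').2, ht, hd, map_natCast]
    suffices h : residue O'' (algebraMap O O'' ((iota.comp chig.rangeRestrict)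
        (CuspForm.heckeAlgebra.T hℓ (fun h => hℓS (hMS ℓ hℓ h))
          (fun h => hℓS (Finset.mem_coe.mp h))))) = (W.apOfModel ℓ : ResidueField O'') by rw [h]
    rw [RingHom.comp_apply, hiota, ← sub_eq_zero, ← map_intCast (residue O''), ← map_sub,
      residue_eq_zero_iff, ← map_intCast (algebraMap O O''), ← map_sub]
    exact map_nonunit _ _ (hmem ℓ hℓ _ _)) σ).1
  rw [(frobenius_trace_det W hΔ hl (p := p) hlp hgood hA hσ).1, (trace_det_residual ρ σ).1] at h1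
  refine hne ((ZMod.castHom (dvd_refl p) (ResidueField O'')).injective ?_)
  rw [map_pow, map_pow, ← h1, map_add, map_natCast, map_one]
  rcases hfrob l hl hlp hlM hl2 A hA σ hσ with h | h
  · rw [(trace_det_of_charpoly ρ.finrank_eq _ h).1, map_add, map_natCast, map_one]
  · have h' : LinearMap.charpoly (ρ.ρ σ) =
        X ^ 2 - C (-((l : O'') + 1)) * X + C ((l : O'')) := by
      rw [h, map_neg, neg_mul, sub_neg_eq_add]
    rw [(trace_det_of_charpoly ρ.finrank_eq _ h').1, map_neg, map_add, map_natCast, map_one, neg_sq]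

/-- A harmless prime can be removed from the level. -/
theorem isResiduallyModularOfLevel_of_harmless (W : WeierstrassCurve ℤ) (hΔ : W.Δ ≠ 0) {p : ℕ}
    [Fact p.Prime] {M l : ℕ} (hM : M ≠ 0) (hl : l.Prime) (hlp : l ≠ p) (hlM : ¬ l ∣ M)
    (hgood : W.IsGoodPrimeFor l)
    (hne : (W.apOfModel l : ZMod p) ^ 2 ≠ ((l : ZMod p) + 1) ^ 2)
    (hmod : W.IsResiduallyModularOfLevel p (M * l)) : W.IsResiduallyModularOfLevel p M := by
  have hN0 : M * l ≠ 0 := mul_ne_zero hM hl.ne_zero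
  obtain ⟨f, 𝔪, hf, h𝔪, hp𝔪, hc⟩ := hmod
  obtain ⟨N, hNd, hN0', g, hg, hgf⟩ := exists_newform_of_eigenform hN0 f hf
  have : NeZero N := ⟨hN0'⟩
  set S : Finset ℕ := insert p ((M * l).primeFactors ∪ W.Δ.natAbs.primeFactors) with hS
  have hNS : ∀ r : ℕ, r.Prime → r ∣ M * l → r ∈ S := fun r hr h => Finset.mem_insert_of_mem
    (Finset.mem_union_left _ (Nat.mem_primeFactors.mpr ⟨hr, h, hN0⟩))
  have hbad : ∀ ℓ : ℕ, ℓ.Prime → (ℓ : ℤ) ∣ W.Δ → ℓ ∈ S := fun ℓ hℓ h => Finset.mem_insert_of_mem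
    (Finset.mem_union_right _ (Nat.mem_primeFactors.mpr
      ⟨hℓ, Int.natCast_dvd.mp h, Int.natAbs_ne_zero.mpr hΔ⟩))
  have hpS : p ∈ S := Finset.mem_insert_self _ _
  have hcong : ∀ ℓ : ℕ, ℓ.Prime → ℓ ∉ S → ∃ a : integralClosure ℤ ℂ,
      (a : ℂ) = ModularFormClass.qCoeff g ℓ ∧
        a - ((W.apOfModel ℓ : ℤ) : integralClosure ℤ ℂ) ∈ 𝔪 := fun ℓ hℓ hℓS => by
    obtain ⟨a, ha, hca⟩ := hc ℓ hℓ (fun h => hℓS (hbad ℓ hℓ h)) (fun h => hℓS (hNS ℓ hℓ h))
      fun e => hℓS (e ▸ hpS)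
    exact ⟨a, ha.trans (hgf ℓ hℓ fun h => hℓS (hNS ℓ hℓ h)).symm, hca⟩
  have hlN : ¬ l ∣ N := fun hd => by
    have h2 := (sq_dvd_level_of_harmless W hΔ hl hlp hgood hne hg S hpS
      (fun r hr h => hNS r hr (h.trans hNd)) hbad 𝔪 hp𝔪 hcong hd).trans hNd
    rw [sq] at h2
    exact hlM (Nat.dvd_of_mul_dvd_mul_right hl.pos h2)
  refine isResiduallyModularOfLevel_of_dvd W
    (((hl.coprime_iff_not_dvd.mpr hlN).symm).dvd_of_dvd_mul_right hNd) hM ?_
  exact isResiduallyModularOfLevel_of_congr residualAttachment W hΔ p hN0' hg.1 𝔪 hp𝔪 S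
    fun ℓ hℓ _ _ _ hℓS => hcong ℓ hℓ hℓS

end Fermat.Agent.LL.Mazur
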