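import Fermat.Agent.LL.Mazur.Rational
import Fermat.Agent.LL.Mazur.GaussHecke
import Fermat.Agent.BAD.Modular.Curve
import Fermat.Agent.LLp.Local.RatField
import Fermat.Agent.ECFormal.PlaceVal

/-!
# The two branches of `X₀(M r)` at `r` and their rational functions

The branches are the Gauss valuations of a function and of its image under `w_r`; inertia acts on
them with fixed field a field of rational functions with uniformiser `r`.
-/

set_option autoImplicit false
set_option linter.style.haveILetI false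
set_option synthInstance.maxHeartbeats 200000

noncomputable section

open AlgebraicCurve ModularCurve IsLocalRing Fermat.Agent.BAD Fermat.Agent.RED.Spec

namespace Fermat.Agent.LL.Mazur

local notation "Qb" => AlgebraicClosure ℚ

variable {M r : ℕ} [NeZero M] [NeZero r] (hr : r.Prime) (hrM : ¬ r ∣ M)

theorem wField_alpha (x : modularFunctionFieldBar M) :
    wField hr hrM (heckeAlphaBar Qb M r x) = heckeBetaBar Qb M r x := by
  refine DFunLike.congr_fun (algHom_ext_of_eq (modField_eq_adjoin_genSer (L := Qb) M)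
    (f := (wField hr hrM).toAlgHom.comp (heckeAlphaBar Qb M r)) (g := heckeBetaBar Qb M r) ?_) x
  rintro _ ⟨d, rfl⟩ hx
  haveI : NeZero d.1 := ⟨d.2.1.ne'⟩
  let d' : DivIdx (M * r) := ⟨d.1, d.2.1, d.2.2.trans (dvd_mul_right M r)⟩
  have e : heckeAlphaBar Qb M r ⟨_, hx⟩ = genFn d' := Subtype.ext rfl
  show wField hr hrM (heckeAlphaBar Qb M r ⟨_, hx⟩) = _
  rw [e, wField_genFn]
  refine Subtype.ext ((coe_heckeBetaBar M r ⟨genSer Qb d, hx⟩).symm ▸ ?_)
  haveI : NeZero (swapIdx hr d').1 := ⟨(swapIdx hr d').2.1.ne'⟩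
  show genSer Qb (swapIdx hr d') = qExpand Qb r (genSer Qb d)
  rw [genSer, genSer, qExpand_qExpand]
  exact qExpand_congr (coe_swapIdx_of_dvd hr (d := d') d.2.2) _

theorem wField_beta (x : modularFunctionFieldBar M) :
    wField hr hrM (heckeBetaBar Qb M r x) = heckeAlphaBar Qb M r x := by
  rw [← wField_alpha hr hrM, wField_wField]

/-- The second expansion is the first one after `w_r`. -/
theorem emb_one_eq (f : modularFunctionFieldBar (M * r)) :
    BAD.Modular.emb M hr hrM 1 f = (wField hr hrM f : LaurentSeries Qb) := by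
  refine DFunLike.congr_fun (BAD.Modular.algHom_ext_degen hr
    (f := BAD.Modular.emb M hr hrM 1)
    (g := (modularFunctionFieldBar (M * r)).val.comp (wField hr hrM).toAlgHom) ?_ ?_) f
  · intro x
    rw [BAD.Modular.emb_one_alpha]
    show _ = ((wField hr hrM (heckeAlphaBar Qb M r x) : modularFunctionFieldBar (M * r)) :
      LaurentSeries Qb)
    rw [wField_alpha, coe_heckeBetaBar]
  · intro x
    rw [BAD.Modular.emb_one_beta]
    show _ = ((wField hr hrM (heckeBetaBar Qb M r x) : modularFunctionFieldBar (M * r)) :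
      LaurentSeries Qb)
    rw [wField_beta, coe_heckeAlphaBar]

theorem smul_wField (g : Qb ≃ₐ[ℚ] Qb) (f : modularFunctionFieldBar (M * r)) :
    arithmeticGalois (modularFunctionFieldFull (M * r)) g • wField hr hrM f =
      wField hr hrM (arithmeticGalois (modularFunctionFieldFull (M * r)) g • f) :=
  (wField_arithmeticRingAut hr hrM g f).symm

theorem emb_wField (i : Fin 2) (f : modularFunctionFieldBar (M * r)) :
    BAD.Modular.emb M hr hrM i (wField hr hrM f) = BAD.Modular.emb M hr hrM (1 - i) f := by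
  fin_cases i
  · rw [show (1 : Fin 2) - (⟨0, by omega⟩ : Fin 2) = 1 from rfl, emb_one_eq]
    rfl
  · rw [show (1 : Fin 2) - (⟨1, by omega⟩ : Fin 2) = 0 from rfl]
    show BAD.Modular.emb M hr hrM 1 (wField hr hrM f) = _
    rw [emb_one_eq, wField_wField, BAD.Modular.emb_zero_apply]

variable {A : ValuationSubring Qb} (hA : A.LiesOverPrime r)

/-- The two-branch data of `X₀(M r)` at the place. -/
abbrev mCurve : BadCurve (residue A) (modularFunctionFieldBar (M * r))
    (modularFunctionFieldFullC (ResidueField A) M) :=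
  BAD.Modular.curve hr hrM hA

theorem mem_V_iff {i : Fin 2} {f : modularFunctionFieldBar (M * r)} :
    f ∈ (mCurve hr hrM hA).V i ↔
      BAD.Modular.emb M hr hrM i f ∈ Gauss.gaussRing (residue A) :=
  Gauss.mem_valRing ((BAD.Modular.twin M hr hrM hA).scalable i)

theorem gRed_red {i : Fin 2} {f : modularFunctionFieldBar (M * r)}
    (hf : f ∈ (mCurve hr hrM hA).V i) :
    GRed (residue A) (BAD.Modular.emb M hr hrM i f)
      (((mCurve hr hrM hA).red i f : modularFunctionFieldFullC (ResidueField A) M) :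
        LaurentSeries (ResidueField A)) := by
  have h : GRed (residue A) (BAD.Modular.emb M hr hrM i f)
      (Gauss.gaussRed (residue A) ⟨_, (mem_V_iff hr hrM hA).mp hf⟩) := gRed_gaussRed _
  rw [(mCurve hr hrM hA).red_of_mem hf]
  exact h

theorem red_eq_of_gRed {i : Fin 2} {f : modularFunctionFieldBar (M * r)}
    {c : modularFunctionFieldFullC (ResidueField A) M}
    (h : GRed (residue A) (BAD.Modular.emb M hr hrM i f)
      (c : LaurentSeries (ResidueField A))) :
    f ∈ (mCurve hr hrM hA).V i ∧ (mCurve hr hrM hA).red i f = c := by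
  have hf := (mem_V_iff hr hrM hA).mpr h.mem
  exact ⟨hf, Subtype.ext ((gRed_red hr hrM hA hf).unique h)⟩

theorem mem_V_wField {i : Fin 2} {f : modularFunctionFieldBar (M * r)} :
    wField hr hrM f ∈ (mCurve hr hrM hA).V i ↔ f ∈ (mCurve hr hrM hA).V (1 - i) := by
  rw [mem_V_iff, mem_V_iff, emb_wField]

theorem red_wField {i : Fin 2} {f : modularFunctionFieldBar (M * r)}
    (hf : f ∈ (mCurve hr hrM hA).V (1 - i)) :
    (mCurve hr hrM hA).red i (wField hr hrM f) = (mCurve hr hrM hA).red (1 - i) f := by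
  refine (red_eq_of_gRed hr hrM hA ?_).2
  rw [emb_wField]
  exact gRed_red hr hrM hA hf

theorem wField_u : wField hr hrM (mCurve hr hrM hA).u = (mCurve hr hrM hA).u := by
  rw [BAD.Modular.curve_u, map_mul, wField_alpha, wField_beta]
  exact mul_comm _ _

/-- A Frobenius composed with `w_r` exchanges the branches. -/
theorem exists_swapSym {σ : Qb ≃ₐ[ℚ] Qb} (hσ : A.IsFrobeniusAt σ r) :
    ∃ T : modularFunctionFieldFullC (ResidueField A) M ≃+*
        modularFunctionFieldFullC (ResidueField A) M,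
      (∀ f : modularFunctionFieldBar (M * r),
        (arithmeticGalois (modularFunctionFieldFull (M * r)) σ * wAut hr hrM) • f =
          arithmeticGalois (modularFunctionFieldFull (M * r)) σ • wField hr hrM f) ∧
      (∀ (i : Fin 2) (f : modularFunctionFieldBar (M * r)), f ∈ (mCurve hr hrM hA).V i →
        arithmeticGalois (modularFunctionFieldFull (M * r)) σ • wField hr hrM f ∈
            (mCurve hr hrM hA).V (1 - i) ∧
          (mCurve hr hrM hA).red (1 - i)
            (arithmeticGalois (modularFunctionFieldFull (M * r)) σ • wField hr hrM f) =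
            T ((mCurve hr hrM hA).red i f)) ∧
      ∀ c, (mCurve hr hrM hA).Φ (T c) = c ^ r := by
  haveI := Fact.mk hr
  haveI := Galois.place_charP_residueField hA hr
  haveI := Galois.place_residueField_isAlgClosed A
  haveI : PerfectRing (ResidueField A) r := PerfectField.toPerfectRing r
  refine ⟨coeffRingEquiv (BAD.Modular.coeffStable M (ResidueField A))
    (frobeniusEquiv (ResidueField A) r), fun f => mul_smul _ _ f, fun i f hf => ?_, fun c => ?_⟩
  · have hcw := BAD.Modular.isCoeffwise hr hrM hA (σ := σ) hσ.1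
    have hw : wField hr hrM f ∈ (mCurve hr hrM hA).V (1 - i) := by
      rw [mem_V_wField, sub_sub_cancel]
      exact hf
    have h := hcw.red (frobeniusEquiv (ResidueField A) r)
      (fun c => BAD.Modular.residue_galF_frobenius hσ c _) (i := 1 - i)
      (f := wField hr hrM f)
      (r := (((mCurve hr hrM hA).red i f : modularFunctionFieldFullC (ResidueField A) M) :
        LaurentSeries (ResidueField A))) ⟨hw, ?_⟩
    · exact ⟨h.1, BAD.Modular.curve_red_eq hr hrM hA
        (c := coeffRingEquiv (BAD.Modular.coeffStable M (ResidueField A))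
          (frobeniusEquiv (ResidueField A) r) ((mCurve hr hrM hA).red i f)) h⟩
    · have h1 := red_wField hr hrM hA (i := 1 - i) (f := f) (by rwa [sub_sub_cancel])
      rw [sub_sub_cancel] at h1
      rw [← h1, (mCurve hr hrM hA).red_of_mem hw]
      rfl
  · refine Subtype.ext ?_
    rw [BAD.Modular.coe_curve_Φ, SubmonoidClass.coe_pow]
    show qExpand (ResidueField A) r
      (coeffMap (frobeniusEquiv (ResidueField A) r : ResidueField A →+* ResidueField A)
        (c : LaurentSeries (ResidueField A))) = _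
    rw [RED.Spec.laurentSeries_pow_char r]
    exact congrArg _ (coeffMap_congr (RingHom.ext fun x => frobeniusEquiv_apply (ResidueField A) r x)
      _)

section Rat

variable [Fact r.Prime]

variable {H : Subgroup (Qb ≃ₐ[ℚ] Qb)} (hH : H ≤ A.inertiaSubgroupIn ℚ) (Q : Ordinary.Consts A)
  (hQ : ∀ c, c ∈ Q.K ↔ ∀ σ ∈ H, σ c = c)

/-- The field of rational functions: fixed by `H ≤` inertia, constants `Q`. -/
def ratField : LLp.RatField (mCurve hr hrM hA).toBadBase where
  gal := galImg M r H
  gal_mem τ hτ i f hf := by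
    obtain ⟨σ, hσ, rfl⟩ := Subgroup.mem_map.mp hτ
    exact (BAD.Modular.curve_sym_inertia hr hrM hA (hH hσ)).mem i f hf
  gal_red τ hτ i f hf := by
    obtain ⟨σ, hσ, rfl⟩ := Subgroup.mem_map.mp hτ
    exact (BAD.Modular.curve_sym_inertia hr hrM hA (hH hσ)).red_eq i f hf
  FK := fixF (galImg M r H)
  mem_iff _ := mem_fixF
  ϖ := Q.ϖ
  ϖ_mem := mem_fixL.mp (mem_fixL_galImg.mpr ((hQ _).mp Q.ϖ_mem))
  ϖ_nonunit := A.mem_nonunits_iff.mpr Q.ϖ_lt
  ϖ_ne := Q.ϖ_ne
  exists_zpow c hc hc0 := Q.exists_eq c ((hQ c).mpr (mem_fixL_galImg.mp (mem_fixL.mpr hc))) hc0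
  torsion c hc := by
    obtain ⟨k, hk, m, hm⟩ := ECFormal.exists_pow_valuation_eq hA hr hc
    have hrK : (r : Qb) ∈ Q.K := _root_.natCast_mem _ r
    obtain ⟨e, he⟩ := Q.exists_eq _ hrK (Nat.cast_ne_zero.mpr (NeZero.ne r))
    exact ⟨k, e * m, hk, by rw [hm, he, ← zpow_mul]⟩
  res_surj a := by
    obtain ⟨c, hc, rfl⟩ := Q.exists_res a
    exact ⟨c, mem_fixL.mp (mem_fixL_galImg.mpr ((hQ _).mp hc)), rfl⟩
  scale i x hx hx0 := by
    have hrx : ∀ m : ℤ,
        algebraMap Qb (modularFunctionFieldBar (M * r)) (Q.ϖ ^ m) ∈ fixF (galImg M r H) :=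
      fun m => by
        rw [map_zpow₀]
        exact zpow_mem (mem_fixL.mp (mem_fixL_galImg.mpr ((hQ _).mp Q.ϖ_mem))) m
    have hser : BAD.Modular.emb M hr hrM i x ∈ Q.serField := by
      fin_cases i
      · exact coe_mem_serField Q hQ hx
      · show BAD.Modular.emb M hr hrM 1 x ∈ _
        rw [emb_one_eq]
        refine coe_mem_serField Q hQ (mem_fixF_galImg.mpr fun σ hσ => ?_)
        rw [smul_wField, mem_fixF_galImg.mp hx σ hσ]
    obtain ⟨m, u, hu, -, hu0, he⟩ :=
      Q.exists_pow_mul_unit hser ((map_ne_zero _).mpr hx0)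
    have hemb : BAD.Modular.emb M hr hrM i ((Q.ϖ ^ (-m)) • x) = u := by
      rw [Gauss.smul_eq_C_mul, he, ← mul_assoc, ← map_mul]
      show HahnSeries.C (Q.ϖ ^ (-m) * Q.ϖ ^ m) * u = u
      rw [← zpow_add₀ Q.ϖ_ne, neg_add_cancel,
        zpow_zero, map_one, one_mul]
    have hmem : (Q.ϖ ^ (-m)) • x ∈ (mCurve hr hrM hA).V i :=
      (mem_V_iff hr hrM hA).mpr (hemb.symm ▸ hu)
    refine ⟨_, hrx (-m), hmem, fun h0 => hu0 ?_⟩
    have h1 := gRed_red hr hrM hA hmem
    rw [h0, hemb, ZeroMemClass.coe_zero] at h1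
    exact (gRed_gaussRed hu).unique h1

omit [Fact r.Prime] in
theorem mem_ratField_FK {x : modularFunctionFieldBar (M * r)} :
    x ∈ (ratField hr hrM hA hH Q hQ).FK ↔ ∀ σ ∈ H,
      arithmeticGalois (modularFunctionFieldFull (M * r)) σ • x = x :=
  mem_fixF_galImg

/-- The field of rational functions fixed by inertia, with uniformiser `r`. -/
abbrev mRat : LLp.RatField (mCurve hr hrM hA).toBadBase :=
  ratField hr hrM hA le_rfl (inertiaConsts hA) fun _ => mem_inertiaConsts_iff hA

theorem mem_mRat_FK {x : modularFunctionFieldBar (M * r)} :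
    x ∈ (mRat hr hrM hA).FK ↔ ∀ σ ∈ A.inertiaSubgroupIn ℚ,
      arithmeticGalois (modularFunctionFieldFull (M * r)) σ • x = x :=
  mem_fixF_galImg

theorem wField_mem_mRat {x : modularFunctionFieldBar (M * r)} (hx : x ∈ (mRat hr hrM hA).FK) :
    wField hr hrM x ∈ (mRat hr hrM hA).FK :=
  (mem_mRat_FK hr hrM hA).mpr fun σ hσ => by
    rw [smul_wField, (mem_mRat_FK hr hrM hA).mp hx σ hσ]

end Rat

end Fermat.Agent.LL.Mazur
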