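import Fermat.Agent.LL.Mazur.Scalar
import Fermat.Agent.LowerSq.FixedVector
import Fermat.Agent.LL.Residual.ModularLevel
import Fermat.Agent.TraceFn.Burnside
import Fermat.Agent.TraceFn.LevelKill
import Fermat.Agent.R59.Defs

/-!
# The Mazur principle modulo `p`

If `E[p]` occurs at level `M r`, is unramified at `r` and does not occur at level `M`, then `r ≡ 1`
modulo `p` and Frobenius at `r` acts on `E[p]` by a sign.
-/

set_option autoImplicit false

noncomputable section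

open ModularCurve Fermat.Agent.TraceFn Fermat.Agent.CondLevel
open scoped IsMulCommutative

namespace Fermat.Agent.LL.Mazur

local notation "GQ" => AlgebraicClosure ℚ ≃ₐ[ℚ] AlgebraicClosure ℚ

/-- The image of `E[p]` spans all endomorphisms. -/
theorem span_rhoTors (W : WeierstrassCurve ℤ) (hΔ : W.Δ ≠ 0) (p : ℕ) [Fact p.Prime] (hp2 : p ≠ 2)
    (hirr : W.ModRepIsIrreducible p) (b : Module.Basis (Fin 2) (ZMod p) (Tors W p)) :
    Submodule.span (ZMod p)
      (Set.range fun g => LinearMap.toMatrix b b (rhoTors W p g)) = ⊤ := by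
  let ρa : GaloisRepAdic (ZMod p) := GaloisRepAdic.ofResidualGaloisRep (torsRep W p hΔ)
  have : CharP (IsLocalRing.ResidueField (ZMod p)) p :=
    charP_of_injective_ringHom (IsLocalRing.residue (ZMod p)).injective p
  have hres : IsLocalRing.residue (ZMod p) =
      ZMod.castHom (dvd_refl p) (IsLocalRing.ResidueField (ZMod p)) := Subsingleton.elim _ _
  have habs : ρa.residual.IsAbsolutelyIrreducible :=
    (residual_isAbsolutelyIrreducible W hΔ p hp2 hirr _ fun σ => by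
      rw [← hres]
      exact ⟨LinearMap.trace_baseChange _ _, LinearMap.det_baseChange _⟩).1
  exact span_range_toMatrix_eq_top ρa habs b

section Eigen

variable {W : WeierstrassCurve ℤ} {p : ℕ}

/-- The values of the good Hecke polynomials on the eigensystem of `W` modulo `p`. -/
def curveValue (W : WeierstrassCurve ℤ) (p : ℕ) (S : Finset ℕ) : AwayHecke S →+* ZMod p :=
  MvPolynomial.eval₂Hom (Int.castRingHom (ZMod p)) fun i => (W.apOfModel i.1 : ZMod p)

theorem curveValue_awayGen (S : Finset ℕ) {ℓ : ℕ} (hℓ : ℓ.Prime) (hℓS : ℓ ∉ S) :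
    curveValue W p S (awayGen S ℓ) = (W.apOfModel ℓ : ZMod p) := by
  rw [awayGen, dif_pos ⟨hℓ, hℓS⟩, curveValue, MvPolynomial.eval₂Hom_X']

/-- Some polynomial killing the forms of level `M` is nonzero on the eigensystem of `W`, when
`W` is not residually modular at level `M`. -/
theorem exists_kill_of_not_modular (h29 : ResidualAttachment) (hΔ : W.Δ ≠ 0) [Fact p.Prime]
    {M : ℕ} [NeZero M] {S : Finset ℕ} (hMS : ∀ q : ℕ, q.Prime → q ∣ M → q ∈ S)
    (hno : ¬ W.IsResiduallyModularOfLevel p M) :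
    ∃ P : AwayHecke S, awayEval M S hMS P = 0 ∧ curveValue W p S P ≠ 0 := by
  by_contra hne
  push Not at hne
  let θ : CuspForm.heckeAlgebra M 2 (↑S : Set ℕ) →+* ZMod p :=
    RingHom.liftOfSurjective (awayEval M S hMS) (awayEval_surjective hMS)
      ⟨curveValue W p S, fun e he => hne e he⟩
  refine hno (isResiduallyModularOfLevel_of_heckeHom h29 W hΔ p θ S
    (fun ℓ h => Finset.mem_coe.mp h) fun ℓ hℓ hℓM hℓS _ hℓS' _ => ?_)
  rw [← awayEval_awayGen M S hMS hℓ hℓM hℓS]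
  exact (RingHom.liftOfSurjective_comp_apply _ _ _ _).trans (curveValue_awayGen S hℓ hℓS')

section Congruent

variable {N : ℕ} [NeZero N] [Fact p.Prime] {S : Finset ℕ}
  {hNS : ∀ r : ℕ, r.Prime → r ∣ N → r ∈ S}
  {f : CuspForm (CongruenceSubgroup.Gamma0 N) 2} {hf : f.IsNormalizedEigenform}
  {𝔪 : Ideal (integralClosure ℤ ℂ)} (hp𝔪 : (p : integralClosure ℤ ℂ) ∈ 𝔪)
  (hcong : ∀ ℓ : ℕ, ℓ.Prime → ℓ ∉ S → LowerSq.eigenValue hNS hf (awayGen S ℓ) -
    ((W.apOfModel ℓ : ℤ) : integralClosure ℤ ℂ) ∈ 𝔪)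

include hp𝔪 hcong in
theorem eigenValue_sub_mem (q : AwayHecke S) :
    ∀ n : ℤ, curveValue W p S q = n →
      LowerSq.eigenValue hNS hf q - (n : integralClosure ℤ ℂ) ∈ 𝔪 := by
  induction q using MvPolynomial.induction_on with
  | C a =>
    intro n hn
    rw [curveValue, MvPolynomial.eval₂Hom_C, eq_intCast] at hn
    obtain ⟨d, hd⟩ := (ZMod.intCast_eq_intCast_iff_dvd_sub _ _ p).mp hn.symm
    rw [eq_intCast (MvPolynomial.C : ℤ →+* AwayHecke S), map_intCast, ← Int.cast_sub, hd,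
      Int.cast_mul, Int.cast_natCast]
    exact 𝔪.mul_mem_right _ hp𝔪
  | add x y hx hy =>
    intro n hn
    obtain ⟨a, ha⟩ := ZMod.intCast_surjective (curveValue W p S x)
    have h' : curveValue W p S y = ((n - a : ℤ) : ZMod p) := by
      rw [Int.cast_sub, ← hn, map_add, ha, add_sub_cancel_left]
    have := 𝔪.add_mem (hx a ha.symm) (hy _ h')
    rwa [Int.cast_sub, sub_add_sub_comm, add_sub_cancel, ← map_add] at this
  | mul_X x i hx =>
    intro n hn
    obtain ⟨a, ha⟩ := ZMod.intCast_surjective (curveValue W p S x)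
    have hXi : (MvPolynomial.X i : AwayHecke S) = awayGen S i.1 := by
      rw [awayGen, dif_pos ⟨i.1.2, i.2⟩]
      rfl
    have hi := hcong i.1 i.1.2 i.2
    rw [map_mul, hXi, curveValue_awayGen S i.1.2 i.2, ← ha, ← Int.cast_mul] at hn
    obtain ⟨d, hd⟩ := (ZMod.intCast_eq_intCast_iff_dvd_sub _ _ p).mp hn.symm
    have h1 := 𝔪.add_mem
      (𝔪.mul_mem_right (LowerSq.eigenValue hNS hf (awayGen S i.1)) (hx a ha.symm))
      (𝔪.mul_mem_left ((a : ℤ) : integralClosure ℤ ℂ) hi)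
    have h2 := 𝔪.add_mem h1 (𝔪.mul_mem_right ((d : ℤ) : integralClosure ℤ ℂ) hp𝔪)
    rw [map_mul, hXi]
    convert h2 using 1
    rw [show n = a * W.apOfModel i.1 - p * d by linear_combination -hd]
    push_cast
    ring

include hp𝔪 hcong in
theorem jHecke_eq_of_mem_mTor (q : AwayHecke S) (n : ℤ) {x : JZero N}
    (hx : x ∈ LowerSq.mTor hNS hf 𝔪 p) (hn : curveValue W p S q = n) :
    jHecke N (awayIncl S q) x = n • x := by
  have h0 := hx.2 (q - (n : AwayHecke S))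
    (by rw [map_sub, map_intCast]; exact eigenValue_sub_mem hp𝔪 hcong q n hn)
  let := heckeModuleBar N
  rw [jHecke_apply, map_sub, map_intCast, sub_smul, Int.cast_smul_eq_zsmul, sub_eq_zero] at h0
  rw [jHecke_apply]
  exact h0

omit [Fact p.Prime] in
theorem smul_mem_mTor (g : GQ) {x : JZero N} (hx : x ∈ LowerSq.mTor hNS hf 𝔪 p) :
    g • x ∈ LowerSq.mTor hNS hf 𝔪 p := by
  refine ⟨?_, fun q hq => ?_⟩
  · refine (map_nsmul (DistribSMul.toAddMonoidHom (JZero N) g) p x).symm.trans ?_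
    rw [hx.1, map_zero]
  · rw [jHecke_galois, hx.2 q hq]
    exact smul_zero (A := JZero N) g

include hp𝔪 hcong in
theorem smul_smul_frobenius_mTor (hquad : GAL.TorsionQuadratic N p) {ℓ : ℕ} (hℓ : ℓ.Prime)
    (hℓS : ℓ ∉ S) (hℓp : ℓ ≠ p) {B : ValuationSubring (AlgebraicClosure ℚ)}
    (hB : B.LiesOverPrime ℓ) {σ : GQ} (hσ : B.IsFrobeniusAt σ ℓ) {x : JZero N}
    (hx : x ∈ LowerSq.mTor hNS hf 𝔪 p) :
    σ • σ • x = W.apOfModel ℓ • σ • x - ℓ • x := by
  have hp : p.Prime := Fact.out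
  have hℓNp : ¬ ℓ ∣ N * p := fun h => (hℓ.dvd_mul.mp h).elim (fun h' => hℓS (hNS ℓ hℓ h'))
    fun h' => hℓp ((Nat.prime_dvd_prime_iff_eq hℓ hp).mp h')
  have hq2 := hquad ℓ hℓ hℓNp B hB σ hσ x ⟨1, by rw [pow_one]; exact hx.1⟩
  have hT := jHecke_eq_of_mem_mTor hp𝔪 hcong (awayGen S ℓ) (W.apOfModel ℓ)
    (smul_mem_mTor σ hx) (curveValue_awayGen S hℓ hℓS)
  rw [awayIncl_awayGen hℓ hℓS, jHecke_apply] at hT
  have hT' : heckeOperatorBar N ⟨ℓ, hℓ⟩ (σ • x) = W.apOfModel ℓ • σ • x :=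
    (HK.Corr.heckeModuleBar_heckeGen_smul_eq N ⟨ℓ, hℓ⟩ _).symm.trans hT
  rw [hT'] at hq2
  rw [← sub_eq_zero, ← hq2]
  abel

end Congruent

end Eigen

section Module

variable (W : WeierstrassCurve ℤ) (hΔ : W.Δ ≠ 0) {p : ℕ} [Fact p.Prime] 

set_option maxHeartbeats 1000000 in
-- the quadratic relation on the stable subgroup and the final computation
include hΔ in
/-- The Frobenius at `r` on `E[p]` is a scalar with square `r` and with square `r ^ 2`, if `E[p]`
occurs in a stable subgroup of the points of level `M r` on which the operator of Mazur's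
principle is a nonzero scalar. -/
theorem exists_scalar_tors (hp2 : p ≠ 2) (hirr : W.ModRepIsIrreducible p)
    {M r : ℕ} [NeZero M] [NeZero r] [NeZero (M * r)] {V : Type} [AddCommGroup V] [hV : Module (ZMod p) V]
    (ι : V →+ JZero (M * r)) (hι : Function.Injective ι) (φ : GQ →* AddMonoid.End V)
    (hφ : ∀ (g : GQ) (x : V), ι (φ g x) = g • ι x)
    (htor : ∀ x : V, p • ι x = 0) {v₀ : V} (hv₀' : v₀ ≠ 0)
    {S : Finset ℕ} (hS : ∀ q : ℕ, q.Prime → q ∣ M * r → q ∈ S)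
    (hgood : ∀ ℓ : ℕ, ℓ.Prime → ℓ ∉ S → W.IsGoodPrimeFor ℓ ∧ ℓ ≠ p)
    (hfrob : ∀ ℓ : ℕ, ℓ.Prime → ℓ ∉ S → ∀ B : ValuationSubring (AlgebraicClosure ℚ),
      B.LiesOverPrime ℓ → ∀ σ : GQ, B.IsFrobeniusAt σ ℓ → ∀ x : V,
        σ • σ • ι x = W.apOfModel ℓ • σ • ι x - ℓ • ι x)
    (hr : r.Prime) (hrp : r ≠ p) (hrM : ¬ r ∣ M) (hunr : R59.ModUnramified W p r)
    (t : ℕ) (ht : t = 12 ∨ (t = 8 ∧ ∃ q : ℕ, q.Prime ∧ q ∣ M ∧ q % 3 = 2))
    (P : AwayHecke S) (hkillM : ∀ y : JZero M, jHecke M (awayIncl S P) y = 0)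
    {l : ℕ} (hl : l.Prime) (hlS : l ∉ S) (c : ZMod p) (hc : c ≠ 0)
    (hcval : ∀ x : V, jHecke (M * r) (awayIncl S (mazurOp t P l)) (ι x) = ι (c • x))
    {A : ValuationSubring (AlgebraicClosure ℚ)} (hA : A.LiesOverPrime r) {σ : GQ}
    (hσ : A.IsFrobeniusAt σ r) :
    ∃ s : ZMod p, rhoTors W p σ = s • 1 ∧ s * s = (r : ZMod p) ∧
      s * s = (r : ZMod p) * r := by
  have hp : p.Prime := Fact.out
  have hr0 : (r : ZMod p) ≠ 0 := fun h => hrp
    ((Nat.prime_dvd_prime_iff_eq hp hr).mp ((ZMod.natCast_eq_zero_iff r p).mp h)).symm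
  let τ : GQ →* Module.End (ZMod p) V := LowerSq.linearAction p φ
  have hτ : ∀ g x, ι (τ g x) = g • ι x := hφ
  have := moduleFinite_tors W hΔ p
  let b := Module.finBasisOfFinrankEq (ZMod p) (Tors W p) (finrank_tors W hΔ p)
  let ρ : GQ →* Matrix (Fin 2) (Fin 2) (ZMod p) :=
    (LinearMap.toMatrixAlgEquiv b).toMonoidHom.comp (rhoTors W p)
  have hρapp : ∀ g, ρ g = LinearMap.toMatrix b b (rhoTors W p g) := fun g => rfl
  have hτfin : GaloisFactorsThroughFiniteLevel τ := by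
    obtain ⟨L, hL, h1⟩ := HK.torsionFiniteLevel (M * r) p 1
    refine ⟨L, hL, fun g hg => LinearMap.ext fun x => hι ?_⟩
    rw [hτ, Module.End.one_apply]
    exact h1 g hg (ι x) (by rw [pow_one]; exact htor x)
  let π : Unit → V →+ JZero (M * r) := fun _ => ι
  have hE : IsEigenPoints ρ τ π (fun _ => p) :=
    { quad := by
        have hQ := forall_of_frobenius_pow hτfin (rhoTors_finiteLevel W hΔ hp.ne_zero)
          (fun a c => a ^ 2 = LinearMap.trace (ZMod p) (Tors W p) c • a - LinearMap.det c • 1) S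
          (fun ℓ hℓ hℓS B hB σ hσ k => by
            obtain ⟨htr, hd⟩ := frobenius_trace_det W hΔ hℓ (p := p) (hgood ℓ hℓ hℓS).2
              (hgood ℓ hℓ hℓS).1 hB hσ
            have h1 : τ σ ^ 2 = (W.apOfModel ℓ : ZMod p) • τ σ - (ℓ : ZMod p) • 1 := by
              refine LinearMap.ext fun x => hι ?_
              rw [sq, Module.End.mul_apply, LinearMap.sub_apply, LinearMap.smul_apply,
                LinearMap.smul_apply, Module.End.one_apply, Int.cast_smul_eq_zsmul,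
                Nat.cast_smul_eq_nsmul, map_sub, map_zsmul, map_nsmul, hτ, hτ]
              exact hfrob ℓ hℓ hℓS B hB σ hσ x
            show τ (σ ^ k) ^ 2 =
              LinearMap.trace (ZMod p) (Tors W p) (rhoTors W p (σ ^ k)) • τ (σ ^ k) -
                LinearMap.det (rhoTors W p (σ ^ k)) • 1
            rw [map_pow τ, map_pow (rhoTors W p), map_pow LinearMap.det, pow_quadratic h1 k,
              trace_pow_eq (finrank_tors W hΔ p), htr, hd])
        intro g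
        rw [hρapp, ← LinearMap.trace_eq_matrix_trace, LinearMap.det_toMatrix, ← sq]
        exact hQ g
      span := span_rhoTors W hΔ p hp2 hirr b
      two := isUnit_iff_ne_zero.mpr fun h => hp2 ((Nat.prime_dvd_prime_iff_eq hp Nat.prime_two).mp
        ((ZMod.natCast_eq_zero_iff 2 p).mp (by exact_mod_cast h)))
      faith := fun a ha => by
        by_contra hne
        refine hv₀' ?_
        exact (smul_eq_zero.mp (ha v₀)).resolve_left hne
      inj := fun y hy => hι ((hy ()).trans (map_zero ι).symm)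
      galois := fun _ g y => hτ g y
      coprime := fun _ => (Nat.coprime_primes hp hr).mpr (Ne.symm hrp)
      torsion := fun _ y => htor y }
  obtain ⟨s, hs, hs2⟩ := hE.exists_scalar hr hrM hS t ht P hkillM hl hlS c
    (fun _ y => hcval y) (fun a ha => (mul_eq_zero.mp ha).resolve_left hc)
    (fun a ha => (mul_eq_zero.mp ha).resolve_left hr0) hA
    (fun g hg => by
      rw [hρapp, show rhoTors W p g = 1 from hunr A hA g hg, LinearMap.toMatrix_one]) hσ
  refine ⟨s, (LinearMap.toMatrix b b).injective ?_, ?_, hs2⟩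
  · rw [map_smul, LinearMap.toMatrix_one, ← hρapp, hs]
  · have hdet := congrArg Matrix.det hs
    rw [hρapp, LinearMap.det_toMatrix, det_rhoTors W hΔ p,
      cycChar_frobenius p hr (fun h => hrp ((Nat.prime_dvd_prime_iff_eq hr hp).mp h)) hA hσ,
      Matrix.det_smul, Matrix.det_one, Fintype.card_fin, mul_one, sq] at hdet
    exact hdet.symm

end Module

set_option maxHeartbeats 1000000 in
-- the eigen module, its quadratic relation and the final computation
/-- **Mazur's principle for `E[p]`.** -/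
theorem frob_scalar_of_not_residuallyModular (h29 : ResidualAttachment)
    (W : WeierstrassCurve ℤ) (hΔ : W.Δ ≠ 0) {p : ℕ} [Fact p.Prime] (hp2 : p ≠ 2)
    (hirr : W.ModRepIsIrreducible p) {M r : ℕ} [NeZero M] [NeZero r] (hr : r.Prime)
    (hrp : r ≠ p) (hrM : ¬ r ∣ M) (h3 : p = 3 → ∃ q : ℕ, q.Prime ∧ q ∣ M ∧ q % 3 = 2)
    (hquad : GAL.TorsionQuadratic (M * r) p) (hmod : W.IsResiduallyModularOfLevel p (M * r))
    (hkill : ∀ (S : Finset ℕ) (hMS : ∀ q : ℕ, q.Prime → q ∣ M → q ∈ S) (P : AwayHecke S),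
      awayEval M S hMS P = 0 → ∀ y : JZero M, jHecke M (awayIncl S P) y = 0)
    (hunr : R59.ModUnramified W p r) (hno : ¬ W.IsResiduallyModularOfLevel p M) :
    r ≡ 1 [MOD p] ∧ ∀ A : ValuationSubring (AlgebraicClosure ℚ), A.LiesOverPrime r →
      ∀ σ : GQ, A.IsFrobeniusAt σ r → rhoTors W p σ = 1 ∨ rhoTors W p σ = -1 := by
  classical
  have hp : p.Prime := Fact.out
  have : NeZero (M * r) := ⟨mul_ne_zero (NeZero.ne M) (NeZero.ne r)⟩
  set S : Finset ℕ := insert p ((M * r).primeFactors ∪ W.Δ.natAbs.primeFactors) with hSdef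
  have hS : ∀ q : ℕ, q.Prime → q ∣ M * r → q ∈ S := fun q hq hd => Finset.mem_insert_of_mem
    (Finset.mem_union_left _ (Nat.mem_primeFactors.mpr ⟨hq, hd, NeZero.ne _⟩))
  have hbad : ∀ ℓ : ℕ, ℓ.Prime → (ℓ : ℤ) ∣ W.Δ → ℓ ∈ S := fun q hq hd => Finset.mem_insert_of_mem
    (Finset.mem_union_right _ (Nat.mem_primeFactors.mpr
      ⟨hq, Int.natCast_dvd.mp hd, Int.natAbs_ne_zero.mpr hΔ⟩))
  have hpS : p ∈ S := Finset.mem_insert_self _ _
  have hgood : ∀ ℓ : ℕ, ℓ.Prime → ℓ ∉ S → W.IsGoodPrimeFor ℓ ∧ ℓ ≠ p := fun ℓ hℓ h =>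
    ⟨fun hd => h (hbad ℓ hℓ hd), fun e => h (e ▸ hpS)⟩
  have hMS : ∀ q : ℕ, q.Prime → q ∣ M → q ∈ S := fun q hq hd => hS q hq (hd.mul_right r)
  -- the auxiliary operators
  obtain ⟨P, hP, hPne⟩ := exists_kill_of_not_modular h29 hΔ (p := p) hMS hno
  have : (W.map (Int.castRingHom ℚ)).IsElliptic := by
    rw [WeierstrassCurve.isElliptic_iff, WeierstrassCurve.map_Δ]
    exact (Int.cast_ne_zero.mpr hΔ).isUnit
  obtain ⟨l, hl, hlS, -, -, hlne⟩ := LR.exists_prime_apOfModel_ne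
    (W.map (Int.castRingHom ℚ)) (W := W) ⟨1, one_smul _ _⟩ hp hirr S
  obtain ⟨t, ht, htne⟩ : ∃ t : ℕ, (t = 12 ∨ (t = 8 ∧ ∃ q : ℕ, q.Prime ∧ q ∣ M ∧ q % 3 = 2)) ∧
      (t : ZMod p) ≠ 0 := by
    have hne : ∀ n : ℕ, (∀ d : ℕ, d.Prime → d ∣ n → d ≠ p) → (n : ZMod p) ≠ 0 := fun n hn h0 =>
      hn p hp ((ZMod.natCast_eq_zero_iff n p).mp h0) rfl
    by_cases hp3 : p = 3
    · refine ⟨8, Or.inr ⟨rfl, h3 hp3⟩, hne 8 fun d hd hd8 e => ?_⟩
      have h' : d ∣ 2 ^ 3 := hd8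
      exact hp2 (e ▸ (Nat.prime_dvd_prime_iff_eq hd Nat.prime_two).mp (hd.dvd_of_dvd_pow h'))
    · refine ⟨12, Or.inl rfl, hne 12 fun d hd hd12 e => ?_⟩
      have h' : d ∣ 2 ^ 2 * 3 := hd12
      rcases hd.dvd_mul.mp h' with h2 | h2
      · exact hp2 (e ▸ (Nat.prime_dvd_prime_iff_eq hd Nat.prime_two).mp (hd.dvd_of_dvd_pow h2))
      · exact hp3 (e ▸ (Nat.prime_dvd_prime_iff_eq hd Nat.prime_three).mp h2)
  -- the eigen module
  obtain ⟨f, 𝔪, hf, h𝔪, hp𝔪, hcong⟩ := hmod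
  have := MF.IntStruct.moduleFinite_heckeAlgebra (M * r) 2 (∅ : Set ℕ)
  have hcong' : ∀ ℓ : ℕ, ℓ.Prime → ℓ ∉ S → LowerSq.eigenValue hS hf (awayGen S ℓ) -
      ((W.apOfModel ℓ : ℤ) : integralClosure ℤ ℂ) ∈ 𝔪 := fun ℓ hℓ hℓS => by
    obtain ⟨c, hc, hc𝔪⟩ := hcong ℓ hℓ (hgood ℓ hℓ hℓS).1 (fun h => hℓS (hS ℓ hℓ h))
      (hgood ℓ hℓ hℓS).2
    rwa [LowerSq.eigenValue_awayGen hS hf hℓ hℓS, show Eigen.intCoeff hf ℓ = c from Subtype.ext hc.symm]
  set V := LowerSq.mTor hS hf 𝔪 p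
  obtain ⟨v₀, hv₀, hv₀'⟩ := LowerSq.nontrivial_mTor hS hf 𝔪 h𝔪 hp𝔪
  have hzero : ∀ x : V, p • x = 0 := fun x => Subtype.ext x.2.1
  have hcne : curveValue W p S (mazurOp t P l) ≠ 0 := by
    rw [mazurOp, LowerSq.eisOp, map_mul, map_mul, map_natCast, map_sub, curveValue_awayGen S hl hlS,
      eq_intCast (MvPolynomial.C : ℤ →+* AwayHecke S), map_intCast, Int.cast_add, Int.cast_natCast,
      Int.cast_one]
    exact mul_ne_zero hPne (mul_ne_zero htne (sub_ne_zero.mpr hlne))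
  have hr0 : (r : ZMod p) ≠ 0 := fun h => hrp
    ((Nat.prime_dvd_prime_iff_eq hp hr).mp ((ZMod.natCast_eq_zero_iff r p).mp h)).symm
  have hmain : ∀ A : ValuationSubring (AlgebraicClosure ℚ), A.LiesOverPrime r →
      ∀ σ : GQ, A.IsFrobeniusAt σ r → ∃ s : ZMod p, rhoTors W p σ = s • 1 ∧ s * s = (r : ZMod p) ∧
        s * s = (r : ZMod p) * r := fun A hA σ hσ => by
    refine exists_scalar_tors W hΔ hp2 hirr (hV := AddCommGroup.zmodModule hzero)
      V.subtype Subtype.val_injective (LowerSq.subAction V fun g x hx => smul_mem_mTor g hx)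
      (fun g x => rfl) (fun x => x.2.1) (v₀ := ⟨v₀, hv₀⟩) (fun h => hv₀' (congrArg Subtype.val h))
      hS hgood
      (fun ℓ hℓ hℓS B hB g hg x =>
        smul_smul_frobenius_mTor hp𝔪 hcong' hquad hℓ hℓS (hgood ℓ hℓ hℓS).2 hB hg x.2)
      hr hrp hrM hunr t ht P (hkill S hMS P hP) hl hlS _ hcne (fun x => ?_) hA hσ
    obtain ⟨n, hn⟩ := ZMod.intCast_surjective (curveValue W p S (mazurOp t P l))
    refine (jHecke_eq_of_mem_mTor hp𝔪 hcong' _ n x.2 hn.symm).trans ?_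
    rw [← hn, Int.cast_smul_eq_zsmul]
    exact (map_zsmul V.subtype n x).symm
  have hone : (r : ZMod p) = 1 := by
    obtain ⟨A, σ, hA, hσ⟩ := Galois.exists_place_isFrobeniusAt hr
    obtain ⟨s, -, h1, h2⟩ := hmain A hA σ hσ
    exact mul_left_cancel₀ hr0 ((h2.symm.trans h1).trans (mul_one _).symm)
  refine ⟨(ZMod.natCast_eq_natCast_iff r 1 p).mp (by rw [hone, Nat.cast_one]), fun A hA σ hσ => ?_⟩
  obtain ⟨s, hs, h1, -⟩ := hmain A hA σ hσ
  rw [hone] at h1
  rcases mul_self_eq_one_iff.mp h1 with rfl | rfl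
  · exact Or.inl (by rw [hs, one_smul])
  · exact Or.inr (by rw [hs, neg_smul, one_smul])

end Fermat.Agent.LL.Mazur
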