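import Fermat.Agent.RED.Specialization.Moving
import Fermat.Agent.RED.PlaceReductionGlobal

/-!
# Stability of the kernel of divisor reduction under a correspondence

Let `r` reduce places, `T` act on divisors such that the reduction of `T (div f)` only depends on
the reduction of `f`, and such that reduced images only move along a finite relation `Rel`.  Then
places with the same reduction have images with the same reduction: a test function with a simple
zero at the given point and none at the finitely many bad ones separates one place of each fibre.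
-/

set_option autoImplicit false

noncomputable section

open AlgebraicCurve Fermat.Agent.RED

namespace Fermat.Agent.LL.Mazur

variable {L k F Fb : Type*} [Field L] [Field k] [Field F] [Field Fb] [Algebra L F] [Algebra k Fb]
  {A : ValuationSubring L} {π : A →+* k} (D : ReductionDatum A π F Fb)
  {r : Place L F → Place k Fb}

/-- The divisor of a lift of a test function: one simple zero at `P` in its fibre, and the other
places of the chart in its support reduce to zeros of the test function. -/
theorem exists_test_divisor [IsAlgClosed L] [HasPrincipalDivisors L F]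
    (hdeg : ∀ P : Place L F, P.deg = 1) (hr : IsPlaceReduction D r) {x : F} {xb : Fb}
    (hreg : ∀ P, xb ∈ (r P).toValuationSubring → x ∈ P.toValuationSubring)
    {g : Fb} {f : F} (hf : f ∈ coordRing L x) (hfg : D.Reduces f g) {P : Place L F}
    (hP : xb ∈ (r P).toValuationSubring) (hg : (r P).ord g = 1) :
    ∃ (c : A) (E : Divisor L F), π c = 0 ∧ D.Reduces (f - algebraMap L F c) g ∧
      IsDivisorOf E (f - algebraMap L F c) ∧
      E P = 1 ∧ ∀ P', P' ≠ P → E P' ≠ 0 → xb ∈ (r P').toValuationSubring →
        r P' ≠ r P ∧ 0 < (r P').ord g := by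
  classical
  have hg0 : g ≠ 0 := fun h => by simp [h] at hg
  have hmem : ∀ P', xb ∈ (r P').toValuationSubring → f ∈ P'.toValuationSubring := fun P' h =>
    mem_place_of_mem_coordRing _ _ P' (hreg P' h) hf
  set c := pval P f with hc
  have hfc0 : ∀ {c' : L}, D.Reduces f g → f - algebraMap L F c' ≠ 0 := by
    intro c' hr' h0
    rw [sub_eq_zero] at h0
    -- a constant has no residual zero
    obtain ⟨E, hE⟩ := exists_isDivisorOf (L := L) (hr'.ne_zero hg0)
    have h := hr f g hr' hg0 E hE (r P)
    rw [hg, show E = 0 from Finsupp.ext fun v => by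
      rw [hE v, h0, ord_algebraMap', Finsupp.zero_apply], Finsupp.mapDomain_zero,
      Finsupp.zero_apply] at h
    exact zero_ne_one h
  have hne := hfc0 (c' := c) hfg
  obtain ⟨E, hE⟩ := exists_isDivisorOf (L := L) hne
  have hnonneg : ∀ P', xb ∈ (r P').toValuationSubring → 0 ≤ E P' := fun P' h => by
    rw [hE P']
    exact ord_nonneg_of_mem P' (sub_mem (hmem P' h) (P'.algebraMap_mem' c))
  have hEP : 0 < E P := by
    rw [hE P]
    exact (pval_sub_algebraMap (hdeg P) (hmem P hP)).resolve_left hne
  -- the mass of a fibre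
  have hfib : ∀ R : Place k Fb, xb ∈ R.toValuationSubring → ∀ P', r P' = R →
      E P' ≤ Finsupp.mapDomain r E R := by
    intro R hR P' hP'
    rw [Finsupp.mapDomain, Finsupp.sum, Finsupp.finsetSum_apply]
    by_cases h0 : P' ∈ E.support
    · refine le_of_eq_of_le ?_ (Finset.single_le_sum (fun Q hQ => ?_) h0)
      · rw [Finsupp.single_apply, if_pos hP']
      · rw [Finsupp.single_apply]
        split
        · exact hnonneg Q (by rwa [‹r Q = R›])
        · rfl
    · rw [Finsupp.notMem_support_iff.mp h0]
      refine Finset.sum_nonneg fun Q hQ => ?_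
      rw [Finsupp.single_apply]
      split
      · exact hnonneg Q (by rwa [‹r Q = R›])
      · rfl
  have hpos : 0 < Finsupp.mapDomain r E (r P) := hEP.trans_le (hfib _ hP P rfl)
  -- the constant is integral, with zero residue
  have hcA : c ∈ A := by
    by_contra hcA
    have hc0 : c ≠ 0 := fun h => hcA (h ▸ zero_mem A)
    have hci : c⁻¹ ∈ A := (A.mem_or_inv_mem c).resolve_left hcA
    have hπ : π ⟨c⁻¹, hci⟩ = 0 := by
      by_contra h
      have hu : IsUnit (⟨c⁻¹, hci⟩ : A) := by
        by_contra hu
        have hker : RingHom.ker π = IsLocalRing.maximalIdeal A :=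
          IsLocalRing.eq_maximalIdeal (RingHom.ker_isMaximal_of_surjective π D.surjective_π)
        exact h (RingHom.mem_ker.mp (hker ▸ hu))
      obtain ⟨v, hv⟩ := hu.exists_right_inv
      have : c = (v : L) := by
        have h1 : c⁻¹ * (v : L) = 1 := congrArg Subtype.val hv
        exact (eq_of_inv_mul_eq_one h1).symm ▸ rfl
      exact hcA (this ▸ v.2)
    have h1 : D.Reduces (algebraMap L F c⁻¹ * (f - algebraMap L F c)) (-1) := by
      rw [mul_sub, ← map_mul, inv_mul_cancel₀ hc0, map_one]
      have h2 := ((D.reduces_algebraMap ⟨c⁻¹, hci⟩).mul hfg).sub D.reduces_one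
      rwa [hπ, map_zero, zero_mul, zero_sub] at h2
    have h2 : IsDivisorOf E (algebraMap L F c⁻¹ * (f - algebraMap L F c)) := fun v => by
      rw [v.ord_mul (by simpa using hc0) hne, ord_algebraMap', zero_add, hE v]
    have h3 := hr _ _ h1 (neg_ne_zero.mpr one_ne_zero) E h2 (r P)
    have h4 : (r P).ord (-1 : Fb) = 0 := by
      rw [show (-1 : Fb) = algebraMap k Fb (-1) by simp, ord_algebraMap']
    omega
  have hred : D.Reduces (f - algebraMap L F c) (g - algebraMap k Fb (π ⟨c, hcA⟩)) :=
    hfg.sub (D.reduces_algebraMap ⟨c, hcA⟩)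
  have hπc : π ⟨c, hcA⟩ = 0 := by
    by_contra h
    have hgv : g = 0 ∨ 0 < (r P).ord g := Or.inr (by omega)
    have hgm : g ∈ (r P).toValuationSubring := mem_of_ord_nonneg _ (by omega)
    have h0 : (r P).ord (g - algebraMap k Fb (π ⟨c, hcA⟩)) = 0 := by
      have hlt : g = 0 ∨ (r P).ord (algebraMap k Fb (-π ⟨c, hcA⟩)) < (r P).ord g := Or.inr (by
        rw [ord_algebraMap']; omega)
      have := (FF.add_ne_zero_and_ord_eq_of_lt (r P) (by simpa using h) hlt).2
      rw [ord_algebraMap', map_neg, neg_add_eq_sub] at this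
      exact this
    have hne' : g - algebraMap k Fb (π ⟨c, hcA⟩) ≠ 0 := fun e => by
      rw [sub_eq_zero] at e
      rw [e, ord_algebraMap'] at hg
      exact zero_ne_one hg
    have := hr _ _ hred hne' E hE (r P)
    omega
  rw [hπc, map_zero, sub_zero] at hred
  have hone := hr _ _ hred hg0 E hE
  have hEP1 : E P = 1 := by
    have := hfib _ hP P rfl
    rw [hone, hg] at this
    omega
  refine ⟨⟨c, hcA⟩, E, hπc, hred, hE, hEP1, fun P' hne' hE' hx => ?_⟩
  refine ⟨fun heq => ?_, ?_⟩
  · -- two places of the fibre would give mass two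
    have h2 : E P + E P' ≤ Finsupp.mapDomain r E (r P) := by
      rw [Finsupp.mapDomain, Finsupp.sum, Finsupp.finsetSum_apply]
      have hsub : ({P, P'} : Finset (Place L F)) ⊆ E.support := by
        intro Q hQ
        rcases Finset.mem_insert.mp hQ with rfl | hQ
        · exact Finsupp.mem_support_iff.mpr hEP.ne'
        · rw [Finset.mem_singleton.mp hQ]; exact Finsupp.mem_support_iff.mpr hE'
      refine le_of_eq_of_le ?_ (Finset.sum_le_sum_of_subset_of_nonneg hsub fun Q _ _ => ?_)
      · rw [Finset.sum_pair (Ne.symm hne'), Finsupp.single_apply, if_pos rfl,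
          Finsupp.single_apply, if_pos heq]
      · rw [Finsupp.single_apply]
        split
        · exact hnonneg Q (by rwa [‹r Q = r P›])
        · rfl
    rw [hone, hg, hEP1] at h2
    have := hnonneg P' hx
    omega
  · have h1 := hfib _ hx P' rfl
    rw [hone] at h1
    have := hnonneg P' hx
    omega

variable (T : Divisor L F →+ Divisor L F)

/-- The reduced image of a point only depends on the reduced point. -/
theorem mapDomain_single_eq [IsAlgClosed L] [HasPrincipalDivisors L F]
    (hdeg : ∀ P : Place L F, P.deg = 1) (hr : IsPlaceReduction D r)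
    (hT : ∀ f f' g, D.Reduces f g → D.Reduces f' g → g ≠ 0 → ∀ E E' : Divisor L F,
      IsDivisorOf E f → IsDivisorOf E' f' →
        Finsupp.mapDomain r (T E) = Finsupp.mapDomain r (T E'))
    {Rel : Place k Fb → Place k Fb → Prop}
    (hrel : ∀ P X, Finsupp.mapDomain r (T (Finsupp.single P 1)) X ≠ 0 → Rel (r P) X)
    (hfin : ∀ X, {R | Rel R X}.Finite) {x : F} {xb : Fb}
    (hreg : ∀ P, xb ∈ (r P).toValuationSubring → x ∈ P.toValuationSubring)
    (hlift : ∀ g ∈ coordRing k xb, ∃ f ∈ coordRing L x, D.Reduces f g)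
    (hord : ∀ v : Place k Fb, xb ∈ v.toValuationSubring → ∃ t ∈ coordRing k xb, v.ord t = 1)
    (hsep : ∀ v w : Place k Fb, xb ∈ v.toValuationSubring → xb ∈ w.toValuationSubring → v ≠ w →
      ∃ s ∈ coordRing k xb, s ≠ 0 ∧ 0 < v.ord s ∧ w.ord s = 0)
    {P Q : Place L F} (hPQ : r P = r Q) (hP : xb ∈ (r P).toValuationSubring)
    (hside : ∀ X, Rel (r P) X → ∀ R, Rel R X → xb ∈ R.toValuationSubring) :
    Finsupp.mapDomain r (T (Finsupp.single P 1)) = Finsupp.mapDomain r (T (Finsupp.single Q 1)) := by
  classical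
  ext X
  by_cases hX : Rel (r P) X
  swap
  · have h1 : Finsupp.mapDomain r (T (Finsupp.single P 1)) X = 0 :=
      of_not_not fun h => hX (hrel P X h)
    have h2 : Finsupp.mapDomain r (T (Finsupp.single Q 1)) X = 0 :=
      of_not_not fun h => hX (hPQ ▸ hrel Q X h)
    rw [h1, h2]
  set S := (hfin X).toFinset with hS
  obtain ⟨g, hgR, hg0, hg1, hgS⟩ := Spec.exists_coordRing_test hord hsep S
    (fun R hR => hside X hX R ((hfin X).mem_toFinset.mp hR)) (r P) hP
  obtain ⟨f, hfR, hfg⟩ := hlift g hgR
  have key : ∀ P₀, r P₀ = r P → ∃ (f₀ : F) (E : Divisor L F), D.Reduces f₀ g ∧ IsDivisorOf E f₀ ∧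
      Finsupp.mapDomain r (T E) X = Finsupp.mapDomain r (T (Finsupp.single P₀ 1)) X := by
    intro P₀ h0
    obtain ⟨c, E, -, hred, hE, hEP, hrest⟩ :=
      exists_test_divisor D hdeg hr hreg hfR hfg (P := P₀) (h0 ▸ hP) (h0 ▸ hg1)
    refine ⟨_, E, hred, hE, ?_⟩
    conv_lhs => rw [← E.sum_single, Finsupp.sum, map_sum, ← Finsupp.mapDomain.addMonoidHom_apply,
      map_sum, Finsupp.finsetSum_apply]
    rw [Finset.sum_eq_single P₀, hEP]
    · rfl
    · intro P' hP' hne
      rw [Finsupp.mapDomain.addMonoidHom_apply, ← mul_one (E P'), ← smul_eq_mul,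
        ← Finsupp.smul_single, map_zsmul, Finsupp.mapDomain_smul, Finsupp.smul_apply]
      by_contra h
      have hrel' := hrel P' X fun h0' => h (by rw [h0', smul_zero])
      have hx' := hside X hX _ hrel'
      obtain ⟨hne', hpos⟩ := hrest P' hne (Finsupp.mem_support_iff.mp hP') hx'
      have := hgS (r P') ((hfin X).mem_toFinset.mpr hrel') (h0 ▸ hne')
      omega
    · intro h
      exact absurd (Finsupp.mem_support_iff.mpr (by rw [hEP]; exact one_ne_zero)) h
  obtain ⟨f₁, E₁, hf₁, hE₁, h₁⟩ := key P rfl
  obtain ⟨f₂, E₂, hf₂, hE₂, h₂⟩ := key Q hPQ.symm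
  rw [← h₁, ← h₂, hT f₁ f₂ g hf₁ hf₂ hg0 E₁ E₂ hE₁ hE₂]

omit [Field F] [Algebra L F] in
/-- An additive map whose values on points only depend on their images kills the kernel of
`mapDomain`. -/
theorem map_eq_zero_of_mapDomain {α β G : Type*} [AddCommGroup G] (r : α → β)
    (Ψ : (α →₀ ℤ) →+ G)
    (h : ∀ P Q, r P = r Q → Ψ (Finsupp.single P 1) = Ψ (Finsupp.single Q 1)) {E : α →₀ ℤ}
    (hE : Finsupp.mapDomain r E = 0) : Ψ E = 0 := by
  classical
  let v : β → G := fun R => if hR : ∃ P, r P = R then Ψ (Finsupp.single hR.choose 1) else 0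
  have hv : ∀ P, Ψ (Finsupp.single P 1) = v (r P) := fun P => by
    have hR : ∃ P', r P' = r P := ⟨P, rfl⟩
    simp only [v, dif_pos hR]
    exact h _ _ hR.choose_spec.symm
  have : Ψ E = (Finsupp.mapDomain r E).sum fun R m => m • v R := by
    rw [Finsupp.sum_mapDomain_index (h := fun R (m : ℤ) => m • v R) (fun R => zero_smul ℤ (v R))
      fun R m m' => add_smul m m' (v R)]
    conv_lhs => rw [← E.sum_single, map_finsuppSum]
    refine Finsupp.sum_congr fun P _ => ?_
    rw [← mul_one (E P), ← smul_eq_mul, ← Finsupp.smul_single, map_zsmul, hv, smul_eq_mul, mul_one]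
  rw [this, hE, Finsupp.sum_zero_index]

end Fermat.Agent.LL.Mazur
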