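import Fermat.Agent.LL.Mazur.GaussHecke
import Fermat.Agent.LL.Mazur.HeckeNorm
import Fermat.Agent.LL.Mazur.RedHecke
import Fermat.Agent.RED.X0LiftAll
import Fermat.Agent.RED.Specialization.Kronecker
import Fermat.Agent.BAD.Twin.Laurent

/-!
# Reduction of divisors of `X₀(M)` commutes with `T_l`

Good reduction at `r ∤ M l`: the reduction of `T_l E` only depends on the reduction of `E`; on
functions it is given by `normSeries`.
-/

set_option autoImplicit false
set_option linter.unusedSectionVars false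
set_option linter.style.haveILetI false

noncomputable section

open ModularCurve AlgebraicCurve Fermat.Agent.RED IsLocalRing Fermat.Agent.HK.Corr

namespace Fermat.Agent.LL.Mazur

local notation "Qb" => AlgebraicClosure ℚ

variable {M r : ℕ} [NeZero M] {A : ValuationSubring Qb}
  (hr : r.Prime) (hrM : ¬ r ∣ M) (hA : A.LiesOverPrime r)

/-- The reduction of points of `X₀(M)`. -/
def redPl : Place Qb (modularFunctionFieldBar M) →
    Place (ResidueField A) (modularFunctionFieldFullC (ResidueField A) M) :=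
  x0RedPlace hr hrM hA (x0Lift hr hrM hA)

/-- A reduction in the sense of `x0Red` is a Gauss reduction of the series. -/
theorem gRed_of_reduces {f : modularFunctionFieldBar M}
    {g : modularFunctionFieldFullC (ResidueField A) M}
    (h : (x0Red hr hrM hA).toDatum.Reduces f g) :
    GRed (residue A) (f : LaurentSeries Qb) (g : LaurentSeries (ResidueField A)) := by
  obtain ⟨hf, rfl⟩ := h
  obtain ⟨y, z, hfr, hred⟩ :=
    BAD.Gauss.exists_isFrac_of_constRed (good_modL hr hrM hA) ⟨f, hf⟩
  exact ⟨y, z, hfr, hred⟩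

/-- A Gauss reduction of a function is the series of a function. -/
theorem exists_reduces_of_gRed {f : modularFunctionFieldBar M} {φ : LaurentSeries (ResidueField A)}
    (h : GRed (residue A) (f : LaurentSeries Qb) φ) :
    ∃ g : modularFunctionFieldFullC (ResidueField A) M,
      (g : LaurentSeries (ResidueField A)) = φ ∧ (x0Red hr hrM hA).toDatum.Reduces f g := by
  set R := x0Red hr hrM hA
  rcases eq_or_ne f 0 with rfl | hf
  · exact ⟨0, (gRed_of_reduces hr hrM hA R.toDatum.reduces_zero).unique h, R.toDatum.reduces_zero⟩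
  obtain ⟨c, w, hc, hw, hfw⟩ := R.exists_scale hf
  have hwr := gRed_of_reduces hr hrM hA (R.reduces_coe w)
  have hfs : (f : LaurentSeries Qb) =
      algebraMap Qb (LaurentSeries Qb) c * ((w : R.W) : modularFunctionFieldBar M).1 :=
    congrArg (fun e : modularFunctionFieldBar M => (e : LaurentSeries Qb)) hfw
  by_cases hcA : c ∈ A
  · have hred : R.toDatum.Reduces f
        (algebraMap (ResidueField A) _ (residue A ⟨c, hcA⟩) * R.red w) :=
      hfw ▸ (R.toDatum.reduces_algebraMap ⟨c, hcA⟩).mul (R.reduces_coe w)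
    exact ⟨_, (gRed_of_reduces hr hrM hA hred).unique h, hred⟩
  · exfalso
    have hci : c⁻¹ ∈ A := (A.mem_or_inv_mem c).resolve_left hcA
    have h0 : residue A ⟨c⁻¹, hci⟩ = 0 := by
      rw [residue_eq_zero_iff, mem_maximalIdeal, mem_nonunits_iff]
      intro hu
      obtain ⟨v, hv⟩ := hu.exists_right_inv
      have h1 : c⁻¹ * (v : Qb) = 1 := congrArg Subtype.val hv
      exact hcA ((eq_of_inv_mul_eq_one h1).symm ▸ v.2)
    have h1 := (gRed_algebraMap (π := residue A) ⟨c⁻¹, hci⟩).mul h
    rw [h0, map_zero, zero_mul, hfs, ← mul_assoc, ← map_mul, inv_mul_cancel₀ hc, map_one,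
      one_mul] at h1
    exact hw (Subtype.ext (hwr.unique h1))

theorem reduces_of_gRed {f : modularFunctionFieldBar M}
    {g : modularFunctionFieldFullC (ResidueField A) M}
    (h : GRed (residue A) (f : LaurentSeries Qb) (g : LaurentSeries (ResidueField A))) :
    (x0Red hr hrM hA).toDatum.Reduces f g := by
  obtain ⟨g', hg', hred⟩ := exists_reduces_of_gRed hr hrM hA h
  rwa [show g = g' from Subtype.ext hg'.symm]

theorem isPlaceReduction_redPl :
    IsPlaceReduction (x0Red hr hrM hA).toDatum (redPl hr hrM hA) :=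
  haveI := hasPrincipalDivisors_bar M
  (exists_twoCharts_x0 hr hrM hA (x0Lift hr hrM hA)).choose_spec.isPlaceReduction_redPlace

/-- The divisor of an integral function reduces to the divisor of its reduction. -/
theorem mapDomain_redPl {h : modularFunctionFieldBar M}
    {φ : modularFunctionFieldFullC (ResidueField A) M} (hφ : φ ≠ 0)
    (hh : GRed (residue A) (h : LaurentSeries Qb) (φ : LaurentSeries (ResidueField A)))
    {E : Divisor Qb (modularFunctionFieldBar M)} (hE : IsDivisorOf E h) :
    IsDivisorOf (Finsupp.mapDomain (redPl hr hrM hA) E) φ :=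
  isPlaceReduction_redPl hr hrM hA h φ (reduces_of_gRed hr hrM hA hh) hφ E hE

include hr hrM hA in
/-- Every function of the special fibre is a reduction. -/
theorem exists_lift_gRed {φ : modularFunctionFieldFullC (ResidueField A) M} (hφ : φ ≠ 0) :
    ∃ h : modularFunctionFieldBar M, h ≠ 0 ∧
      GRed (residue A) (h : LaurentSeries Qb) (φ : LaurentSeries (ResidueField A)) := by
  obtain ⟨w, hw⟩ := (x0Red hr hrM hA).red_surjective φ
  refine ⟨w, ?_, gRed_of_reduces hr hrM hA (hw ▸ (x0Red hr hrM hA).reduces_coe w)⟩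
  exact ((x0Red hr hrM hA).reduces_coe w).ne_zero (hw.symm ▸ hφ)

/-- Every point of the special fibre is a reduction. -/
theorem redPl_surjective : Function.Surjective (redPl hr hrM hA) := by
  classical
  intro R
  haveI := hasPrincipalDivisors_bar M
  obtain ⟨t, ht0, ht⟩ := FF.exists_ord_eq_one R
  obtain ⟨h, hh0, hh⟩ := exists_lift_gRed hr hrM hA ht0
  obtain ⟨E, hE⟩ := exists_isDivisorOf (L := Qb) hh0
  have hR : R ∈ (Finsupp.mapDomain (redPl hr hrM hA) E).support := by
    rw [Finsupp.mem_support_iff, mapDomain_redPl hr hrM hA ht0 hh hE R, ht]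
    exact one_ne_zero
  obtain ⟨P, -, hP⟩ := Finset.mem_image.mp (Finsupp.mapDomain_support hR)
  exact ⟨P, hP⟩

/-- The value at a restricted place. -/
theorem pval_restrict {K F F' : Type*} [Field K] [Field F] [Field F'] [Algebra K F] [Algebra K F']
    [Algebra F F'] [IsScalarTower K F F'] [Algebra.IsIntegral F F'] (w : Place K F')
    (hw : w.deg = 1) (hv : (w.restrict F).deg = 1) {f : F}
    (hf : f ∈ (w.restrict F).toValuationSubring) :
    pval w (algebraMap F F' f) = pval (w.restrict F) f := by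
  set c := pval (w.restrict F) f
  have hf' : algebraMap F F' f ∈ w.toValuationSubring := hf
  refine sub_eq_zero.mp ?_
  rw [← pval_algebraMap hw c, ← pval_sub hw hf' (w.algebraMap_mem' c),
    pval_eq_zero_iff hw (sub_mem hf' (w.algebraMap_mem' c)),
    IsScalarTower.algebraMap_apply K F F', ← map_sub, map_eq_zero, w.ord_restrict]
  refine (pval_sub_algebraMap hv hf).imp_right fun h => ?_
  exact mul_pos (by exact_mod_cast w.ramificationIndex_pos (F := F)) h

/-- A nonzero function has only finitely many zeros and poles. -/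
theorem finite_ord_ne_zero {K F : Type*} [Field K] [Field F] [Algebra K F]
    [HasPrincipalDivisors K F] {f : F} (hf : f ≠ 0) : {v : Place K F | v.ord f ≠ 0}.Finite := by
  obtain ⟨E, hE⟩ := exists_isDivisorOf (L := K) hf
  exact E.support.finite_toSet.subset fun v hv => Finsupp.mem_support_iff.mpr (hE v ▸ hv)

variable {l : ℕ} [NeZero l] (hl : l.Prime) (hlM : ¬ l ∣ M) (hlr : l ≠ r)

/-- The relation between the reduction of a point and those of its images under `T_l`: both
cusps, or both finite and related by the modular polynomial. -/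
def HeckeRel (hl : l.Prime) (R X : Place (ResidueField A)
    (modularFunctionFieldFullC (ResidueField A) M)) : Prop :=
  haveI := Fact.mk hl
  (jSpecial M ∈ R.toValuationSubring ↔ jSpecial M ∈ X.toValuationSubring) ∧
    (jSpecial M ∈ X.toValuationSubring →
      (Spec.modPoly l).eval₂ (Spec.evZ (pval X (jSpecial (k := ResidueField A) M)))
        (pval R (jSpecial (k := ResidueField A) M)) = 0)

include hr hrM hA in
theorem finite_heckeRel (X : Place (ResidueField A)
    (modularFunctionFieldFullC (ResidueField A) M)) : {R | HeckeRel hl R X}.Finite := by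
  classical
  haveI := Fact.mk hl
  haveI := Galois.place_residueField_isAlgClosed A
  haveI := isFunctionField_special M (natCast_residue_ne_zero hr hrM hA)
  set j := jSpecial (k := ResidueField A) M
  have hj0 : j ≠ 0 := fun e => transcendental_jSpecial M (e ▸ isAlgebraic_zero)
  by_cases hX : j ∈ X.toValuationSubring
  · set p : Polynomial (ResidueField A) := (Spec.modPoly l).map (Spec.evZ (pval X j))
    have hp : p ≠ 0 := ((Spec.modPoly_monic l).map _).ne_zero
    refine (Set.Finite.biUnion p.roots.toFinset.finite_toSet fun d _ =>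
      finite_ord_ne_zero (K := ResidueField A) (f := j - algebraMap _ _ d) fun e => ?_).subset ?_
    · exact transcendental_sub_algebraMap (transcendental_jSpecial M) d (e ▸ isAlgebraic_zero)
    · rintro R ⟨hiff, heq⟩
      have hR := hiff.mpr hX
      refine Set.mem_biUnion (x := pval R j) ?_ ?_
      · rw [Finset.mem_coe, Multiset.mem_toFinset, Polynomial.mem_roots hp, Polynomial.IsRoot,
          Polynomial.eval_map]
        exact heq hX
      · refine ((pval_sub_algebraMap (R.deg_eq_one_of_isAlgClosed_of_finite) hR).resolve_left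
          fun e => ?_).ne'
        exact transcendental_sub_algebraMap (transcendental_jSpecial M) (pval R j)
          (e ▸ isAlgebraic_zero)
  · refine (finite_ord_ne_zero (K := ResidueField A) hj0).subset ?_
    rintro R ⟨hiff, -⟩ h0
    exact hX (hiff.mp (mem_of_ord_nonneg R (le_of_eq h0.symm)))

/-- A point in the support of a correspondence comes from a place of the covering curve. -/
theorem exists_place_correspondence {K F F' β : Type*} [Field K] [Field F] [Field F'] [Algebra K F]
    [Algebra K F'] [HasPrincipalDivisors K F'] (hdeg : ∀ v : Place K F, v.deg = 1)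
    (hdeg' : ∀ w : Place K F', w.deg = 1) (φ ψ : F →ₐ[K] F') (hφ : φ.toRingHom.IsIntegral)
    (hψ : ψ.toRingHom.IsIntegral) (red : Place K F → β) {P : Place K F} {X : β}
    (hX : Finsupp.mapDomain red (Divisor.correspondence φ ψ hφ hψ (Finsupp.single P 1)) X ≠ 0) :
    ∃ (W : Place K F') (Q : Place K F), red Q = X ∧
      (∀ f, (f ∈ P.toValuationSubring ↔ φ f ∈ W.toValuationSubring) ∧
        (f ∈ P.toValuationSubring → pval W (φ f) = pval P f)) ∧
      ∀ f, (f ∈ Q.toValuationSubring ↔ ψ f ∈ W.toValuationSubring) ∧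
        (f ∈ Q.toValuationSubring → pval W (ψ f) = pval Q f) := by
  classical
  rw [Divisor.correspondence_apply] at hX
  set U := Divisor.pullbackAlong φ hφ (Finsupp.single P 1)
  obtain ⟨W, hWU, Q, hQX, hQ⟩ : ∃ W ∈ U.support, ∃ Q, red Q = X ∧
      ∀ f, (f ∈ Q.toValuationSubring ↔ ψ f ∈ W.toValuationSubring) ∧
        (f ∈ Q.toValuationSubring → pval W (ψ f) = pval Q f) := by
    by_contra hno
    push Not at hno
    apply hX
    letI := algebraAlong ψ
    haveI := isScalarTower_along ψ
    haveI := isIntegral_along ψ hψ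
    show Finsupp.mapDomain red (Divisor.pushforward F U) X = 0
    rw [← U.sum_single, Finsupp.sum, map_sum, Finsupp.mapDomain_finsetSum,
      Finsupp.finsetSum_apply]
    refine Finset.sum_eq_zero fun W hW => ?_
    rw [Divisor.pushforward_single, Finsupp.mapDomain_single, Finsupp.single_eq_of_ne]
    intro h
    obtain ⟨f, hf⟩ := hno W hW (W.restrict F) h.symm
    obtain ⟨h1, h2⟩ := hf ⟨fun h => h, fun h => h⟩
    exact h2 (pval_restrict W (hdeg' W) (hdeg _) h1)
  letI := algebraAlong φ
  haveI := isScalarTower_along φ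
  haveI := isIntegral_along φ hφ
  have hP : W.restrict F = P := Finset.mem_singleton.mp (Finsupp.support_single_subset
    (Divisor.restrict_mem_support_of_mem_support_pullback hWU))
  subst hP
  exact ⟨W, Q, hQX, fun f => ⟨Iff.rfl, fun h => pval_restrict W (hdeg' W) (hdeg _) h⟩, hQ⟩

/-- Integrality and values of the coordinate at the two ends of an isogeny. -/
theorem integral_iff_and_relation [Fact l.Prime] {F F' : Type*} [Field F] [Field F'] [Algebra Qb F]
    [Algebra Qb F'] (W : Place Qb F') (hW : W.deg = 1) {P Q : Place Qb F} {x : F} {a b : F'}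
    (hP : (x ∈ P.toValuationSubring ↔ b ∈ W.toValuationSubring) ∧
      (x ∈ P.toValuationSubring → pval W b = pval P x))
    (hQ : (x ∈ Q.toValuationSubring ↔ a ∈ W.toValuationSubring) ∧
      (x ∈ Q.toValuationSubring → pval W a = pval Q x))
    (hab : (Spec.modPoly l).eval₂ (Spec.evZ a) b = 0)
    (hba : (Spec.modPoly l).eval₂ (Spec.evZ b) a = 0) :
    (IsIntegralPlace A x P ↔ IsIntegralPlace A x Q) ∧
      (IsIntegralPlace A x Q →
        (Spec.modPoly l).eval₂ (Spec.evZ (pval Q x)) (pval P x) = 0) := by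
  have fwd : IsIntegralPlace A x Q → IsIntegralPlace A x P ∧
      (Spec.modPoly l).eval₂ (Spec.evZ (pval Q x)) (pval P x) = 0 := by
    rintro ⟨h1, h2⟩
    have ha := hQ.1.mp h1
    obtain ⟨hb, hbA, heq⟩ := Spec.modPoly_place_integral l A W hW hab ha
      (by rw [← pval_eq hW ha, hQ.2 h1]; exact h2)
    have hx := hP.1.mpr hb
    rw [← pval_eq hW hb, hP.2 hx] at hbA heq
    rw [← pval_eq hW ha, hQ.2 h1] at heq
    exact ⟨⟨hx, hbA⟩, heq⟩
  refine ⟨⟨fun h => ?_, fun h => (fwd h).1⟩, fun h => (fwd h).2⟩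
  obtain ⟨h1, h2⟩ := h
  have hb := hP.1.mp h1
  obtain ⟨ha, haA, -⟩ := Spec.modPoly_place_integral l A W hW hba hb
    (by rw [← pval_eq hW hb, hP.2 h1]; exact h2)
  have hx := hQ.1.mpr ha
  rw [← pval_eq hW ha, hQ.2 hx] at haA
  exact ⟨hx, haA⟩

theorem coe_jPlace_eq : (RamBound.jPlace M : LaurentSeries Qb) = jqModC Qb := by
  rw [jPlace_eq_jElem]
  rfl

/-- The modular relations between the two pullbacks of `j`. -/
theorem modPoly_degeneracy [Fact l.Prime] :
    (Spec.modPoly l).eval₂ (Spec.evZ (heckeAlphaBar Qb M l (RamBound.jPlace M)))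
        (heckeBetaBar Qb M l (RamBound.jPlace M)) = 0 ∧
      (Spec.modPoly l).eval₂ (Spec.evZ (heckeBetaBar Qb M l (RamBound.jPlace M)))
        (heckeAlphaBar Qb M l (RamBound.jPlace M)) = 0 := by
  have hac : (heckeAlphaBar Qb M l (RamBound.jPlace M) : LaurentSeries Qb) = jqModC Qb :=
    (coe_heckeAlphaBar M l _).trans coe_jPlace_eq
  have hbc : (heckeBetaBar Qb M l (RamBound.jPlace M) : LaurentSeries Qb) = jqNModC Qb l :=
    (coe_heckeBetaBar M l _).trans (congrArg (qExpand Qb l) coe_jPlace_eq)
  constructor <;> apply (laurentBaseChange Qb (modularFunctionFieldFull (M * l))).val.injective <;>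
    rw [map_zero, Polynomial.hom_eval₂, Spec.evZ_comp]
  · show (Spec.modPoly l).eval₂
      (Spec.evZ (heckeAlphaBar Qb M l (RamBound.jPlace M) : LaurentSeries Qb))
      (heckeBetaBar Qb M l (RamBound.jPlace M) : LaurentSeries Qb) = 0
    rw [hac, hbc]
    exact Spec.modPoly_relation l Qb
  · show (Spec.modPoly l).eval₂
      (Spec.evZ (heckeBetaBar Qb M l (RamBound.jPlace M) : LaurentSeries Qb))
      (heckeAlphaBar Qb M l (RamBound.jPlace M) : LaurentSeries Qb) = 0
    rw [hac, hbc]
    exact Spec.modPoly_relation_swap l ((IsAlgClosed.lift : Qb →ₐ[ℚ] ℂ).toRingHom)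

/-- The image of a point under `T_l` is related to it. -/
theorem heckeRel_of_mapDomain_ne_zero {P : Place Qb (modularFunctionFieldBar M)}
    {X : Place (ResidueField A) (modularFunctionFieldFullC (ResidueField A) M)}
    (hX : Finsupp.mapDomain (redPl hr hrM hA) (heckeDiv M l (Finsupp.single P 1)) X ≠ 0) :
    HeckeRel hl (redPl hr hrM hA P) X := by
  haveI := Fact.mk hl
  haveI := hasPrincipalDivisors_level Qb (M * l)
  haveI : FF.IsFunctionField Qb (laurentBaseChange Qb (modularFunctionFieldFull (M * l))) :=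
    MF.Coeff.isFunctionField_laurentBaseChange Qb (M * l)
  haveI : FF.IsFunctionField Qb (modularFunctionFieldBar M) :=
    MF.Coeff.isFunctionField_laurentBaseChange Qb M
  obtain ⟨W, Q, hQX, hP, hQ⟩ := exists_place_correspondence
    (fun v => v.deg_eq_one_of_isAlgClosed_of_finite) (fun w => w.deg_eq_one_of_isAlgClosed_of_finite)
    (heckeBetaBar Qb M l) (heckeAlphaBar Qb M l) _ _ (redPl hr hrM hA) hX
  obtain ⟨hiff, heq⟩ := integral_iff_and_relation (A := A) W
    W.deg_eq_one_of_isAlgClosed_of_finite (hP (RamBound.jPlace M)) (hQ (RamBound.jPlace M))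
    modPoly_degeneracy.1 modPoly_degeneracy.2
  have hsideP := jSpecial_mem_x0RedPlace_iff hr hrM hA (x0Lift hr hrM hA) P
  have hsideQ := jSpecial_mem_x0RedPlace_iff hr hrM hA (x0Lift hr hrM hA) Q
  rw [← hQX]
  refine ⟨hsideP.trans (hiff.trans hsideQ.symm), fun hm => ?_⟩
  have hQI := hsideQ.mp hm
  have hPI := hiff.mpr hQI
  rw [redPl, pval_x0RedPlace hr hrM hA _ hQI ⟨_, hQI.2⟩ rfl,
    pval_x0RedPlace hr hrM hA _ hPI ⟨_, hPI.2⟩ rfl]
  have h0 : (Spec.modPoly l).eval₂ (Spec.evZ (⟨_, hQI.2⟩ : A)) ⟨_, hPI.2⟩ = 0 := by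
    apply A.subtype_injective
    rw [Polynomial.hom_eval₂, Spec.evZ_comp, map_zero]
    exact heq hQI
  have h1 := congrArg (residue A) h0
  rwa [Polynomial.hom_eval₂, Spec.evZ_comp, map_zero] at h1

include hl hlM in
/-- The norm along `T_l` of an integral function is integral, with reduction given by
`normSeries`. -/
theorem exists_reduces_heckeNorm {ζ : Aˣ} (hζ : IsPrimitiveRoot ζ l)
    {f : modularFunctionFieldBar M} {g : modularFunctionFieldFullC (ResidueField A) M}
    (hfg : (x0Red hr hrM hA).toDatum.Reduces f g) (hg : g ≠ 0) :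
    ∃ χ : modularFunctionFieldFullC (ResidueField A) M, χ ≠ 0 ∧
      qExpand (ResidueField A) l (χ : LaurentSeries (ResidueField A)) =
        normSeries l (Units.map (residue A).toMonoidHom ζ)
          (g : LaurentSeries (ResidueField A)) ∧
      (x0Red hr hrM hA).toDatum.Reduces (heckeNorm M l f) χ := by
  have hf0 := hfg.ne_zero hg
  have hD := HK.Corr.degreeInput Qb
  have hζL : IsPrimitiveRoot (Units.map (A.subtype : A →* Qb) ζ) l :=
    hζ.map_of_injective (Units.map_injective Subtype.coe_injective)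
  have hexp : qExpand Qb l ((heckeNorm M l f : modularFunctionFieldBar M) : LaurentSeries Qb) =
      qExpand Qb (l * l) (f : LaurentSeries Qb) *
        ∏ i : Fin l, Spec.twist (Units.map (A.subtype : A →* Qb) ζ ^ (i : ℕ))
          (f : LaurentSeries Qb) :=
    Spec.qExpand_norm_heckeBetaBar ((IsAlgClosed.lift : Qb →ₐ[ℚ] ℂ).toRingHom) hl hlM
      (HK.Corr.heckeAlphaBarIntegral_of M l hD) (HK.Corr.finiteAlong_heckeAlphaBar M l hD)
      (HK.Corr.finrankAlong_heckeAlphaBar_of_not_dvd M l hD hl hlM) _ hζL f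
  have h1 := (gRed_of_reduces hr hrM hA hfg).normSeries l ζ
  rw [← hexp] at h1
  obtain ⟨c, w, hc, hw, hfw⟩ :=
    (x0Red hr hrM hA).exists_scale (heckeNorm_ne_zero M l hf0)
  have hw' := gRed_of_reduces hr hrM hA ((x0Red hr hrM hA).reduces_coe w)
  have hscale : algebraMap Qb (LaurentSeries Qb) c⁻¹ *
      ((heckeNorm M l f : modularFunctionFieldBar M) : LaurentSeries Qb) =
      ((w : (x0Red hr hrM hA).W) : modularFunctionFieldBar M).1 := by
    rw [hfw, MulMemClass.coe_mul, ← mul_assoc]
    show algebraMap Qb (LaurentSeries Qb) c⁻¹ * algebraMap Qb (LaurentSeries Qb) c * _ = _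
    rw [← map_mul, inv_mul_cancel₀ hc, map_one, one_mul]
  rw [← hscale] at hw'
  obtain ⟨φ, hφ, hφχ⟩ := GRed.of_qExpand residue_surjective h1 hw'
    fun e => hw (Subtype.ext e)
  obtain ⟨χ, rfl, hχ⟩ := exists_reduces_of_gRed hr hrM hA hφ
  refine ⟨χ, fun e => ?_, hφχ, hχ⟩
  rw [e, ZeroMemClass.coe_zero, map_zero] at hφχ
  exact normSeries_ne_zero l _ (fun h => hg (Subtype.ext h)) hφχ.symm

include hl in
theorem exists_primitiveRoot_units : ∃ ζ : Aˣ, IsPrimitiveRoot ζ l := by
  haveI : NeZero (l : Qb) := ⟨Nat.cast_ne_zero.mpr hl.ne_zero⟩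
  obtain ⟨z, hz⟩ := HasEnoughRootsOfUnity.exists_primitiveRoot Qb l
  have hzA : z ∈ A := by
    rcases A.mem_or_inv_mem z with h | h
    · exact h
    · have hinv : z⁻¹ ^ (l - 1) = z := by
        have h1 : z⁻¹ ^ (l - 1) * z⁻¹ = 1 := by
          rw [← pow_succ, Nat.sub_add_cancel hl.one_le, inv_pow, hz.pow_eq_one, inv_one]
        exact eq_of_mul_inv_eq_one h1
      exact hinv ▸ pow_mem h _
  have hz' : IsPrimitiveRoot (⟨z, hzA⟩ : A) l :=
    IsPrimitiveRoot.of_map_of_injective (f := A.subtype) hz Subtype.coe_injective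
  obtain ⟨u, hu⟩ := hz'.isUnit hl.ne_zero
  exact ⟨u, IsPrimitiveRoot.coe_units_iff.mp (hu ▸ hz')⟩

include hl hlM in
/-- Points with the same reduction have images under `T_l` with the same reduction. -/
theorem mapDomain_heckeDiv_single_eq {P Q : Place Qb (modularFunctionFieldBar M)}
    (hPQ : redPl hr hrM hA P = redPl hr hrM hA Q) :
    Finsupp.mapDomain (redPl hr hrM hA) (heckeDiv M l (Finsupp.single P 1)) =
      Finsupp.mapDomain (redPl hr hrM hA) (heckeDiv M l (Finsupp.single Q 1)) := by
  haveI := Galois.place_residueField_isAlgClosed A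
  haveI := hasPrincipalDivisors_bar M
  obtain ⟨ζ, hζ⟩ := exists_primitiveRoot_units (A := A) hl
  obtain ⟨n, hC⟩ := exists_twoCharts_x0 hr hrM hA (x0Lift hr hrM hA)
  have hdeg := hC.finite.coordGeneric.deg_one
  have hred := isPlaceReduction_redPl hr hrM hA
  have hT : ∀ f f' g, (x0Red hr hrM hA).toDatum.Reduces f g →
      (x0Red hr hrM hA).toDatum.Reduces f' g → g ≠ 0 →
      ∀ E E' : Divisor Qb (modularFunctionFieldBar M), IsDivisorOf E f → IsDivisorOf E' f' →
        Finsupp.mapDomain (redPl hr hrM hA) (heckeDiv M l E) =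
          Finsupp.mapDomain (redPl hr hrM hA) (heckeDiv M l E') := by
    intro f f' g hf hf' hg E E' hE hE'
    obtain ⟨χ, hχ0, hχ, hχr⟩ := exists_reduces_heckeNorm hr hrM hA hl hlM hζ hf hg
    obtain ⟨χ', -, hχ', hχr'⟩ := exists_reduces_heckeNorm hr hrM hA hl hlM hζ hf' hg
    obtain rfl : χ = χ' :=
      Subtype.ext ((qExpand (ResidueField A) l).injective (hχ.trans hχ'.symm))
    ext X
    rw [hred _ _ hχr hχ0 _ (isDivisorOf_heckeNorm M l (hf.ne_zero hg) hE) X,
      hred _ _ hχr' hχ0 _ (isDivisorOf_heckeNorm M l (hf'.ne_zero hg) hE') X]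
  have hrel : ∀ P X, Finsupp.mapDomain (redPl hr hrM hA) (heckeDiv M l (Finsupp.single P 1)) X ≠ 0 →
      HeckeRel hl (redPl hr hrM hA P) X :=
    fun P X h => heckeRel_of_mapDomain_ne_zero hr hrM hA hl h
  have hfin := finite_heckeRel hr hrM hA (M := M) hl
  have hmem := fun P => jSpecial_mem_x0RedPlace_iff hr hrM hA (x0Lift hr hrM hA) P
  by_cases hP : jSpecial M ∈ (redPl hr hrM hA P).toValuationSubring
  · exact mapDomain_single_eq _ (heckeDiv M l) hdeg hred hT hrel hfin
      (x := RamBound.jPlace M) (fun P h => ((hmem P).mp h).1) (x0Lift hr hrM hA).1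
      hC.finite.coordSpecial.exists_ord_one hC.finite.coordSpecial.separate hPQ hP
      fun X hX R hR => hR.1.mpr (hX.1.mp hP)
  · refine mapDomain_single_eq _ (heckeDiv M l) hdeg hred hT hrel hfin
      (x := (RamBound.jPlace M)⁻¹) (fun P h => ?_) (x0Lift hr hrM hA).2
      hC.infinite.coordSpecial.exists_ord_one hC.infinite.coordSpecial.separate hPQ
      ((ValuationSubring.mem_or_inv_mem _ _).resolve_left hP)
      fun X hX R hR => (ValuationSubring.mem_or_inv_mem _ _).resolve_left
        fun hc => hP (hX.1.mpr (hR.1.mp hc))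
    by_contra hinv
    have hjm := (P.toValuationSubring.mem_or_inv_mem _).resolve_right hinv
    have hpos : 0 < P.ord (RamBound.jPlace M) := by
      have := not_le.mp fun hle => hinv (mem_of_ord_nonneg P (hle : (0 : ℤ) ≤ P.ord _))
      rw [P.ord_inv] at this
      omega
    have h0 : pval P (RamBound.jPlace M) = 0 := (pval_eq_zero_iff (hdeg P) hjm).mpr (Or.inr hpos)
    have hI : IsIntegralPlace A (RamBound.jPlace M) P := ⟨hjm, h0 ▸ zero_mem A⟩
    have hv := pval_x0RedPlace hr hrM hA (x0Lift hr hrM hA) hI 0 h0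
    rw [map_zero, pval_eq_zero_iff (hC.finite.coordSpecial.deg_one _) ((hmem P).mpr hI)] at hv
    have hn := ord_nonneg_of_mem _ h
    rw [Place.ord_inv] at hn
    exact (hv.resolve_left hC.special_coord_ne_zero).not_ge (neg_nonneg.mp hn)

include hl hlM hlr in
/-- The kernel of the reduction of divisors is stable under `T_l`. -/
theorem mapDomain_heckeDiv_eq_zero {E : Divisor Qb (modularFunctionFieldBar M)}
    (hE : Finsupp.mapDomain (redPl hr hrM hA) E = 0) :
    Finsupp.mapDomain (redPl hr hrM hA) (heckeDiv M l E) = 0 :=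
  map_eq_zero_of_mapDomain (redPl hr hrM hA)
    ((Finsupp.mapDomain.addMonoidHom (redPl hr hrM hA)).comp (heckeDiv M l))
    (fun _ _ h => mapDomain_heckeDiv_single_eq hr hrM hA hl hlM h) hE

include hl hlM hlr in
/-- **Transfer.** If `n E` reduces to the divisor of `φ`, then `n T_l E` reduces to the divisor of
the norm of `φ`. -/
theorem exists_norm_reduction {ζ : Aˣ} (hζ : IsPrimitiveRoot ζ l) {n : ℕ}
    {E : Divisor Qb (modularFunctionFieldBar M)}
    {φ : modularFunctionFieldFullC (ResidueField A) M} (hφ : φ ≠ 0)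
    (hE : IsDivisorOf (n • Finsupp.mapDomain (redPl hr hrM hA) E) φ) :
    ∃ χ : modularFunctionFieldFullC (ResidueField A) M, χ ≠ 0 ∧
      qExpand (ResidueField A) l (χ : LaurentSeries (ResidueField A)) =
        normSeries l (Units.map (residue A).toMonoidHom ζ) (φ : LaurentSeries (ResidueField A)) ∧
      IsDivisorOf (n • Finsupp.mapDomain (redPl hr hrM hA) (heckeDiv M l E)) χ := by
  haveI := hasPrincipalDivisors_bar M
  obtain ⟨h, hh0, hh⟩ := exists_lift_gRed hr hrM hA hφ
  obtain ⟨Fh, hFh⟩ := exists_isDivisorOf (L := Qb) hh0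
  let Ψ := Finsupp.mapDomain.addMonoidHom (M := ℤ) (redPl hr hrM hA)
  have hker : Ψ (n • E - Fh) = 0 := by
    rw [map_sub, map_nsmul, sub_eq_zero]
    ext X
    exact (hE X).trans (mapDomain_redPl hr hrM hA hφ hh hFh X).symm
  obtain ⟨χ, hχ0, hχ, hχr⟩ :=
    exists_reduces_heckeNorm hr hrM hA hl hlM hζ (reduces_of_gRed hr hrM hA hh) hφ
  refine ⟨χ, hχ0, hχ, ?_⟩
  have hT : Ψ (n • heckeDiv M l E) = Ψ (heckeDiv M l Fh) := by
    rw [← sub_eq_zero, ← map_sub, ← map_nsmul, ← map_sub]
    exact mapDomain_heckeDiv_eq_zero hr hrM hA hl hlM hlr hker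
  rw [map_nsmul] at hT
  intro X
  exact (DFunLike.congr_fun hT X).trans
    (isPlaceReduction_redPl hr hrM hA _ χ hχr hχ0 _ (isDivisorOf_heckeNorm M l hh0 hFh) X)

end Fermat.Agent.LL.Mazur
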