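import Fermat.Agent.LL.Mazur.Instance
import Fermat.Agent.LL.Mazur.HeckeNorm
import Fermat.Agent.RED.Specialization.NormExpansion

/-!
# The Hecke norm on the two branches

For `l ∤ M r` the norm of a unit of a branch is a unit of that
branch, reducing by `normSeries`.
-/

set_option autoImplicit false
set_option linter.style.haveILetI false
set_option synthInstance.maxHeartbeats 200000

noncomputable section

open AlgebraicCurve ModularCurve IsLocalRing Fermat.Agent.RED Fermat.Agent.BAD

namespace Fermat.Agent.LL.Mazur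

local notation "Qb" => AlgebraicClosure ℚ

variable {M r : ℕ} [NeZero M] [NeZero r] (hr : r.Prime) (hrM : ¬ r ∣ M)
  {A : ValuationSubring Qb} (hA : A.LiesOverPrime r)

include hr hrM hA in
/-- At level `M r`, the norm of a function with nonzero Gauss reduction `φ` has a Gauss reduction
`φ'` with `φ'(q^l) = normSeries φ`. -/
theorem exists_gRed_heckeNorm {l : ℕ} [NeZero l] (hl : l.Prime) (hlN : ¬ l ∣ M * r) {ζ : Aˣ}
    (hζ : IsPrimitiveRoot ζ l) {f : modularFunctionFieldBar (M * r)}
    {φ : LaurentSeries (ResidueField A)} (hf : GRed (residue A) (f : LaurentSeries Qb) φ)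
    (hφ : φ ≠ 0) :
    ∃ φ' : LaurentSeries (ResidueField A),
      GRed (residue A)
        ((heckeNorm (M * r) l f : modularFunctionFieldBar (M * r)) : LaurentSeries Qb) φ' ∧
      qExpand (ResidueField A) l φ' = normSeries l (Units.map (residue A).toMonoidHom ζ) φ := by
  have hf0 : f ≠ 0 := by
    rintro rfl
    exact hφ (hf.unique ⟨0, 1, ⟨by simp, by simp⟩, by simp⟩)
  have hD := HK.Corr.degreeInput Qb
  have hζL : IsPrimitiveRoot (Units.map (A.subtype : A →* Qb) ζ) l :=
    hζ.map_of_injective (Units.map_injective Subtype.coe_injective)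
  have hexp : qExpand Qb l
      ((heckeNorm (M * r) l f : modularFunctionFieldBar (M * r)) : LaurentSeries Qb) =
      qExpand Qb (l * l) (f : LaurentSeries Qb) *
        ∏ i : Fin l, Spec.twist (Units.map (A.subtype : A →* Qb) ζ ^ (i : ℕ))
          (f : LaurentSeries Qb) :=
    Spec.qExpand_norm_heckeBetaBar ((IsAlgClosed.lift : Qb →ₐ[ℚ] ℂ).toRingHom) hl hlN
      (HK.Corr.heckeAlphaBarIntegral_of (M * r) l hD)
      (HK.Corr.finiteAlong_heckeAlphaBar (M * r) l hD)
      (HK.Corr.finrankAlong_heckeAlphaBar_of_not_dvd (M * r) l hD hl hlN) _ hζL f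
  have h1 := hf.normSeries l ζ
  rw [← hexp] at h1
  obtain ⟨c, hc, hc0⟩ := (BAD.Modular.twin M hr hrM hA).scalable 0 (heckeNorm (M * r) l f)
    (heckeNorm_ne_zero (M * r) l hf0)
  have hc' : GRed (residue A) (algebraMap Qb (LaurentSeries Qb) c *
      ((heckeNorm (M * r) l f : modularFunctionFieldBar (M * r)) : LaurentSeries Qb))
      (Gauss.gaussRed (residue A) ⟨_, hc⟩) := by
    have h2 := gRed_gaussRed hc
    have e : BAD.Modular.emb M hr hrM 0 (c • heckeNorm (M * r) l f) =
        algebraMap Qb (LaurentSeries Qb) c *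
          ((heckeNorm (M * r) l f : modularFunctionFieldBar (M * r)) : LaurentSeries Qb) := by
      rw [Algebra.smul_def]
      rfl
    exact e ▸ h2
  exact GRed.of_qExpand residue_surjective h1 hc' hc0

theorem red_heckeNorm {l : ℕ} [NeZero l] (hl : l.Prime) (hlN : ¬ l ∣ M * r) {ζ : Aˣ}
    (hζ : IsPrimitiveRoot ζ l) {i : Fin 2} {g : modularFunctionFieldBar (M * r)}
    (hg : g ∈ (mCurve hr hrM hA).V i) (hg0 : (mCurve hr hrM hA).red i g ≠ 0) :
    heckeNorm (M * r) l g ∈ (mCurve hr hrM hA).V i ∧
      (mCurve hr hrM hA).red i (heckeNorm (M * r) l g) ≠ 0 ∧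
      qExpand (ResidueField A) l
          (((mCurve hr hrM hA).red i (heckeNorm (M * r) l g) :
            modularFunctionFieldFullC (ResidueField A) M) : LaurentSeries (ResidueField A)) =
        normSeries l (Units.map (residue A).toMonoidHom ζ)
          (((mCurve hr hrM hA).red i g : modularFunctionFieldFullC (ResidueField A) M) :
            LaurentSeries (ResidueField A)) := by
  have hrl : ¬ r ∣ l := fun h =>
    hlN (((Nat.prime_dvd_prime_iff_eq hr hl).mp h) ▸ dvd_mul_left r M)
  set φ : LaurentSeries (ResidueField A) :=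
    (((mCurve hr hrM hA).red i g : modularFunctionFieldFullC (ResidueField A) M) :
      LaurentSeries (ResidueField A))
  have hφ : φ ≠ 0 := fun h => hg0 (Subtype.ext h)
  have hgr : GRed (residue A) (BAD.Modular.emb M hr hrM i g) φ := gRed_red hr hrM hA hg
  obtain ⟨φ', hN, hφ'⟩ : ∃ φ' : LaurentSeries (ResidueField A),
      GRed (residue A) (BAD.Modular.emb M hr hrM i (heckeNorm (M * r) l g)) φ' ∧
        qExpand (ResidueField A) l φ' = normSeries l (Units.map (residue A).toMonoidHom ζ) φ := by
    fin_cases i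
    · exact exists_gRed_heckeNorm hr hrM hA hl hlN hζ hgr hφ
    · change GRed (residue A) (BAD.Modular.emb M hr hrM 1 g) φ at hgr
      rw [emb_one_eq] at hgr
      obtain ⟨φ', h, h'⟩ := exists_gRed_heckeNorm hr hrM hA hl hlN hζ hgr hφ
      refine ⟨φ', ?_, h'⟩
      show GRed (residue A) (BAD.Modular.emb M hr hrM 1 _) _
      rw [emb_one_eq, ← heckeNorm_wField hr hrM hrl]
      exact h
  have hV := (mem_V_iff hr hrM hA).mpr hN.mem
  have hu := (gRed_red hr hrM hA hV).unique hN
  refine ⟨hV, fun h0 => normSeries_ne_zero l _ hφ (hφ'.symm.trans ?_), by rw [hu, hφ']⟩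
  rw [← hu, h0, ZeroMemClass.coe_zero, map_zero]

end Fermat.Agent.LL.Mazur
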