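import Mathlib.Algebra.MonoidAlgebra.Basic
import Mathlib.LinearAlgebra.Matrix.Trace
import Mathlib.LinearAlgebra.Matrix.Notation
import Mathlib.LinearAlgebra.Matrix.NonsingularInverse
import Mathlib.LinearAlgebra.Matrix.Charpoly.Coeff
import Mathlib.Tactic.LinearCombination

/-!
# Actions satisfying the characteristic polynomial of a spanning plane representation

If every element acts on a module satisfying the characteristic polynomial of its image under a
two dimensional representation whose image spans the matrix algebra, then the action factors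
through the matrix algebra.
-/

set_option autoImplicit false

noncomputable section

namespace Fermat.Agent.LL.Mazur

variable {R G Y : Type*} [CommRing R] [Group G] [AddCommGroup Y] [Module R Y]
  (ρ : G →* Matrix (Fin 2) (Fin 2) R) (τ : G →* Module.End R Y)

/-- The representation on the group algebra. -/
abbrev algRep : MonoidAlgebra R G →ₐ[R] Matrix (Fin 2) (Fin 2) R :=
  MonoidAlgebra.lift R (Matrix (Fin 2) (Fin 2) R) G ρ

/-- The action on the group algebra. -/
abbrev algAct : MonoidAlgebra R G →ₐ[R] Module.End R Y :=
  MonoidAlgebra.lift R (Module.End R Y) G τ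

/-- The conjugate `tr - T`. -/
def algConj : MonoidAlgebra R G →ₗ[R] Module.End R Y :=
  ((LinearMap.toSpanSingleton R (Module.End R Y) 1).comp
    ((Matrix.traceLinearMap (Fin 2) R R).comp (algRep ρ).toLinearMap)) - (algAct τ).toLinearMap

theorem algConj_apply (x : MonoidAlgebra R G) :
    algConj ρ τ x = (algRep ρ x).trace • (1 : Module.End R Y) - algAct τ x := rfl

variable {ρ τ} (hq : ∀ g, τ g * τ g = (ρ g).trace • τ g - (ρ g).det • (1 : Module.End R Y))

include hq

theorem algConj_of (g : G) :
    algConj ρ τ (MonoidAlgebra.of R G g) = (ρ g).det • τ g⁻¹ := by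
  rw [algConj_apply]
  simp only [algRep, algAct, MonoidAlgebra.lift_of]
  have h := congrArg (· * τ g⁻¹) (hq g)
  simp only [sub_mul, smul_mul_assoc, one_mul, mul_assoc, ← map_mul, mul_inv_cancel, map_one,
    mul_one] at h
  rw [h, sub_sub_cancel]

theorem algConj_mul (x y : MonoidAlgebra R G) :
    algConj ρ τ (x * y) = algConj ρ τ y * algConj ρ τ x := by
  induction x using MonoidAlgebra.induction_on with
  | of g =>
    induction y using MonoidAlgebra.induction_on with
    | of h =>
      rw [← map_mul (MonoidAlgebra.of R G), algConj_of hq, algConj_of hq, algConj_of hq,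
        smul_mul_smul_comm, ← map_mul, map_mul ρ, Matrix.det_mul, mul_comm (ρ g).det,
        mul_inv_rev]
    | add y₁ y₂ h₁ h₂ => rw [mul_add, map_add, h₁, h₂, map_add, add_mul]
    | smul a y h => rw [mul_smul_comm, map_smul, h, map_smul, smul_mul_assoc]
  | add x₁ x₂ h₁ h₂ => rw [add_mul, map_add, h₁, h₂, map_add, mul_add]
  | smul a x h => rw [smul_mul_assoc, map_smul, h, map_smul, mul_smul_comm]

theorem act_mul_of_ker {x : MonoidAlgebra R G} (hx : algRep ρ x = 0) (y : MonoidAlgebra R G) :
    algAct τ x * algAct τ y = algConj ρ τ y * algAct τ x := by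
  have h := algConj_mul hq x y
  have hxy : algConj ρ τ (x * y) = -(algAct τ x * algAct τ y) := by
    rw [algConj_apply, map_mul, map_mul, hx, zero_mul, Matrix.trace_zero, zero_smul, zero_sub]
  have hx' : algConj ρ τ x = -algAct τ x := by
    rw [algConj_apply, hx, Matrix.trace_zero, zero_smul, zero_sub]
  rw [hxy, hx', mul_neg] at h
  exact neg_injective h

variable (hspan : Submodule.span R (Set.range ρ) = ⊤)

omit hq in
include hspan in
theorem algRep_surjective : Function.Surjective (algRep ρ) := by
  intro A
  have hle : Submodule.span R (Set.range ρ) ≤ LinearMap.range (algRep ρ).toLinearMap := by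
    rw [Submodule.span_le]
    rintro _ ⟨g, rfl⟩
    exact ⟨MonoidAlgebra.of R G g, MonoidAlgebra.lift_of ρ g⟩
  exact hle (hspan ▸ Submodule.mem_top)

include hspan in
/-- **The action factors through the matrix algebra.** -/
theorem algAct_eq_zero (h2 : IsUnit (2 : R)) {x : MonoidAlgebra R G} (hx : algRep ρ x = 0) :
    algAct τ x = 0 := by
  obtain ⟨a, ha⟩ := algRep_surjective hspan (!![0, 1; 0, 0] : Matrix (Fin 2) (Fin 2) R)
  obtain ⟨b, hb⟩ := algRep_surjective hspan (!![0, 0; 1, 0] : Matrix (Fin 2) (Fin 2) R)
  set T := algAct τ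
  set u := a * b - b * a with hu
  have hu0 : ∀ x', algRep ρ x' = 0 → T u * T x' = 0 := by
    intro x' hx'
    have h1 : algConj ρ τ (a * b) * T x' = algConj ρ τ (b * a) * T x' := by
      rw [← act_mul_of_ker hq hx', map_mul, ← mul_assoc, act_mul_of_ker hq hx' a, mul_assoc,
        act_mul_of_ker hq hx' b, ← mul_assoc, ← algConj_mul hq]
    have h3 : algConj ρ τ (b * a) - algConj ρ τ (a * b) = T u := by
      rw [algConj_apply, algConj_apply, map_mul (algRep ρ), map_mul (algRep ρ),
        Matrix.trace_mul_comm, hu, map_sub]
      abel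
    rw [← h3, sub_mul, h1, sub_self]
  set z := u * u - 1 with hz
  have hz0 : algRep ρ z = 0 := by
    rw [hz, hu, map_sub, map_mul, map_sub, map_mul, map_mul, ha, hb, map_one, sub_eq_zero]
    ext i j
    fin_cases i <;> fin_cases j <;> simp [Matrix.mul_apply, Fin.sum_univ_two]
  have hzx : ∀ x', algRep ρ x' = 0 → T z * T x' = -T x' := by
    intro x' hx'
    rw [hz, map_sub, map_mul, map_one, sub_mul, mul_assoc, hu0 x' hx', mul_zero, one_mul,
      zero_sub]
  have hxz : T x * T z = T x := by
    rw [act_mul_of_ker hq hx z, algConj_apply, hz0, Matrix.trace_zero, zero_smul, zero_sub,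
      neg_mul, hzx x hx, neg_neg]
  have hzz : T z * T z = T z := by
    rw [act_mul_of_ker hq hz0 z, algConj_apply, hz0, Matrix.trace_zero, zero_smul, zero_sub,
      neg_mul, hzx z hz0, neg_neg]
  have hTz : T z = 0 := by
    have h : (2 : R) • T z = 0 := by
      rw [two_smul]
      nth_rewrite 1 [← hzz]
      rw [hzx z hz0, neg_add_cancel]
    exact h2.smul_eq_zero.mp h
  rw [← hxz, hTz, mul_zero]

include hspan in
/-- A multiple of the action vanishes only if that multiple of the representation does. -/
theorem smul_algRep_eq_zero (h2 : IsUnit (2 : R)) (hfaith : ∀ a : R, (∀ y : Y, a • y = 0) → a = 0)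
    {c : R} {x : MonoidAlgebra R G} (hx : c • algAct τ x = 0) : c • algRep ρ x = 0 := by
  ext i j
  choose e he using fun k l : Fin 2 =>
    algRep_surjective hspan (Matrix.single k l (1 : R))
  set w := ∑ k : Fin 2, e k i * x * e j k with hw
  have hrep : algRep ρ w = algRep ρ ((algRep ρ x i j) • 1) := by
    rw [hw, map_sum, map_smul, map_one]
    ext a b
    simp only [map_mul, he, Matrix.sum_apply, Fin.sum_univ_two]
    fin_cases a <;> fin_cases b <;>
      simp [Matrix.mul_apply, Matrix.single_apply]
  have hact : c • algAct τ w = 0 := by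
    rw [hw, map_sum, Finset.smul_sum]
    refine Finset.sum_eq_zero fun k _ => ?_
    rw [map_mul, map_mul, ← smul_mul_assoc, ← mul_smul_comm, hx, mul_zero, zero_mul]
  have h0 := algAct_eq_zero hq hspan h2 (x := w - (algRep ρ x i j) • 1) (by rw [map_sub, hrep, sub_self])
  rw [map_sub, map_smul, map_one, sub_eq_zero] at h0
  rw [h0, smul_smul] at hact
  refine hfaith _ fun y => ?_
  have := LinearMap.congr_fun hact y
  simpa [Matrix.smul_apply, smul_smul] using this

end Fermat.Agent.LL.Mazur
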