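import Fermat.Agent.LL.Mazur.AtkinLehner
import Fermat.Prelude.Def_ModularCurve_X0ModL

/-!
# The Atkin–Lehner involution commutes with Galois
-/

set_option autoImplicit false

noncomputable section

open ModularCurve AlgebraicCurve IntermediateField Fermat.Agent.RED.Spec Fermat.Agent.HK.Corr

namespace Fermat.Agent.LL.Mazur

variable {M r : ℕ} [NeZero M] [NeZero r]

local notation "Qb" => AlgebraicClosure ℚ
local notation "GalQb" => AlgebraicClosure ℚ ≃ₐ[ℚ] AlgebraicClosure ℚ

theorem arithmeticRingAut_genFn (g : GalQb) (d : DivIdx (M * r)) :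
    arithmeticRingAut (modularFunctionFieldFull (M * r)) g (genFn d) = genFn d := by
  refine Subtype.ext ?_
  have : NeZero d.1 := ⟨d.2.1.ne'⟩
  show coeffMap (g : Qb →+* Qb) (genSer Qb d) = genSer Qb d
  rw [genSer, coeffMap_qExpand, ModularCurve.coeffMap_jqModC]

theorem wField_arithmeticRingAut (hr : r.Prime) (hrM : ¬ r ∣ M) (g : GalQb)
    (x : modularFunctionFieldBar (M * r)) :
    wField hr hrM (arithmeticRingAut (modularFunctionFieldFull (M * r)) g x) =
      arithmeticRingAut (modularFunctionFieldFull (M * r)) g (wField hr hrM x) := by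
  set a := arithmeticRingAut (modularFunctionFieldFull (M * r)) g
  let f : modularFunctionFieldBar (M * r) →ₐ[Qb] modularFunctionFieldBar (M * r) :=
    { toRingHom := a.symm.toRingHom.comp ((wField hr hrM).toRingEquiv.toRingHom.comp a.toRingHom)
      commutes' := fun c => by
        show a.symm (wField hr hrM (a (algebraMap Qb _ c))) = _
        rw [arithmeticRingAut_algebraMap, AlgEquiv.commutes, ← arithmeticRingAut_algebraMap,
          RingEquiv.symm_apply_apply] }
  have h : f = (wField hr hrM).toAlgHom := algHom_ext_genFn fun d => by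
    show a.symm (wField hr hrM (a (genFn d))) = wField hr hrM (genFn d)
    rw [arithmeticRingAut_genFn, wField_genFn, RingEquiv.symm_apply_eq, arithmeticRingAut_genFn]
  have h' : a.symm (wField hr hrM (a x)) = wField hr hrM x := AlgHom.congr_fun h x
  exact (RingEquiv.symm_apply_eq a).mp h'

/-- `w_r` on `JZero (M r)` commutes with Galois. -/
theorem smul_wJ (hr : r.Prime) (hrM : ¬ r ∣ M) (g : GalQb) (z : JZero (M * r)) :
    g • wJ hr hrM z = wJ hr hrM (g • z) := by
  have h : arithmeticGalois (modularFunctionFieldFull (M * r)) g * wAut hr hrM =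
      wAut hr hrM * arithmeticGalois (modularFunctionFieldFull (M * r)) g := by
    refine Subtype.ext (Prod.ext (RingEquiv.ext fun x => ?_) ?_)
    · exact (wField_arithmeticRingAut hr hrM g x).symm
    · exact RingEquiv.ext fun c => rfl
  show g • wAut hr hrM • z = wAut hr hrM • g • z
  rw [galois_smul_pic0_def, galois_smul_pic0_def, smul_smul, smul_smul, h]

theorem nsmul_wJ_eq_zero (hr : r.Prime) (hrM : ¬ r ∣ M) {n : ℕ} {z : JZero (M * r)}
    (hz : n • z = 0) : n • wJ hr hrM z = 0 := by
  rw [← map_nsmul, hz, map_zero]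

end Fermat.Agent.LL.Mazur
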