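import Fermat.Agent.LL.Mazur.Descent
import Fermat.Agent.LL.Mazur.AtkinLehner
import Fermat.Agent.LL.Mazur.WGalois
import Fermat.Agent.BAD.Ordinary.SeriesCore
import Fermat.Agent.BAD.Modular.Swap
import Mathlib.RingTheory.Adjoin.Basic

/-!
# Functions fixed by inertia

They are quotients of combinations of the generators with constants fixed by inertia, hence their
expansions lie in the series field over those constants.
-/

set_option autoImplicit false

noncomputable section

open AlgebraicCurve ModularCurve IntermediateField IsLocalRing Fermat.Agent.BAD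
  Fermat.Agent.RED.Spec

namespace Fermat.Agent.LL.Mazur

section General

variable {L F : Type*} [Field L] [Field F] [Algebra L F] {G : Subgroup (SemilinearAut L F)}

/-- A fixed element of the field generated by fixed elements is rational over the fixed
constants. -/
theorem mem_closure_of_mem_fixF {S : Set F} (hS : S ⊆ fixF G) {x : F} (hx : x ∈ fixF G)
    (hgen : x ∈ IntermediateField.adjoin L S) :
    x ∈ Subfield.closure (algebraMap L F '' (fixL G : Set L) ∪ S) := by
  classical
  obtain ⟨a, ha, b, hb, rfl⟩ := IntermediateField.mem_adjoin_iff_div.mp hgen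
  rcases eq_or_ne b 0 with rfl | hb0
  · rw [div_zero]
    exact zero_mem _
  set K := Subfield.closure (algebraMap L F '' (fixL G : Set L) ∪ S)
  have hmon : ∀ {y : F}, y ∈ Submonoid.closure S → y ∈ fixF G ∧ y ∈ K := fun hy =>
    Submonoid.closure_induction (fun y hy => ⟨hS hy, Subfield.subset_closure (Or.inr hy)⟩)
      ⟨one_mem _, one_mem _⟩ (fun _ _ _ _ h h' => ⟨mul_mem h.1 h'.1, mul_mem h.2 h'.2⟩) hy
  rw [← Subalgebra.mem_toSubmodule, Algebra.adjoin_eq_span] at ha hb
  obtain ⟨s₁, hs₁, ha'⟩ := Submodule.mem_span_finite_of_mem_span ha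
  obtain ⟨s₂, hs₂, hb'⟩ := Submodule.mem_span_finite_of_mem_span hb
  set s := s₁ ∪ s₂
  have hs : ∀ y ∈ s, y ∈ fixF G ∧ y ∈ K := fun y hy =>
    hmon ((Finset.mem_union.mp hy).elim (fun h => hs₁ h) (fun h => hs₂ h))
  set W := Submodule.span L (s : Set F) with hW
  have hstab : ∀ σ ∈ G, ∀ w ∈ W, σ • w ∈ W := by
    intro σ hσ w hw
    induction hw using Submodule.span_induction with
    | mem y hy =>
      rw [smul_eq_of_mem hσ (hs y hy).1]
      exact Submodule.subset_span hy
    | zero => rw [smul_zero]; exact zero_mem _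
    | add y z _ _ hy hz => rw [smul_add]; exact add_mem hy hz
    | smul c y _ hy => rw [smul_smul_comm]; exact W.smul_mem _ hy
  set V : Submodule L F := W ⊓ W.comap (LinearMap.mulLeft L (a / b)) with hV
  have hVstab : ∀ σ ∈ G, ∀ v ∈ V, σ • v ∈ V := fun σ hσ v hv => by
    refine ⟨hstab σ hσ v hv.1, ?_⟩
    show a / b * (σ • v) ∈ W
    have h := hstab σ hσ _ (show a / b * v ∈ W from hv.2)
    rwa [smul_mul', smul_eq_of_mem hσ hx] at h
  have hbV : b ∈ V := by
    refine ⟨Submodule.span_mono (by simp [s]) hb', ?_⟩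
    show a / b * b ∈ W
    rw [div_mul_cancel₀ _ hb0]
    exact Submodule.span_mono (by simp [s]) ha'
  have hspan : W ≤ Submodule.span L (fixF G : Set F) :=
    Submodule.span_mono fun y hy => (hs y hy).1
  have hb2 := le_span_fixed_of_stable hVstab hbV (hspan hbV.1)
  obtain ⟨v, ⟨hvV, hvF⟩, hv0⟩ : ∃ v ∈ {v : F | v ∈ V ∧ v ∈ fixF G}, v ≠ 0 := by
    by_contra! hcon
    exact hb0 ((Submodule.mem_bot L).mp (Submodule.span_le.mpr
      (fun y hy => (Submodule.mem_bot L).mpr (hcon y hy)) hb2))
  have key : ∀ w ∈ W, w ∈ fixF G → w ∈ K := by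
    intro w hw hwF
    obtain ⟨c₀, hc₀⟩ := Submodule.mem_span_finset.mp hw
    obtain ⟨c, hc, rfl⟩ := exists_fixed_coeff s id (fun j hj => (hs j hj).1) hwF
      ⟨c₀, hc₀.2.symm⟩
    refine sum_mem fun j hj => ?_
    rw [Algebra.smul_def]
    exact mul_mem (Subfield.subset_closure (Or.inl ⟨_, hc j, rfl⟩)) (hs j hj).2
  have h1 := key v hvV.1 hvF
  have h2 := key _ (show a / b * v ∈ W from hvV.2) (mul_mem hx hvF)
  rw [← mul_div_cancel_right₀ (a / b) hv0]
  exact div_mem h2 h1

end General

local notation "Qb" => AlgebraicClosure ℚ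

section Modular

variable (M r : ℕ) [NeZero M] [NeZero r] (H : Subgroup (Qb ≃ₐ[ℚ] Qb))

/-- A group of Galois automorphisms acting on the function field of level `M r`. -/
def galImg : Subgroup (SemilinearAut Qb (modularFunctionFieldBar (M * r))) :=
  H.map (arithmeticGalois (modularFunctionFieldFull (M * r)))

variable {M r H} {A : ValuationSubring Qb}

theorem mem_fixF_galImg {x : modularFunctionFieldBar (M * r)} :
    x ∈ fixF (galImg M r H) ↔
      ∀ σ ∈ H, arithmeticGalois (modularFunctionFieldFull (M * r)) σ • x = x := by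
  rw [mem_fixF]
  refine ⟨fun h σ hσ => h _ (Subgroup.mem_map_of_mem _ hσ), fun h g hg => ?_⟩
  obtain ⟨σ, hσ, rfl⟩ := Subgroup.mem_map.mp hg
  exact h σ hσ

theorem mem_fixL_galImg {c : Qb} :
    c ∈ fixL (galImg M r H) ↔ ∀ σ ∈ H, σ c = c := by
  rw [mem_fixL']
  refine ⟨fun h σ hσ => h _ (Subgroup.mem_map_of_mem _ hσ), fun h g hg => ?_⟩
  obtain ⟨σ, hσ, rfl⟩ := Subgroup.mem_map.mp hg
  exact h σ hσ

theorem genFn_mem_fixF (d : DivIdx (M * r)) : genFn d ∈ fixF (galImg M r H) :=
  mem_fixF_galImg.mpr fun σ _ => arithmeticRingAut_genFn σ d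

theorem mem_adjoin_genFn (x : modularFunctionFieldBar (M * r)) :
    x ∈ IntermediateField.adjoin Qb (Set.range (genFn (M := M) (r := r))) := by
  have htop : (IntermediateField.adjoin Qb (Set.range (genFn (M := M) (r := r)))).map
      (modularFunctionFieldBar (M * r)).val = modularFunctionFieldBar (M * r) := by
    rw [IntermediateField.adjoin_map, ← Set.range_comp]
    exact (modField_eq_adjoin_genSer (L := Qb) (M * r)).symm
  have hx := x.2
  rw [SetLike.ext_iff] at htop
  obtain ⟨y, hy, hyx⟩ := (htop _).mpr hx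
  exact (Subtype.ext hyx : y = x) ▸ hy

variable [Fact r.Prime] (hA : A.LiesOverPrime r)

/-- The constants fixed by inertia, with uniformiser `r`. -/
def inertiaConsts : Ordinary.Consts A where
  K := (Ordinary.inertiaFixed A).toSubfield
  ϖ := (r : Qb)
  ϖ_mem := _root_.natCast_mem _ r
  ϖ_ne := Nat.cast_ne_zero.mpr (NeZero.ne r)
  ϖ_lt := ECFormal.valuation_natPrime_lt_one hA
  exists_eq x hx hx0 := ECFormal.valuation_eq_zpow_of_fixed hA Fact.out hx0 fun _ hσ =>
    Ordinary.apply_eq_self_of_mem_inertiaFixed hx hσ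
  exists_res y := by
    obtain ⟨a, ha, hay⟩ := Ordinary.exists_fixed_residue hA y
    exact ⟨a, (IntermediateField.mem_fixedField_iff _ _).mpr ha, hay⟩

theorem mem_inertiaConsts_iff {c : Qb} :
    c ∈ (inertiaConsts hA).K ↔ ∀ σ ∈ A.inertiaSubgroupIn ℚ, σ c = c :=
  IntermediateField.mem_fixedField_iff _ _

omit [Fact r.Prime] in
theorem coe_mem_serField (Q : Ordinary.Consts A) (hQ : ∀ c, c ∈ Q.K ↔ ∀ σ ∈ H, σ c = c)
    {x : modularFunctionFieldBar (M * r)} (hx : x ∈ fixF (galImg M r H)) :
    (x : LaurentSeries Qb) ∈ Q.serField := by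
  have h := mem_closure_of_mem_fixF (S := Set.range (genFn (M := M) (r := r)))
    (by rintro _ ⟨d, rfl⟩; exact genFn_mem_fixF d) hx (mem_adjoin_genFn x)
  refine (Subfield.closure_le (t := Q.serField.comap
    (modularFunctionFieldBar (M * r)).val.toRingHom)).mpr ?_ h
  rintro _ (⟨c, hc, rfl⟩ | ⟨d, rfl⟩)
  · show ((algebraMap Qb (modularFunctionFieldBar (M * r)) c : modularFunctionFieldBar (M * r)) :
      LaurentSeries Qb) ∈ Q.serField
    rw [IntermediateField.coe_algebraMap_apply, Gauss.algebraMap_eq_C]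
    exact Q.C_mem_serField ((hQ c).mpr (mem_fixL_galImg.mp hc))
  · show genSer Qb d ∈ Q.serField
    haveI : NeZero d.1 := ⟨d.2.1.ne'⟩
    rw [genSer, BAD.Modular.jqModC_eq_castSeries]
    show qExpand Qb d.1 (Gauss.castSeries Qb _) ∈ _
    rw [Gauss.castSeries, ← ModularCurve.coeffMap_qExpand]
    exact Q.castSeries_mem_serField _

end Modular

end Fermat.Agent.LL.Mazur
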