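import Fermat.Agent.LLp.Local.Node
import Fermat.Agent.BAD.Core.Curve

/-!
# Residual divisors of inertia-fixed functions with divisor divisible by `n`

A rational function, unit on both branches, whose divisor is divisible by `n` reduces on each branch
to a function with divisor divisible by `n`: at a smooth point by moving the divisor away, at a
crossing because the thickness divides the value `M` of the auxiliary function `Z`, up to a factor `M`.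
-/

set_option autoImplicit false

noncomputable section

open AlgebraicCurve Fermat.Agent.RED Fermat.Agent.LLp

namespace Fermat.Agent.LL.Mazur

variable {L k : Type*} [Field L] [Field k] {A : ValuationSubring L} {π : A →+* k}
  {F C : Type*} [Field F] [Algebra L F] [Field C] [Algebra k C] {D : BAD.BadBase π F C}
  {R : RatField D} {u : F} {ubar : C} {d : ℕ}

theorem hasOrd_pow {i : Fin 2} {x : F} {a : ℤ} (hx : R.HasOrd i x a) (n : ℕ) :
    R.HasOrd i (x ^ n) (n * a) ∧ R.lred i (x ^ n) (n * a) = R.lred i x a ^ n := by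
  induction n with
  | zero =>
    rw [pow_zero, pow_zero, Nat.cast_zero, zero_mul, RatField.hasOrd_zero_iff, RatField.lred_zero]
    exact ⟨⟨one_mem _, by rw [BAD.TwoBranch.red_one]; exact one_ne_zero⟩, D.red_one⟩
  | succ n ih =>
    obtain ⟨h1, h2⟩ := ih.1.mul hx
    rw [pow_succ, pow_succ, Nat.cast_succ, add_one_mul]
    exact ⟨h1, by rw [h2, ih.2]⟩

/-- The residual order of `f * g ^ n`. -/
theorem hasOrd_mul_pow {i : Fin 2} {f g : F} {m a : ℤ} (hf : R.HasOrd i f m)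
    (hg : R.HasOrd i g a) (n : ℕ) :
    R.HasOrd i (f * g ^ n) (m + n * a) ∧ ∀ x : Place k C,
      x.ord (R.lred i (f * g ^ n) (m + n * a)) =
        x.ord (R.lred i f m) + n * x.ord (R.lred i g a) := by
  obtain ⟨h1, h2⟩ := hf.mul (hasOrd_pow hg n).1
  refine ⟨h1, fun x => ?_⟩
  rw [h2, (hasOrd_pow hg n).2]
  simp only [RatField.lred]
  rw [x.ord_mul hf.2 (pow_ne_zero _ hg.2), ← zpow_natCast, x.ord_zpow]

variable [IsAlgClosed L] [IsAlgClosed k] [FF.IsFunctionField L F] {h : BAD.Chart D u ubar d}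

/-- At a crossing `M` times the residual orders are divisible by `n`. -/
theorem dvd_ord_red_of_crossing (hR : R.RatChart h) {x y : Place k C} (hxy : IsCrossing h x y)
    {Z : F} (hZF : Z ∈ R.FK) {M : ℕ} (hM : 0 < M) (hZ0 : R.HasOrd 0 Z 0) (hZM : R.HasOrd 1 Z M)
    (hZfree : IsFreeAt h ((0 : Fin 2), x) Z) {n : ℕ} {f : F}
    (hf : f ∈ R.FK) (hdiv : ∀ P : Place L F, (n : ℤ) ∣ P.ord f) (h₀ : R.HasOrd 0 f 0)
    (h₁ : R.HasOrd 1 f 0) :
    (n : ℤ) ∣ M * x.ord (D.red 0 f) ∧ (n : ℤ) ∣ M * y.ord (D.red 1 f) := by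
  obtain ⟨hZV, hZne⟩ := RatField.hasOrd_zero_iff.mp hZ0
  obtain ⟨hZV1, hZne1⟩ := hZM
  rw [zpow_natCast] at hZV1 hZne1
  have he : Z = (((⟨R.ϖ, R.ϖ_mem_A⟩ : A) ^ M : A) : L) • ((R.ϖ ^ M)⁻¹ • Z) := by
    rw [smul_smul, SubmonoidClass.coe_pow, mul_inv_cancel₀ (pow_ne_zero _ R.ϖ_ne), one_smul]
  have hZV' : Z ∈ D.V 1 := he ▸ D.smul_mem hZV1 _
  have hZ1 : D.red 1 Z = 0 := by
    rw [he, D.red_smul hZV1, map_pow, R.π_ϖ, zero_pow hM.ne', zero_smul]
  obtain ⟨t, X, hX, hMt⟩ := exists_nodeCoord hR hxy hZF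
    (D.mem_O.mpr (Fin.forall_fin_two.mpr ⟨hZV, hZV'⟩)) hZne hZ1 hZfree hZV1 hZne1
  obtain ⟨g, hg, hg0, hfree⟩ :=
    exists_move_crossing hR hxy hX (p := n) hf h₀.ne_zero fun P _ => hdiv P
  obtain ⟨a₀, ha₀⟩ := R.exists_hasOrd (i := 0) hg hg0
  obtain ⟨a₁, ha₁⟩ := R.exists_hasOrd (i := 1) hg hg0
  obtain ⟨o₀, e₀⟩ := hasOrd_mul_pow h₀ ha₀ n
  obtain ⟨o₁, e₁⟩ := hasOrd_mul_pow h₁ ha₁ n
  obtain ⟨k₁, k₂⟩ := hfree.crossing_unit hR hxy hX (mul_mem hf (pow_mem hg n)) o₀ o₁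
  rw [e₀, RatField.lred_zero] at k₁ k₂
  rw [e₁, RatField.lred_zero] at k₂
  have hM' : (M : ℤ) = (M / t : ℕ) * t := by
    exact_mod_cast (Nat.div_mul_cancel (Int.natCast_dvd_natCast.mp ⟨_, hMt.symm⟩)).symm
  have htx : (n : ℤ) ∣ t * x.ord (D.red 0 f) :=
    ⟨a₁ - a₀ - t * x.ord (R.lred 0 g a₀), by linear_combination -k₁⟩
  have hx : (n : ℤ) ∣ M * x.ord (D.red 0 f) := by
    rw [hM', mul_assoc]
    exact dvd_mul_of_dvd_right htx _
  refine ⟨hx, ?_⟩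
  obtain ⟨c, hc⟩ := hx
  exact ⟨-c - M * x.ord (R.lred 0 g a₀) - M * y.ord (R.lred 1 g a₁), by
    linear_combination (M : ℤ) * k₂ - hc⟩

/-- **Residual divisors.** On a chart the reductions of a rational unit with divisor divisible by
`n` have divisors divisible by `n`. -/
theorem dvd_ord_red_of_chart (hR : R.RatChart h) {Z : F} (hZF : Z ∈ R.FK) {M : ℕ} (hM : 0 < M)
    (hZ0 : R.HasOrd 0 Z 0) (hZM : R.HasOrd 1 Z M)
    (hZfree : ∀ x y, IsCrossing h x y → IsFreeAt h ((0 : Fin 2), x) Z) {n : ℕ}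
    {f : F} (hf : f ∈ R.FK) (hdiv : ∀ P : Place L F, (n : ℤ) ∣ P.ord f)
    (hfO : ∀ i, R.HasOrd i f 0) (i : Fin 2) (x : Place k C)
    (hx : ubar ∈ x.toValuationSubring) : (n : ℤ) ∣ M * x.ord (D.red i f) := by
  by_cases hs : IsSmoothPt h (i, x)
  · obtain ⟨g, hg, hg0, hfree⟩ :=
      exists_move_smooth hR hs (p := n) hf (hfO i).ne_zero fun P _ => hdiv P
    obtain ⟨a, ha⟩ := R.exists_hasOrd (i := i) hg hg0
    obtain ⟨o, e⟩ := hasOrd_mul_pow (hfO i) ha n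
    have h0 := (hfree.smooth_unit hR hs (mul_mem hf (pow_mem hg n)) o).1
    rw [e, RatField.lred_zero] at h0
    exact dvd_mul_of_dvd_right ⟨-x.ord (R.lred i g a), by linear_combination h0⟩ _
  · simp only [IsSmoothPt, hx, true_and, not_forall] at hs
    obtain ⟨⟨j, y⟩, hy, hr, hne⟩ := hs
    have hji : j ≠ i := fun hji => by
      subst hji
      exact hne (Prod.ext rfl (h.eq_of_rel_same hx hy hr).symm)
    fin_cases i <;> fin_cases j <;> first | exact absurd rfl hji | skip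
    · exact (dvd_ord_red_of_crossing hR ⟨hx, hy, hr⟩ hZF hM hZ0 hZM (hZfree _ _ ⟨hx, hy, hr⟩) hf
        hdiv (hfO 0) (hfO 1)).1
    · exact (dvd_ord_red_of_crossing hR ⟨hy, hx, hr.symm⟩ hZF hM hZ0 hZM
        (hZfree _ _ ⟨hy, hx, hr.symm⟩) hf hdiv (hfO 0) (hfO 1)).2

omit [IsAlgClosed L] [IsAlgClosed k] [FF.IsFunctionField L F] in
/-- If the values on the two branches agree modulo `n`, a power of `f` prime to `n` times an
`n`-th power is a unit on both branches. -/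
theorem exists_unit_twist {Z : F} (hZ : Z ∈ R.FK) {M : ℕ} (hZ0 : R.HasOrd 0 Z 0)
    (hZM : R.HasOrd 1 Z M) {n : ℕ} {f : F} (hf : f ∈ R.FK) {n₀ n₁ : ℤ} (h₀ : R.HasOrd 0 f n₀)
    (h₁ : R.HasOrd 1 f n₁) (hd : (n : ℤ) ∣ n₁ - n₀) :
    ∃ (c : L) (a : F), c ≠ 0 ∧ a ≠ 0 ∧ c • (a ^ n * f ^ M) ∈ R.FK ∧
      ∀ i, R.HasOrd i (c • (a ^ n * f ^ M)) 0 := by
  obtain ⟨d, hd⟩ := hd
  have hpow : ∀ (i : Fin 2) (m : ℤ), R.HasOrd i Z m → ∀ j : ℤ, R.HasOrd i (Z ^ j) (j * m) := by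
    intro i m hm j
    rcases Int.eq_nat_or_neg j with ⟨J, rfl | rfl⟩
    · rw [zpow_natCast]
      exact (hasOrd_pow hm J).1
    · rw [zpow_neg, zpow_natCast, neg_mul]
      exact (hasOrd_pow hm J).1.inv.1
  have hscale : ∀ (i : Fin 2) (x : F) (m : ℤ), R.HasOrd i x m →
      R.HasOrd i ((R.ϖ ^ m)⁻¹ • x) 0 := fun i x m hm => RatField.hasOrd_zero_iff.mpr hm
  refine ⟨(R.ϖ ^ ((M : ℤ) * n₀))⁻¹, Z ^ (-d), inv_ne_zero (R.zpow_ne _),
    zpow_ne_zero _ hZ0.ne_zero, R.zpow_smul_mem (mul_mem (pow_mem (zpow_mem hZ _) _)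
      (pow_mem hf _)) _, Fin.forall_fin_two.mpr ⟨hscale 0 _ _ ?_, hscale 1 _ _ ?_⟩⟩
  · convert ((hasOrd_pow (hpow 0 0 hZ0 (-d)) n).1.mul (hasOrd_pow h₀ M).1).1 using 1
    ring
  · convert ((hasOrd_pow (hpow 1 M hZM (-d)) n).1.mul (hasOrd_pow h₁ M).1).1 using 1
    linear_combination -(M : ℤ) * hd

omit [IsAlgClosed L] [IsAlgClosed k] [FF.IsFunctionField L F] in
/-- A unit with power residues has all scaled reductions powers up to constants. -/
theorem redIsPow_of_unit {Dc : BAD.BadCurve π F C} {n : ℕ} {f : F} (hf : f ∈ Dc.O)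
    (hf0 : ∀ i, Dc.red i f ≠ 0) (hpow : ∀ i, ∃ (a : k) (s : C), Dc.red i f = a • s ^ n) :
    Dc.RedIsPow n f := by
  intro i c hc hne
  have hfi := Dc.mem_of_mem_O hf i
  have hinv := Dc.inv_mem_of_red_ne_zero hfi (hf0 i)
  have hf' : f ≠ 0 := fun h => hf0 i (by rw [h, BAD.TwoBranch.red_zero])
  have hcV : algebraMap L F c ∈ Dc.V i := by
    have := mul_mem hc hinv
    rwa [Algebra.smul_def, mul_inv_cancel_right₀ hf'] at this
  have hcA : c ∈ A := by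
    by_contra hcA
    have hn := BAD.TwoBranch.inv_mem_nonunits_of_notMem hcA
    have hc0 : c ≠ 0 := fun h0 => hcA (h0 ▸ zero_mem A)
    have h1 := Dc.red_smul hcV ⟨c⁻¹, A.nonunits_subset hn⟩
    rw [Dc.residue_eq_zero_of_nonunit _ hn, zero_smul, Algebra.smul_def, ← map_mul,
      inv_mul_cancel₀ hc0, map_one, BAD.TwoBranch.red_one] at h1
    exact one_ne_zero h1
  obtain ⟨a, s, hs⟩ := hpow i
  refine ⟨π ⟨c, hcA⟩ * a, s, ?_⟩
  have h2 : Dc.red i (c • f) = π ⟨c, hcA⟩ • Dc.red i f := Dc.red_smul hfi ⟨c, hcA⟩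
  rw [h2, hs, smul_smul]

end Fermat.Agent.LL.Mazur
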