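import Fermat.Agent.LL.Mazur.NormRed
import Fermat.Agent.LL.Mazur.ModularKer
import Fermat.Agent.LL.Mazur.Residual
import Fermat.Agent.LLp.Degen

/-!
# Classes with residual classes at level `M`

`ResRep n y x`: a class function of the torsion class `y` is
a unit on both branches and its two reductions have the divisors of `n` times reductions of
divisors of the classes `x i` of `J₀(M)`.
-/

set_option autoImplicit false
set_option linter.style.haveILetI false
set_option linter.unusedSectionVars false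
set_option synthInstance.maxHeartbeats 200000

noncomputable section

open AlgebraicCurve ModularCurve IsLocalRing Fermat.Agent.RED

namespace Fermat.Agent.LL.Mazur

local notation "Qb" => AlgebraicClosure ℚ

variable {M r : ℕ} [NeZero M] [NeZero r] (hr : r.Prime) (hrM : ¬ r ∣ M)
  {A : ValuationSubring Qb} (hA : A.LiesOverPrime r)

/-- A class function of `y`, unit on both branches, with residual classes `x`. -/
def ResRep (n : ℕ) (y : JZero (M * r)) (x : Fin 2 → JZero M) : Prop :=
  ∃ f : modularFunctionFieldBar (M * r), LLp.IsClassFun n y f ∧ ∀ i,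
    f ∈ (mCurve hr hrM hA).V i ∧ (mCurve hr hrM hA).red i f ≠ 0 ∧
      ∃ E : Divisor.degZero (K := Qb) (F := modularFunctionFieldBar M), Pic0.mk E = x i ∧
        IsDivisorOf (n • Finsupp.mapDomain (redPl hr hrM hA)
          (E : Divisor Qb (modularFunctionFieldBar M))) ((mCurve hr hrM hA).red i f)

variable {n : ℕ} {y y' : JZero (M * r)} {x x' : Fin 2 → JZero M}

theorem resRep_zero : ResRep hr hrM hA n 0 0 :=
  ⟨1, LLp.IsClassFun.one_aux, fun i => ⟨one_mem _, by
    rw [BAD.TwoBranch.red_one]; exact one_ne_zero, 0, rfl, fun v => by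
    rw [BAD.TwoBranch.red_one, ZeroMemClass.coe_zero, Finsupp.mapDomain_zero, smul_zero,
      Finsupp.zero_apply, Place.ord_one]⟩⟩

variable {hr hrM hA}

theorem ResRep.add (h : ResRep hr hrM hA n y x) (h' : ResRep hr hrM hA n y' x') :
    ResRep hr hrM hA n (y + y') (x + x') := by
  obtain ⟨f, hf, hi⟩ := h
  obtain ⟨g, hg, hj⟩ := h'
  refine ⟨f * g, hf.mul hg, fun i => ?_⟩
  obtain ⟨hfV, hf0, E, hE, hED⟩ := hi i
  obtain ⟨hgV, hg0, E', hE', hED'⟩ := hj i
  refine ⟨mul_mem hfV hgV, ?_, E + E', ?_, fun v => ?_⟩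
  · rw [BAD.TwoBranch.red_mul _ hfV hgV]; exact mul_ne_zero hf0 hg0
  · rw [Pi.add_apply, ← hE, ← hE']; rfl
  · rw [BAD.TwoBranch.red_mul _ hfV hgV, AddSubgroup.coe_add, Finsupp.mapDomain_add, smul_add]
    exact isDivisorOf_mul hED hED' hf0 hg0 v

theorem ResRep.neg (h : ResRep hr hrM hA n y x) : ResRep hr hrM hA n (-y) (-x) := by
  obtain ⟨f, hf, hi⟩ := h
  refine ⟨f⁻¹, hf.inv, fun i => ?_⟩
  obtain ⟨hfV, hf0, E, hE, hED⟩ := hi i
  refine ⟨BAD.TwoBranch.inv_mem_of_red_ne_zero _ hfV hf0, ?_, -E, ?_, fun v => ?_⟩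
  · rw [BAD.TwoBranch.red_inv _ hfV hf0]; exact inv_ne_zero hf0
  · rw [Pi.neg_apply, ← hE]; rfl
  · rw [BAD.TwoBranch.red_inv _ hfV hf0, AddSubgroup.coe_neg, Place.ord_inv,
      show Finsupp.mapDomain (redPl hr hrM hA) (-(E : Divisor Qb (modularFunctionFieldBar M))) =
        -Finsupp.mapDomain (redPl hr hrM hA) (E : Divisor Qb (modularFunctionFieldBar M)) from
        map_neg (Finsupp.mapDomain.addMonoidHom (redPl hr hrM hA)) _,
      smul_neg, Finsupp.neg_apply, hED v]

theorem ResRep.zsmul (h : ResRep hr hrM hA n y x) (a : ℤ) :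
    ResRep hr hrM hA n (a • y) (a • x) := by
  induction a using Int.induction_on with
  | zero =>
    rw [zero_zsmul, zero_zsmul]
    exact resRep_zero hr hrM hA
  | succ a ih =>
    rw [add_zsmul, add_zsmul, one_zsmul, one_zsmul]
    exact ih.add h
  | pred a ih =>
    rw [sub_eq_add_neg, add_zsmul, add_zsmul, neg_one_zsmul, neg_one_zsmul]
    exact ih.add h.neg

theorem ResRep.hecke (h : ResRep hr hrM hA n y x) (l : Nat.Primes) (hl : ¬ (l : ℕ) ∣ M * r) :
    ResRep hr hrM hA n (heckeOperatorBar (M * r) l y) fun i => heckeOperatorBar M l (x i) := by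
  obtain ⟨f, hf, hi⟩ := h
  haveI : NeZero (l : ℕ) := ⟨l.2.ne_zero⟩
  have hlM : ¬ (l : ℕ) ∣ M := fun h => hl (h.mul_right r)
  have hlr : (l : ℕ) ≠ r := fun h => hl (h ▸ dvd_mul_left r M)
  obtain ⟨ζ, hζ⟩ := exists_primitiveRoot_units (A := A) (l := (l : ℕ)) l.2
  refine ⟨heckeNorm (M * r) l f, hf.hecke l, fun i => ?_⟩
  obtain ⟨hfV, hf0, E, hE, hED⟩ := hi i
  obtain ⟨hV, h0, hser⟩ := red_heckeNorm hr hrM hA l.2 hl hζ hfV hf0
  obtain ⟨χ, -, hχ, hdiv⟩ := exists_norm_reduction hr hrM hA l.2 hlM hlr hζ hf0 hED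
  refine ⟨hV, h0, ⟨_, heckeDiv_mem_degZero M l E.2⟩, ?_, ?_⟩
  · show _ = heckeOperatorBar M l (x i)
    rw [← hE, heckeOperatorBar_mk M (l : ℕ) l rfl]
  · rw [show (mCurve hr hrM hA).red i (heckeNorm (M * r) l f) = χ from
      Subtype.ext ((qExpand (ResidueField A) (l : ℕ)).injective (hser.trans hχ.symm))]
    exact hdiv

/-- Reduction of places keeps the degree of divisors. -/
theorem degree_mapDomain_redPl (D : Divisor Qb (modularFunctionFieldBar M)) :
    Divisor.degree (Finsupp.mapDomain (redPl hr hrM hA) D) = Divisor.degree D := by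
  induction D using Finsupp.induction with
  | zero => simp
  | single_add v c D _ _ ih =>
    rw [Finsupp.mapDomain_add, map_add, map_add, ih, Finsupp.mapDomain_single,
      Divisor.degree_single, Divisor.degree_single]
    congr 3
    exact (exists_twoCharts_x0 hr hrM hA (x0Lift hr hrM hA)).choose_spec.deg_redPlace v

/-- The residual classes exist when the residual orders are divisible by `n`. -/
theorem exists_resRep (hn : n ≠ 0) {f : modularFunctionFieldBar (M * r)}
    (hf : LLp.IsClassFun n y f)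
    (hu : ∀ i, f ∈ (mCurve hr hrM hA).V i ∧ (mCurve hr hrM hA).red i f ≠ 0)
    (hdvd : ∀ (i : Fin 2) (R : Place (ResidueField A)
      (modularFunctionFieldFullC (ResidueField A) M)),
      (n : ℤ) ∣ R.ord ((mCurve hr hrM hA).red i f)) :
    ∃ x : Fin 2 → JZero M, ResRep hr hrM hA n y x := by
  classical
  haveI := isFunctionField_special M (natCast_residue_ne_zero hr hrM hA)
  suffices ∀ i, ∃ E : Divisor.degZero (K := Qb) (F := modularFunctionFieldBar M),
      IsDivisorOf (n • Finsupp.mapDomain (redPl hr hrM hA)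
        (E : Divisor Qb (modularFunctionFieldBar M))) ((mCurve hr hrM hA).red i f) by
    choose E hE using this
    exact ⟨fun i => Pic0.mk (E i), f, hf, fun i => ⟨(hu i).1, (hu i).2, E i, rfl, hE i⟩⟩
  intro i
  obtain ⟨E₀, hE₀, hdeg₀⟩ := HasPrincipalDivisors.exists_divisor
    (K := ResidueField A) ((mCurve hr hrM hA).red i f) (hu i).2
  let D₀ : Divisor (ResidueField A) (modularFunctionFieldFullC (ResidueField A) M) :=
    E₀.mapRange (fun z => z / (n : ℤ)) (Int.zero_ediv _)
  have hD₀ : n • D₀ = E₀ := Finsupp.ext fun R => by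
    rw [Finsupp.smul_apply, Finsupp.mapRange_apply, nsmul_eq_mul,
      Int.mul_ediv_cancel' (hE₀ R ▸ hdvd i R)]
  have hs := redPl_surjective hr hrM hA
  set D := Finsupp.mapDomain (Function.surjInv hs) D₀ with hD
  have hmap : Finsupp.mapDomain (redPl hr hrM hA) D = D₀ := by
    rw [hD, ← Finsupp.mapDomain_comp, (Function.rightInverse_surjInv hs).id, Finsupp.mapDomain_id]
  have hdegD : D ∈ Divisor.degZero (K := Qb) (F := modularFunctionFieldBar M) := by
    rw [Divisor.mem_degZero, ← degree_mapDomain_redPl (hr := hr) (hrM := hrM) (hA := hA), hmap]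
    have h := hdeg₀
    rw [← hD₀, map_nsmul, nsmul_eq_mul] at h
    exact (mul_eq_zero.mp h).resolve_left (Nat.cast_ne_zero.mpr hn)
  refine ⟨⟨D, hdegD⟩, fun R => ?_⟩
  show (n • Finsupp.mapDomain (redPl hr hrM hA) D) R = _
  rw [hmap, hD₀, hE₀ R]

/-- With trivial residual classes the reductions are constants times `n`-th powers. -/
theorem ResRep.exists_redIsPow (h : ResRep hr hrM hA n y 0) :
    ∃ f : modularFunctionFieldBar (M * r), LLp.IsClassFun n y f ∧
      (mCurve hr hrM hA).RedIsPow n f := by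
  obtain ⟨f, hf, hi⟩ := h
  haveI := Galois.place_residueField_isAlgClosed A
  haveI := isFunctionField_special M (natCast_residue_ne_zero hr hrM hA)
  haveI := hasPrincipalDivisors_bar M
  refine ⟨f, hf, redIsPow_of_unit ((mCurve hr hrM hA).mem_O.mpr fun i => (hi i).1)
    (fun i => (hi i).2.1) fun i => ?_⟩
  obtain ⟨hfV, hf0, E, hE, hED⟩ := hi i
  rw [Pi.zero_apply, Pic0.mk, QuotientAddGroup.eq_zero_iff, AddSubgroup.mem_addSubgroupOf] at hE
  obtain ⟨h0, h0ne, hh0⟩ := hE
  obtain ⟨c, w, hc, hw, hcw⟩ := (x0Red hr hrM hA).exists_scale h0ne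
  have hEw : IsDivisorOf (E : Divisor Qb (modularFunctionFieldBar M))
      ((w : (x0Red hr hrM hA).W) : modularFunctionFieldBar M) := fun v => by
    rw [hh0 v, hcw, v.ord_mul (by simpa using hc)
      (((x0Red hr hrM hA).reduces_coe w).ne_zero hw), ord_algebraMap', zero_add]
  have hdiv := mapDomain_redPl hr hrM hA hw
    (gRed_of_reduces hr hrM hA ((x0Red hr hrM hA).reduces_coe w)) hEw
  set φ := (x0Red hr hrM hA).red w with hφ
  have hpn : φ ^ n ≠ 0 := pow_ne_zero _ hw
  obtain ⟨a, ha⟩ := JPairing.eq_algebraMap_of_forall_ord_eq_zero (K := ResidueField A)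
    (f := (mCurve hr hrM hA).red i f * (φ ^ n)⁻¹) fun v => by
      rw [v.ord_mul hf0 (inv_ne_zero hpn), v.ord_inv, ord_pow' v hw, ← hED v,
        Finsupp.smul_apply, hdiv v, nsmul_eq_mul, add_neg_cancel]
  exact ⟨a, φ, by rw [Algebra.smul_def, ha, inv_mul_cancel_right₀ hpn]⟩

end Fermat.Agent.LL.Mazur
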