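import Fermat.Agent.LL.Mazur.Principle
import Fermat.Agent.LL.Mazur.WGalois
import Fermat.Agent.LL.Mazur.Quadratic
import Fermat.Agent.LowerSq.Defs
import Fermat.Agent.HK.HeckeFinal
import Mathlib.LinearAlgebra.Matrix.ToLin

/-!
# The Mazur principle on an eigen module

Points of `J₀(M r)` fixed by inertia at `r`, killed by an `n` prime to `r`: on the image of a good
Hecke operator killing `J₀(M)` a Frobenius at `r` squares to `r²` and commutes with Galois.  On a
module carrying a residually absolutely irreducible plane representation unramified at `r` this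
makes Frobenius a scalar `s` with `s² = r²`.
-/

set_option autoImplicit false

noncomputable section

open ModularCurve Fermat.Agent.TraceFn

namespace Fermat.Agent.LL.Mazur

local notation "GalQb" => AlgebraicClosure ℚ ≃ₐ[ℚ] AlgebraicClosure ℚ

variable {M r : ℕ} [NeZero M] [NeZero r] {S : Finset ℕ}

omit [NeZero M] [NeZero r] in
theorem galois_nsmul (g : GalQb) (k : ℕ) (x : JZero (M * r)) : g • (k • x) = k • g • x :=
  map_nsmul (DistribSMul.toAddMonoidHom (JZero (M * r)) g) k x

omit [NeZero M] [NeZero r] in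
theorem galois_neg (g : GalQb) (x : JZero (M * r)) : g • (-x) = -(g • x) :=
  map_neg (DistribSMul.toAddMonoidHom (JZero (M * r)) g) x

/-- `t P (T_l - l - 1)`. -/
def mazurOp (t : ℕ) (P : AwayHecke S) (l : ℕ) : AwayHecke S :=
  P * ((t : AwayHecke S) * LowerSq.eisOp S l)

theorem jHecke_mazurOp (t : ℕ) (P : AwayHecke S) {l : ℕ} (hl : l.Prime) (hlS : l ∉ S)
    (z : JZero (M * r)) :
    jHecke (M * r) (awayIncl S (mazurOp t P l)) z =
      (letI := heckeModuleBar (M * r); awayIncl S P •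
        (t • (heckeOperatorBar (M * r) ⟨l, hl⟩ z - (l + 1) • z))) := by
  let := heckeModuleBar (M * r)
  have h1 : ((l : ℤ) + 1) • z = (l + 1) • z := by
    rw [← natCast_zsmul, Nat.cast_add, Nat.cast_one]
  rw [jHecke_apply, mazurOp, LowerSq.eisOp, map_mul, map_mul, map_sub, awayIncl_awayGen hl hlS,
    map_natCast, eq_intCast (MvPolynomial.C : ℤ →+* AwayHecke S), map_intCast, mul_smul, mul_smul,
    sub_smul, Nat.cast_smul_eq_nsmul, Int.cast_smul_eq_zsmul, h1]
  exact congrArg (fun x => awayIncl S P • (t • (x - (l + 1) • z)))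
    (HK.Corr.heckeModuleBar_heckeGen_smul_eq (M * r) ⟨l, hl⟩ z)

section Points

variable (hr : r.Prime) (hrM : ¬ r ∣ M) (hS : ∀ q : ℕ, q.Prime → q ∣ M * r → q ∈ S) (t : ℕ)
  (ht : t = 12 ∨ (t = 8 ∧ ∃ q : ℕ, q.Prime ∧ q ∣ M ∧ q % 3 = 2))
  (P : AwayHecke S) (hP : ∀ y : JZero M, jHecke M (awayIncl S P) y = 0)
  {l : ℕ} (hl : l.Prime) (hlS : l ∉ S)
  {A : ValuationSubring (AlgebraicClosure ℚ)} (hA : A.LiesOverPrime r) {σ : GalQb}
  (hσ : A.IsFrobeniusAt σ r) {n : ℕ} (hn : n.Coprime r) {z : JZero (M * r)} (hz : n • z = 0)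
  (hfix : ∀ g ∈ A.inertiaSubgroupIn ℚ, g • z = z)

include hr hrM hS ht hP hl hlS hA hσ hn hz hfix

theorem smul_wJ_mazurOp :
    σ • wJ hr hrM (jHecke (M * r) (awayIncl S (mazurOp t P l)) z) =
      -(r • jHecke (M * r) (awayIncl S (mazurOp t P l)) z) := by
  rw [jHecke_mazurOp t P hl hlS]
  refine mazur_principle_general hr hrM hn t ht z hz A hA hfix (awayIncl S P) (fun q hq => ?_)
    (fun y => (jHecke_apply M _ y).symm.trans (hP y)) ⟨l, hl⟩ (fun h => hlS (hS l hl h)) σ hσ
  classical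
  obtain ⟨i, -, rfl⟩ := Finset.mem_image.mp (MvPolynomial.vars_rename _ P hq)
  exact fun h => i.2 (hS _ i.1.2 h)

theorem wJ_mazurOp :
    wJ hr hrM (jHecke (M * r) (awayIncl S (mazurOp t P l)) z) =
      -(r • σ⁻¹ • jHecke (M * r) (awayIncl S (mazurOp t P l)) z) := by
  have h := congrArg (σ⁻¹ • ·)
    (smul_wJ_mazurOp hr hrM hS t ht P hP hl hlS hA hσ hn hz hfix)
  simp only [inv_smul_smul, galois_neg, galois_nsmul] at h
  exact h

theorem sq_smul_mazurOp :
    σ • σ • jHecke (M * r) (awayIncl S (mazurOp t P l)) z =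
      (r * r) • jHecke (M * r) (awayIncl S (mazurOp t P l)) z := by
  have h := wJ_mazurOp hr hrM hS t ht P hP hl hlS hA hσ hn hz hfix
  have h2 := congrArg (wJ hr hrM) h
  rw [wJ_wJ, map_neg, map_nsmul, ← smul_wJ, h] at h2
  have key : ∀ a : JZero (M * r), σ • σ • (-(r • σ⁻¹ • -(r • σ⁻¹ • a))) = (r * r) • a :=
    fun a => by
      simp only [galois_neg, galois_nsmul, smul_inv_smul, neg_nsmul, neg_neg, mul_smul]
  conv_lhs => rw [h2]
  exact key _

theorem conj_smul_mazurOp (g : GalQb) (hgfix : ∀ τ ∈ A.inertiaSubgroupIn ℚ, τ • g • z = g • z) :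
    r • ((σ * g * σ⁻¹) • jHecke (M * r) (awayIncl S (mazurOp t P l)) z) =
      r • (g • jHecke (M * r) (awayIncl S (mazurOp t P l)) z) := by
  set u := jHecke (M * r) (awayIncl S (mazurOp t P l)) z with hu
  have hgz : n • g • z = 0 := by
    rw [← galois_nsmul, hz]
    exact smul_zero (A := JZero (M * r)) g
  have h := smul_wJ_mazurOp hr hrM hS t ht P hP hl hlS hA hσ hn hgz hgfix
  rw [jHecke_galois, ← hu, ← smul_wJ, wJ_mazurOp hr hrM hS t ht P hP hl hlS hA hσ hn hz hfix] at h
  simp only [galois_neg, galois_nsmul, neg_inj, ← hu, smul_smul σ g, smul_smul (σ * g) σ⁻¹] at h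
  exact h

end Points

section Module

variable {R : Type} [CommRing R] {Y : Type} [AddCommGroup Y] [Module R Y]
  (ρ : GalQb →* Matrix (Fin 2) (Fin 2) R) (τ : GalQb →* Module.End R Y)
  {J : Type} (π : J → Y →+ JZero (M * r)) (n : J → ℕ)

/-- An eigen module of points of `J₀(M r)` over a plane representation. -/
structure IsEigenPoints : Prop where
  quad : ∀ g, τ g * τ g = (ρ g).trace • τ g - (ρ g).det • (1 : Module.End R Y)
  span : Submodule.span R (Set.range ρ) = ⊤
  two : IsUnit (2 : R)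
  faith : ∀ a : R, (∀ y : Y, a • y = 0) → a = 0
  inj : ∀ y : Y, (∀ j, π j y = 0) → y = 0
  galois : ∀ j g y, π j (τ g y) = g • π j y
  coprime : ∀ j, (n j).Coprime r
  torsion : ∀ j y, n j • π j y = 0

variable {ρ τ π n}

omit [NeZero M] [NeZero r] in
theorem IsEigenPoints.algAct_eq {h : IsEigenPoints ρ τ π n} {g : GalQb} (hg : ρ g = 1) :
    τ g = 1 := by
  have h0 := algAct_eq_zero h.quad h.span h.two
    (x := MonoidAlgebra.of R GalQb g - 1) (by rw [map_sub, MonoidAlgebra.lift_of, hg, map_one, sub_self])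
  rwa [map_sub, MonoidAlgebra.lift_of, map_one, sub_eq_zero] at h0

/-- **Frobenius at `r` is a scalar whose square is `r²`.** -/
theorem IsEigenPoints.exists_scalar (h : IsEigenPoints ρ τ π n) (hr : r.Prime) (hrM : ¬ r ∣ M)
    (hS : ∀ q : ℕ, q.Prime → q ∣ M * r → q ∈ S) (t : ℕ)
    (ht : t = 12 ∨ (t = 8 ∧ ∃ q : ℕ, q.Prime ∧ q ∣ M ∧ q % 3 = 2))
    (P : AwayHecke S) (hP : ∀ y : JZero M, jHecke M (awayIncl S P) y = 0)
    {l : ℕ} (hl : l.Prime) (hlS : l ∉ S) (c : R)
    (hc : ∀ j y, jHecke (M * r) (awayIncl S (mazurOp t P l)) (π j y) = π j (c • y))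
    (hcreg : ∀ a : R, c * a = 0 → a = 0) (hrreg : ∀ a : R, (r : R) * a = 0 → a = 0)
    {A : ValuationSubring (AlgebraicClosure ℚ)} (hA : A.LiesOverPrime r)
    (hunr : ∀ g ∈ A.inertiaSubgroupIn ℚ, ρ g = 1) {σ : GalQb} (hσ : A.IsFrobeniusAt σ r) :
    ∃ s : R, ρ σ = s • 1 ∧ s * s = (r : R) * r := by
  have hfix : ∀ j y, ∀ g ∈ A.inertiaSubgroupIn ℚ, g • π j y = π j y := fun j y g hg => by
    rw [← h.galois, IsEigenPoints.algAct_eq (h := h) (hunr g hg), Module.End.one_apply]
  have hsq : c • algAct τ (MonoidAlgebra.of R GalQb (σ * σ) - ((r * r : ℕ) : R) • 1) = 0 := by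
    simp only [map_sub, map_smul, map_one, algAct, MonoidAlgebra.lift_of, map_mul]
    refine LinearMap.ext fun y => h.inj _ fun j => ?_
    have h1 := sq_smul_mazurOp hr hrM hS t ht P hP hl hlS hA hσ (h.coprime j) (h.torsion j y)
      (hfix j y)
    rw [hc] at h1
    have e : (c • (τ σ * τ σ - ((r * r : ℕ) : R) • (1 : Module.End R Y))) y =
        τ σ (τ σ (c • y)) - ((r * r : ℕ) : R) • (c • y) := by
      rw [LinearMap.smul_apply, LinearMap.sub_apply, LinearMap.smul_apply, smul_sub,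
        Module.End.mul_apply, Module.End.one_apply, map_smul, map_smul, smul_comm c]
    rw [e, map_sub, sub_eq_zero, Nat.cast_smul_eq_nsmul, map_nsmul, h.galois, h.galois]
    exact h1
  have hcomm : ∀ g, (c * r) • algAct τ
      (MonoidAlgebra.of R GalQb (σ * g * σ⁻¹) - MonoidAlgebra.of R GalQb g) = 0 := by
    intro g
    simp only [map_sub, algAct, MonoidAlgebra.lift_of]
    refine LinearMap.ext fun y => h.inj _ fun j => ?_
    have h1 := conj_smul_mazurOp hr hrM hS t ht P hP hl hlS hA hσ (h.coprime j) (h.torsion j y)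
      (hfix j y) g (fun g' hg' => by rw [← h.galois j g]; exact hfix j _ g' hg')
    rw [hc] at h1
    have e : ((c * r) • (τ (σ * g * σ⁻¹) - τ g)) y =
        (r : R) • τ (σ * g * σ⁻¹) (c • y) - (r : R) • τ g (c • y) := by
      rw [LinearMap.smul_apply, LinearMap.sub_apply, smul_sub, map_smul, map_smul, smul_smul,
        smul_smul, mul_comm c]
    rw [e, map_sub, sub_eq_zero, Nat.cast_smul_eq_nsmul, Nat.cast_smul_eq_nsmul, map_nsmul,
      map_nsmul, h.galois, h.galois]
    exact h1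
  have e2 := smul_algRep_eq_zero h.quad h.span h.two h.faith hsq
  rw [map_sub, map_smul, map_one, MonoidAlgebra.lift_of, map_mul] at e2
  have hcen : ∀ g, ρ σ * ρ g = ρ g * ρ σ := by
    intro g
    have e := smul_algRep_eq_zero h.quad h.span h.two h.faith (hcomm g)
    rw [map_sub, MonoidAlgebra.lift_of, MonoidAlgebra.lift_of] at e
    have e' : ρ (σ * g * σ⁻¹) = ρ g := by
      ext a b
      refine sub_eq_zero.mp (hrreg _ (hcreg _ ?_))
      have := congrFun (congrFun e a) b
      rwa [Matrix.smul_apply, Matrix.sub_apply, smul_eq_mul, mul_assoc, Matrix.zero_apply] at this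
    have := congrArg (· * ρ σ) e'
    simp only [← map_mul, inv_mul_cancel_right] at this
    rwa [map_mul, map_mul] at this
  have hall : ∀ X : Matrix (Fin 2) (Fin 2) R, ρ σ * X = X * ρ σ := by
    intro X
    have hle : Submodule.span R (Set.range ρ) ≤ LinearMap.ker
        (LinearMap.mulLeft R (ρ σ) - LinearMap.mulRight R (ρ σ)) := by
      rw [Submodule.span_le]
      rintro _ ⟨g, rfl⟩
      simp [hcen g]
    have := hle (h.span.symm ▸ Submodule.mem_top (x := X))
    simpa [sub_eq_zero] using this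
  obtain ⟨s, hs⟩ : ∃ s : R, ρ σ = s • 1 := by
    refine ⟨ρ σ 0 0, ?_⟩
    have d1 : ρ σ 0 0 = ρ σ 1 1 := by
      have := congrFun (congrFun (hall (Matrix.single 0 1 1)) 0) 1
      simpa [Matrix.mul_apply, Matrix.single_apply] using this
    have d2 : ρ σ 1 0 = 0 := by
      have := congrFun (congrFun (hall (Matrix.single 0 1 1)) 1) 1
      simpa [Matrix.mul_apply, Matrix.single_apply] using this
    have d3 : ρ σ 0 1 = 0 := by
      have := congrFun (congrFun (hall (Matrix.single 1 0 1)) 0) 0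
      simpa [Matrix.mul_apply, Matrix.single_apply] using this
    rw [Matrix.eta_fin_two (ρ σ), d2, d3, ← d1]
    ext i j
    fin_cases i <;> fin_cases j <;> simp
  refine ⟨s, hs, sub_eq_zero.mp (hcreg _ ?_)⟩
  have := congrFun (congrFun e2 0) 0
  simpa [hs, Matrix.smul_apply] using this

end Module

end Fermat.Agent.LL.Mazur
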